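/-
Programme JAC (S25), chapter Final: THE ASSEMBLY OF S25 FROM ITS INPUTS (helper10).

`s25_of_inputs` proves the statement of S25 from an explicit list of hypotheses, each of which
is the output of one work package of the programme.  Everything else (representability on all
schemes, the designation, the Poincaré bundle, the group scheme structure, smoothness,
properness, connectedness, the passage from the degree-zero cut to the algebraic-equivalence
cut) is proved here from landed files.
-/
import Fermat.Agent.JAC.Repr.Jacobian10
import Fermat.Agent.JAC.Repr.Lifting10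
import Fermat.Agent.JAC.Repr.Group10
import Fermat.Agent.JAC.Repr.GroupProd10
import Fermat.Agent.JAC.Repr.RelModel10
import Fermat.Agent.JAC.Prop.JacobianProps27
import Fermat.Agent.JAC.AE0.Transfer35
import Fermat.Agent.JAC.Glue.SmallClasses23

set_option autoImplicit false

universe u

open CategoryTheory Limits Opposite AlgebraicGeometry AlgebraicGeometry.RelPicard NeronModelInfra
  GoodReductionJacobian MonoidalCategory CartesianMonoidalCategory MonObj

namespace Fermat.Agent.JAC.Final.S25Assembly10

open Fermat.Agent.JAC.Repr.StdCover10 Fermat.Agent.JAC.Repr.AllSchemes10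
  Fermat.Agent.JAC.Repr.Wiring10 Fermat.Agent.JAC.Repr.Restrict10
  Fermat.Agent.JAC.Repr.Jacobian10 Fermat.Agent.JAC.Repr.Lifting10
  Fermat.Agent.JAC.Repr.Group10 Fermat.Agent.JAC.Repr.GroupProd10
  Fermat.Agent.JAC.Repr.RelModel10 Fermat.Agent.JAC.Grp.OverAff6
  Fermat.Agent.JAC.AE0.DegZero35 Fermat.Agent.JAC.AE0.Transfer35
  Fermat.Agent.JAC.Glue.SmallClasses23

section Small

variable {R : Type u} [CommRing R] {C : Scheme.{u}} {c : C ⟶ Spec (CommRingCat.of R)}
  {ε : SchemeHomOver (𝟙 (Spec (CommRingCat.of R))) c}

/-- The classes in a cut are small (helper23's `small_classes`). -/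
instance small_cutClasses (P : SubPicCondition c ε) {T : Scheme.{u}}
    (t : T ⟶ Spec (CommRingCat.of R)) : Small.{u} (CutClasses P t) := by
  unfold CutClasses
  infer_instance

end Small

variable (k : Type u) [Field k] [IsAlgClosed k] {C : Scheme.{u}}
  (c : C ⟶ Spec (CommRingCat.of k)) [IsProper c] [SmoothOfRelativeDimension 1 c] [IsIntegral C]
  (ε : SchemeHomOver (𝟙 (Spec (CommRingCat.of k))) c)

/-- **S25 from its inputs.**
* `d`: the degree theory on geometric fibres (B3 + Frame; helper35);
* `hdesc`: Zariski descent for degree-zero rigidified line bundles (G4; helper30/helper1), to be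
  proved through `Wiring10.CutDescent.of_bundles`;
* `A`: the atlas (A4/A5 through the dictionary B3.4; helper24 + helper36);
* `hft`: the chart rings are of finite type over `k`;
* `grp`, `res_mul`, `hcomm`: the group structure on classes over affine bases (A6c through B3.4);
* `hFS`: degree-zero classes lift along square-zero thickenings (A6a/A6b through B3.4);
* `a`, `g`, `hG`: the Abel map and Jacobi inversion (A5.3 + A2; helper57/helper98). -/
theorem s25_of_inputs
    (d : FibreDegree c)
    (hdesc : CutDescent (degZeroCut d ε))
    (A : Atlas (affRestrict (G (degZeroCut d ε))))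
    (hft : ∀ β, LocallyOfFiniteType (A.x β).str)
    [grp : ∀ b : AffIdx (Spec (CommRingCat.of k)), Group (CutClasses (degZeroCut d ε) b.2)]
    (res_mul : ∀ {b b' : AffIdx (Spec (CommRingCat.of k))} (ψ : SchemeHomOver b'.2 b.2)
      (x y : CutClasses (degZeroCut d ε) b.2), cutMap ψ (x * y) = cutMap ψ x * cutMap ψ y)
    (hcomm : ∀ (b : AffIdx (Spec (CommRingCat.of k))) (x y : CutClasses (degZeroCut d ε) b.2),
      x * y = y * x)
    (hFS : CutFormallySmooth (degZeroCut d ε))
    (g : ℕ)
    (a : Over.mk c ⟶ Over.mk (toBase (jacRep hdesc A)))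
    (hG :
      letI := grpObj (jacRep hdesc A) res_mul
      haveI := isCommMonObj (jacRep hdesc A) res_mul hcomm
      ∀ (K : Type u) [Field K] [IsAlgClosed K]
        (t : Spec (CommRingCat.of K) ⟶ Spec (CommRingCat.of k))
        (z : Over.mk t ⟶ Over.mk (toBase (jacRep hdesc A))),
        ∃ y : Fin g → (Over.mk t ⟶ Over.mk c), ∏ i, y i ≫ a = z) :
    ∃ D : RelativePic0Designation k c,
      Nonempty (RepresentsRelSubPic c ε (algEquivZeroCut c ε) D) ∧
        Smooth D.toBase ∧ IsProper D.toBase ∧ GeometricallyConnected D.toBase := by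
  let _ := grpObj (jacRep hdesc A) res_mul
  have := isCommMonObj (jacRep hdesc A) res_mul hcomm
  have hlft : LocallyOfFiniteType (toBase (jacRep hdesc A)) :=
    haveI : IsZariskiLocalAtSource @LocallyOfFiniteType.{u} :=
      HasRingHomProperty.instIsZariskiLocalAtSource
    toBase_of_charts hdesc A @LocallyOfFiniteType hft
  obtain ⟨hsm, hpr, hconn, hint⟩ :=
    Fermat.Agent.JAC.Prop.JacobianProps27.jacobian_properties c (toBase (jacRep hdesc A))
      (hasInfinitesimalLifting_toBase (jacRep hdesc A) hFS) a g hG
  have : LocallyOfFiniteType (jacDesignation hdesc A).toBase := hlft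
  have : GeometricallyIntegral (jacDesignation hdesc A).toBase := hint
  exact ⟨jacDesignation hdesc A,
    ⟨representsRelSubPic_algEquivZeroCut d (jacDesignation hdesc A) (jacRepresents hdesc A)⟩,
    hsm, hpr, hconn⟩

/-- **S25 from its inputs, Jacobi inversion stated on classes.**  Same as `s25_of_inputs`, with
commutative group structures on the classes over affine bases, and with the Jacobi inversion
hypothesis in the form: over an algebraically closed field `K`, every degree-zero class `ξ` is
the product of the classes of `g` points of the curve under the Abel map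
(`overHomEquiv rep t (y ≫ a)` is the class of the pullback of the universal class along
`y ≫ a`, i.e. the class of the Abel bundle restricted to `C_K × {y}`). -/
theorem s25_of_inputs'
    (d : FibreDegree c)
    (hdesc : CutDescent (degZeroCut d ε))
    (A : Atlas (affRestrict (G (degZeroCut d ε))))
    (hft : ∀ β, LocallyOfFiniteType (A.x β).str)
    [cgrp : ∀ b : AffIdx (Spec (CommRingCat.of k)), CommGroup (CutClasses (degZeroCut d ε) b.2)]
    (res_mul : ∀ {b b' : AffIdx (Spec (CommRingCat.of k))} (ψ : SchemeHomOver b'.2 b.2)
      (x y : CutClasses (degZeroCut d ε) b.2), cutMap ψ (x * y) = cutMap ψ x * cutMap ψ y)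
    (hFS : CutFormallySmooth (degZeroCut d ε))
    (g : ℕ)
    (a : Over.mk c ⟶ Over.mk (toBase (jacRep hdesc A)))
    (hG : ∀ (K : Type u) [Field K] [IsAlgClosed K]
      (t : Spec (CommRingCat.of K) ⟶ Spec (CommRingCat.of k))
      (ξ : CutClasses (degZeroCut d ε) t),
      ∃ y : Fin g → (Over.mk t ⟶ Over.mk c),
        @Finset.prod _ _ (cgrp ⟨CommRingCat.of K, t⟩).toCommMonoid Finset.univ
          (fun i => overHomEquiv (jacRep hdesc A) t (y i ≫ a)) = ξ) :
    ∃ D : RelativePic0Designation k c,
      Nonempty (RepresentsRelSubPic c ε (algEquivZeroCut c ε) D) ∧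
        Smooth D.toBase ∧ IsProper D.toBase ∧ GeometricallyConnected D.toBase :=
  s25_of_inputs k c ε d hdesc A hft res_mul (fun _ x y => mul_comm x y) hFS g a
    (fun K _ _ t z => exists_prod_eq_of_classes (jacRep hdesc A) res_mul a g t (hG K t) z)

/-- **S25 from its inputs, dictionary form.**  The group structure on classes and the formal
smoothness of the cut are replaced by a model `M : RelModel` of the degree-zero classes over
affine `k`-schemes by commutative groups (the dictionary D8: `M.A B` = rigid degree-zero classes
of line diagrams over `B`), together with the lifting property of the model along square-zero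
extensions. -/
theorem s25_of_relModel
    (d : FibreDegree c)
    (hdesc : CutDescent (degZeroCut d ε))
    (A : Atlas (affRestrict (G (degZeroCut d ε))))
    (hft : ∀ β, LocallyOfFiniteType (A.x β).str)
    (M : RelModel.{u + 1} (degZeroCut d ε))
    (hlift : ∀ (B : Type u) [CommRing B] [Algebra k B] (I : Ideal B), I ^ 2 = ⊥ →
      Function.Surjective (M.map (Ideal.Quotient.mkₐ k I)))
    (g : ℕ)
    (a : Over.mk c ⟶ Over.mk (toBase (jacRep hdesc A)))
    (hG : ∀ (K : Type u) [Field K] [IsAlgClosed K]
      (t : Spec (CommRingCat.of K) ⟶ Spec (CommRingCat.of k))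
      (ξ : CutClasses (degZeroCut d ε) t),
      ∃ y : Fin g → (Over.mk t ⟶ Over.mk c),
        @Finset.prod _ _ (M.commGroup ⟨CommRingCat.of K, t⟩).toCommMonoid Finset.univ
          (fun i => overHomEquiv (jacRep hdesc A) t (y i ≫ a)) = ξ) :
    ∃ D : RelativePic0Designation k c,
      Nonempty (RepresentsRelSubPic c ε (algEquivZeroCut c ε) D) ∧
        Smooth D.toBase ∧ IsProper D.toBase ∧ GeometricallyConnected D.toBase :=
  letI : ∀ b : AffIdx (Spec (CommRingCat.of k)), CommGroup (CutClasses (degZeroCut d ε) b.2) :=
    fun b => M.commGroup b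
  s25_of_inputs' k c ε d hdesc A hft (fun ψ x y => M.res_mul ψ x y)
    (M.cutFormallySmooth hlift) g a hG

end Fermat.Agent.JAC.Final.S25Assembly10
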