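/-
Programme JAC (S25), chapter Final (helper27): THE ABEL MORPHISM AND JACOBI INVERSION INPUTS OF
`S25Assembly10.s25_of_relModel`, FROM TWO AFFINE CHARTS OF THE CURVE AND ABEL DATA IN THE MODEL.

* `exists_glue_two`, `hom_ext_two` : gluing morphisms of schemes along two open charts whose
  overlap is given by a pullback square.
* `exists_abel` : for a scheme `J` representing the absolute Picard presheaf of a cut, two classes
  `x0`, `x1` over the two charts agreeing on the overlap glue to a morphism `a : C ⟶ J` over the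
  base whose restrictions to the charts are the points of `x0`, `x1`.
* `equiv_prod` : `RelModel.equiv` turns the (transported) products of classes into products in the
  model.
* `hG_of_model` : the Jacobi inversion hypothesis `hG` of `s25_of_relModel` from its form in the
  model (`hsurj`: over an algebraically closed field every element of the model is a product of
  `g` pullbacks of the two chart classes along points of the charts).
* `s25_of_relModel_twoCharts` : the statement of S25 from `d`, `hdesc`, the atlas, the model `M`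
  with its lifting property, the two-chart data of the curve, and the Abel data in the model.
-/
import Fermat.Agent.JAC.Final.S25Assembly10

set_option autoImplicit false

universe w u

open CategoryTheory Limits Opposite AlgebraicGeometry AlgebraicGeometry.RelPicard NeronModelInfra
  GoodReductionJacobian

namespace Fermat.Agent.JAC.Final.AbelWiring27

open Fermat.Agent.JAC.Repr.StdCover10 Fermat.Agent.JAC.Repr.AllSchemes10
  Fermat.Agent.JAC.Repr.Wiring10 Fermat.Agent.JAC.Repr.Restrict10
  Fermat.Agent.JAC.Repr.Jacobian10 Fermat.Agent.JAC.Repr.Lifting10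
  Fermat.Agent.JAC.Repr.Group10 Fermat.Agent.JAC.Repr.GroupProd10
  Fermat.Agent.JAC.Repr.RelModel10 Fermat.Agent.JAC.Grp.OverAff6
  Fermat.Agent.JAC.AE0.DegZero35 Fermat.Agent.JAC.AE0.Transfer35
  Fermat.Agent.JAC.Glue.SmallClasses23 Fermat.Agent.JAC.Final.S25Assembly10

section Glue

variable {C J U0 U1 U01 : Scheme.{u}} (ι0 : U0 ⟶ C) (ι1 : U1 ⟶ C)
  [IsOpenImmersion ι0] [IsOpenImmersion ι1]

/-- The `Bool`-indexed family of two schemes. -/
def twoX (U0 U1 : Scheme.{u}) : Bool → Scheme.{u}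
  | false => U0
  | true => U1

/-- The `Bool`-indexed family of two morphisms. -/
def twoF {Y : Scheme.{u}} (f0 : U0 ⟶ Y) (f1 : U1 ⟶ Y) : ∀ b, twoX U0 U1 b ⟶ Y
  | false => f0
  | true => f1

/-- The open cover by two charts. -/
noncomputable def twoCover (hcov : ∀ x : C, x ∈ Set.range ι0 ∨ x ∈ Set.range ι1) :
    C.OpenCover :=
  Scheme.Cover.mkOfCovers Bool (twoX U0 U1) (twoF ι0 ι1)
    (fun x => (hcov x).elim (fun ⟨y, hy⟩ => ⟨false, y, hy⟩) (fun ⟨y, hy⟩ => ⟨true, y, hy⟩))
    (fun b => by cases b <;> assumption)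

/-- Morphisms out of `C` are determined on the two charts. -/
theorem hom_ext_two (hcov : ∀ x : C, x ∈ Set.range ι0 ∨ x ∈ Set.range ι1) (f g : C ⟶ J)
    (h0 : ι0 ≫ f = ι0 ≫ g) (h1 : ι1 ≫ f = ι1 ≫ g) : f = g :=
  (twoCover ι0 ι1 hcov).hom_ext f g (fun b => by cases b <;> assumption)

/-- Gluing two morphisms along the overlap of two charts. -/
theorem exists_glue_two (p0 : U01 ⟶ U0) (p1 : U01 ⟶ U1) (hpb : IsPullback p0 p1 ι0 ι1)
    (hcov : ∀ x : C, x ∈ Set.range ι0 ∨ x ∈ Set.range ι1)
    (f0 : U0 ⟶ J) (f1 : U1 ⟶ J) (h : p0 ≫ f0 = p1 ≫ f1) :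
    ∃ a : C ⟶ J, ι0 ≫ a = f0 ∧ ι1 ≫ a = f1 := by
  have h01 : pullback.fst ι0 ι1 ≫ f0 = pullback.snd ι0 ι1 ≫ f1 := by
    rw [← cancel_epi hpb.isoPullback.hom, ← Category.assoc, ← Category.assoc,
      hpb.isoPullback_hom_fst, hpb.isoPullback_hom_snd, h]
  have h10 : pullback.fst ι1 ι0 ≫ f1 = pullback.snd ι1 ι0 ≫ f0 := by
    rw [← cancel_epi (pullbackSymmetry ι0 ι1).hom, ← Category.assoc, ← Category.assoc,
      pullbackSymmetry_hom_comp_fst, pullbackSymmetry_hom_comp_snd, h01]
  have h00 : pullback.fst ι0 ι0 = pullback.snd ι0 ι0 := by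
    rw [← cancel_mono ι0, pullback.condition]
  have h11 : pullback.fst ι1 ι1 = pullback.snd ι1 ι1 := by
    rw [← cancel_mono ι1, pullback.condition]
  refine ⟨(twoCover ι0 ι1 hcov).glueMorphisms (twoF f0 f1) ?_, ?_, ?_⟩
  · intro i j
    cases i <;> cases j
    · change pullback.fst ι0 ι0 ≫ f0 = pullback.snd ι0 ι0 ≫ f0
      rw [h00]
    · exact h01
    · exact h10
    · change pullback.fst ι1 ι1 ≫ f1 = pullback.snd ι1 ι1 ≫ f1
      rw [h11]
  · exact (twoCover ι0 ι1 hcov).ι_glueMorphisms _ _ false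
  · exact (twoCover ι0 ι1 hcov).ι_glueMorphisms _ _ true

end Glue

section Abel

variable {k : Type u} [CommRing k] {C : Scheme.{u}} {c : C ⟶ Spec (CommRingCat.of k)}
  {ε : SchemeHomOver (𝟙 (Spec (CommRingCat.of k))) c} {P : SubPicCondition c ε}
  [hs : ∀ {T : Scheme.{u}} (t : T ⟶ Spec (CommRingCat.of k)), Small.{u} (CutClasses P t)]
  {J : Scheme.{u}} (rep : (G P).RepresentableBy J)
  {A0 A1 A01 : Type u} [CommRing A0] [CommRing A1] [CommRing A01]
  [Algebra k A0] [Algebra k A1] [Algebra k A01]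
  (res0 : A0 →ₐ[k] A01) (res1 : A1 →ₐ[k] A01)
  (ι0 : Spec (CommRingCat.of A0) ⟶ C) (ι1 : Spec (CommRingCat.of A1) ⟶ C)
  [IsOpenImmersion ι0] [IsOpenImmersion ι1]
  (h0 : ι0 ≫ c = specStr (R := k) A0) (h1 : ι1 ≫ c = specStr (R := k) A1)
  (hcov : ∀ x : C, x ∈ Set.range ι0 ∨ x ∈ Set.range ι1)
  (hpb : IsPullback (Spec.map (CommRingCat.ofHom res0.toRingHom))
    (Spec.map (CommRingCat.ofHom res1.toRingHom)) ι0 ι1)

/-- A chart of the curve as a morphism over the base. -/
noncomputable def chartOver {B : Type u} [CommRing B] [Algebra k B]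
    (ι : Spec (CommRingCat.of B) ⟶ C) (h : ι ≫ c = specStr (R := k) B) :
    Over.mk (specStr (R := k) B) ⟶ Over.mk c :=
  Over.homMk ι h

include hcov hpb in
/-- **The Abel morphism glued from two chart classes.** -/
theorem exists_abel (x0 : CutClasses P (specStr (R := k) A0))
    (x1 : CutClasses P (specStr (R := k) A1))
    (hx : cutMap (specHom res0) x0 = cutMap (specHom res1) x1) :
    ∃ a : Over.mk c ⟶ Over.mk (toBase rep),
      overHomEquiv rep (specStr (R := k) A0) (chartOver ι0 h0 ≫ a) = x0 ∧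
      overHomEquiv rep (specStr (R := k) A1) (chartOver ι1 h1 ≫ a) = x1 := by
  let f0 := (overEquiv rep (specStr (R := k) A0)).symm x0
  let f1 := (overEquiv rep (specStr (R := k) A1)).symm x1
  have hf : (specHom res0).1 ≫ f0.1 = (specHom res1).1 ≫ f1.1 := by
    have h : overEquiv rep (specStr (R := k) A01) (postComp f0 (specHom res0)) =
        overEquiv rep (specStr (R := k) A01) (postComp f1 (specHom res1)) := by
      rw [overEquiv_comp, overEquiv_comp, Equiv.apply_symm_apply, Equiv.apply_symm_apply, hx]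
    exact congrArg Subtype.val ((overEquiv rep _).injective h)
  obtain ⟨a, ha0, ha1⟩ := exists_glue_two ι0 ι1 _ _ hpb hcov f0.1 f1.1 hf
  have hac : a ≫ toBase rep = c :=
    hom_ext_two ι0 ι1 hcov _ _
      (by rw [← Category.assoc, ha0, f0.2, h0]) (by rw [← Category.assoc, ha1, f1.2, h1])
  let a' : Over.mk c ⟶ Over.mk (toBase rep) := Over.homMk a hac
  refine ⟨a', ?_, ?_⟩
  · rw [overHomEquiv_apply]
    have : (⟨(chartOver ι0 h0 ≫ a').left, Over.w _⟩ :
        SchemeHomOver (specStr (R := k) A0) (toBase rep)) = f0 := Subtype.ext ha0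
    rw [this, Equiv.apply_symm_apply]
  · rw [overHomEquiv_apply]
    have : (⟨(chartOver ι1 h1 ≫ a').left, Over.w _⟩ :
        SchemeHomOver (specStr (R := k) A1) (toBase rep)) = f1 := Subtype.ext ha1
    rw [this, Equiv.apply_symm_apply]

end Abel

section Model

variable {k : Type u} [CommRing k] {C : Scheme.{u}} {c : C ⟶ Spec (CommRingCat.of k)}
  {ε : SchemeHomOver (𝟙 (Spec (CommRingCat.of k))) c} {P : SubPicCondition c ε}
  (M : RelModel.{w} P)

/-- `RelModel.equiv` is multiplicative for the transported structure. -/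
lemma equiv_mul (b : AffIdx (Spec (CommRingCat.of k))) (x y : CutClasses P b.2) :
    M.equiv b (@HMul.hMul _ _ _ (@instHMul _ (M.commGroup b).toMul) x y) =
      M.equiv b x * M.equiv b y :=
  (M.equiv b).apply_symm_apply _

/-- `RelModel.equiv` preserves the unit for the transported structure. -/
lemma equiv_one (b : AffIdx (Spec (CommRingCat.of k))) :
    M.equiv b (@One.one _ (M.commGroup b).toOne) = 1 :=
  (M.equiv b).apply_symm_apply _

/-- `RelModel.equiv` turns the transported products into products in the model. -/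
lemma equiv_prod (b : AffIdx (Spec (CommRingCat.of k))) {ι : Type*} (s : Finset ι)
    (z : ι → CutClasses P b.2) :
    M.equiv b (@Finset.prod _ _ (M.commGroup b).toCommMonoid s z) =
      ∏ i ∈ s, M.equiv b (z i) := by
  classical
  letI := M.commGroup b
  induction s using Finset.induction_on with
  | empty =>
    rw [Finset.prod_empty, Finset.prod_empty]
    exact equiv_one M b
  | insert i s hi ih =>
    rw [Finset.prod_insert hi, Finset.prod_insert hi, ← ih]
    exact equiv_mul M b _ _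

/-- `RelModel.equiv` over an affine scheme with its standard structure morphism, on a pullback
from another standard affine scheme. -/
lemma equiv_cutMap_std {B K : Type u} [CommRing B] [CommRing K] [Algebra k B]
    (t : Spec (CommRingCat.of K) ⟶ Spec (CommRingCat.of k))
    (p : @AlgHom k B K _ _ _ _ (algOf ⟨CommRingCat.of K, t⟩))
    (ψ : SchemeHomOver t (specStr (R := k) B))
    (hψ : ψ.1 = Spec.map (CommRingCat.ofHom
      (@AlgHom.toRingHom k B K _ _ _ _ (algOf ⟨CommRingCat.of K, t⟩) p)))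
    (x : CutClasses P (specStr (R := k) B)) :
    M.equiv ⟨CommRingCat.of K, t⟩ (cutMap ψ x) =
      @RelModel.map k _ C c ε P M B K _ _ _ (algOf ⟨CommRingCat.of K, t⟩) p (M.θ B x) := by
  letI : Algebra k K := algOf ⟨CommRingCat.of K, t⟩
  change M.θ K (τ ⟨CommRingCat.of K, t⟩ (cutMap ψ x)) = M.map p (M.θ B x)
  rw [← M.θ_map]
  congr 1
  change cutMap _ (cutMap ψ x) = _
  exact cutMap_comp _ _ (specHom p) (by rw [Category.id_comp, hψ]; rfl) x

end Model

section Inversion

variable {k : Type u} [CommRing k] {C : Scheme.{u}} {c : C ⟶ Spec (CommRingCat.of k)}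
  {ε : SchemeHomOver (𝟙 (Spec (CommRingCat.of k))) c} {P : SubPicCondition c ε}
  [hs : ∀ {T : Scheme.{u}} (t : T ⟶ Spec (CommRingCat.of k)), Small.{u} (CutClasses P t)]
  {J : Scheme.{u}} (rep : (G P).RepresentableBy J) (M : RelModel.{w} P)
  {A0 A1 : Type u} [CommRing A0] [CommRing A1] [Algebra k A0] [Algebra k A1]
  (ι0 : Spec (CommRingCat.of A0) ⟶ C) (ι1 : Spec (CommRingCat.of A1) ⟶ C)
  (h0 : ι0 ≫ c = specStr (R := k) A0) (h1 : ι1 ≫ c = specStr (R := k) A1)

/-- The point of the curve over `t` given by a point `p` of a chart. -/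
noncomputable def chartPtOver {B K : Type u} [CommRing B] [CommRing K] [Algebra k B]
    (ι : Spec (CommRingCat.of B) ⟶ C) (h : ι ≫ c = specStr (R := k) B)
    (t : Spec (CommRingCat.of K) ⟶ Spec (CommRingCat.of k))
    (p : @AlgHom k B K _ _ _ _ (algOf ⟨CommRingCat.of K, t⟩)) :
    Over.mk t ⟶ Over.mk c :=
  Over.homMk (Spec.map (CommRingCat.ofHom
      (@AlgHom.toRingHom k B K _ _ _ _ (algOf ⟨CommRingCat.of K, t⟩) p)) ≫ ι) (by
    letI : Algebra k K := algOf ⟨CommRingCat.of K, t⟩
    change (Spec.map (CommRingCat.ofHom p.toRingHom) ≫ ι) ≫ c = t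
    rw [Category.assoc, h]
    exact ((specHom p).2).trans (specStr_algOf ⟨CommRingCat.of K, t⟩))

/-- The class of the image under `a` of a point of a chart. -/
lemma equiv_chartPtOver {B K : Type u} [CommRing B] [CommRing K] [Algebra k B]
    (ι : Spec (CommRingCat.of B) ⟶ C) (h : ι ≫ c = specStr (R := k) B)
    (a : Over.mk c ⟶ Over.mk (toBase rep)) (X : M.A B)
    (ha : overHomEquiv rep (specStr (R := k) B) (chartOver ι h ≫ a) = (M.θ B).symm X)
    (t : Spec (CommRingCat.of K) ⟶ Spec (CommRingCat.of k))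
    (p : @AlgHom k B K _ _ _ _ (algOf ⟨CommRingCat.of K, t⟩)) :
    M.equiv ⟨CommRingCat.of K, t⟩ (overHomEquiv rep t (chartPtOver ι h t p ≫ a)) =
      @RelModel.map k _ C c ε P M B K _ _ _ (algOf ⟨CommRingCat.of K, t⟩) p X := by
  letI : Algebra k K := algOf ⟨CommRingCat.of K, t⟩
  have hst : specStr (R := k) K = t := specStr_algOf ⟨CommRingCat.of K, t⟩
  let q : Over.mk t ⟶ Over.mk (specStr (R := k) B) :=
    Over.homMk (Spec.map (CommRingCat.ofHom p.toRingHom)) (((specHom p).2).trans hst)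
  have hq : chartPtOver ι h t p ≫ a = q ≫ (chartOver ι h ≫ a) := by
    rw [← Category.assoc]
    congr 1
  rw [hq, overHomEquiv_comp, ha,
    equiv_cutMap_std M t p ⟨q.left, Over.w q⟩ rfl, Equiv.apply_symm_apply]

/-- **Jacobi inversion on classes from Jacobi inversion in the model.** -/
theorem hG_of_model (a : Over.mk c ⟶ Over.mk (toBase rep)) (X0 : M.A A0) (X1 : M.A A1)
    (ha0 : overHomEquiv rep (specStr (R := k) A0) (chartOver ι0 h0 ≫ a) = (M.θ A0).symm X0)
    (ha1 : overHomEquiv rep (specStr (R := k) A1) (chartOver ι1 h1 ≫ a) = (M.θ A1).symm X1)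
    (g : ℕ)
    (hsurj : ∀ (K : Type u) [Field K] [IsAlgClosed K] [Algebra k K] (z : M.A K),
      ∃ f : Fin g → (A0 →ₐ[k] K) ⊕ (A1 →ₐ[k] K),
        z = ∏ i, Sum.elim (fun p => M.map p X0) (fun p => M.map p X1) (f i))
    (K : Type u) [Field K] [IsAlgClosed K]
    (t : Spec (CommRingCat.of K) ⟶ Spec (CommRingCat.of k)) (ξ : CutClasses P t) :
    ∃ y : Fin g → (Over.mk t ⟶ Over.mk c),
      @Finset.prod _ _ (M.commGroup ⟨CommRingCat.of K, t⟩).toCommMonoid Finset.univ
        (fun i => overHomEquiv rep t (y i ≫ a)) = ξ := by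
  letI : Algebra k K := algOf ⟨CommRingCat.of K, t⟩
  obtain ⟨f, hf⟩ := hsurj K (M.equiv ⟨CommRingCat.of K, t⟩ ξ)
  refine ⟨fun i => Sum.elim (fun p => chartPtOver ι0 h0 t p) (fun p => chartPtOver ι1 h1 t p)
    (f i), (M.equiv ⟨CommRingCat.of K, t⟩).injective ?_⟩
  have key : ∀ s : (A0 →ₐ[k] K) ⊕ (A1 →ₐ[k] K),
      M.equiv ⟨CommRingCat.of K, t⟩ (overHomEquiv rep t
        (Sum.elim (fun p => chartPtOver ι0 h0 t p) (fun p => chartPtOver ι1 h1 t p) s ≫ a)) =
        Sum.elim (fun p => M.map p X0) (fun p => M.map p X1) s := by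
    rintro (p | p)
    · exact equiv_chartPtOver rep M ι0 h0 a X0 ha0 t p
    · exact equiv_chartPtOver rep M ι1 h1 a X1 ha1 t p
  rw [equiv_prod, hf]
  exact Finset.prod_congr rfl fun i _ => key (f i)

end Inversion

section Final

variable (k : Type u) [Field k] [IsAlgClosed k] {C : Scheme.{u}}
  (c : C ⟶ Spec (CommRingCat.of k)) [IsProper c] [SmoothOfRelativeDimension 1 c] [IsIntegral C]
  (ε : SchemeHomOver (𝟙 (Spec (CommRingCat.of k))) c)

/-- **S25 from the model of degree-zero classes, two affine charts of the curve, and the Abel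
data in the model.**  The inputs `a` and `hG` of `S25Assembly10.s25_of_relModel` are replaced by:
two affine open charts `ι0`, `ι1` of `C` over `k` covering `C` with affine overlap `Spec A01`;
two elements `X0 : M.A A0`, `X1 : M.A A1` of the model (the Abel classes on the charts) agreeing
on the overlap; and Jacobi inversion in the model (`hsurj`). -/
theorem s25_of_relModel_twoCharts
    (d : FibreDegree c)
    (hdesc : CutDescent (degZeroCut d ε))
    (A : Atlas (affRestrict (G (degZeroCut d ε))))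
    (hft : ∀ β, LocallyOfFiniteType (A.x β).str)
    (M : RelModel.{u + 1} (degZeroCut d ε))
    (hlift : ∀ (B : Type u) [CommRing B] [Algebra k B] (I : Ideal B), I ^ 2 = ⊥ →
      Function.Surjective (M.map (Ideal.Quotient.mkₐ k I)))
    {A0 A1 A01 : Type u} [CommRing A0] [CommRing A1] [CommRing A01]
    [Algebra k A0] [Algebra k A1] [Algebra k A01]
    (res0 : A0 →ₐ[k] A01) (res1 : A1 →ₐ[k] A01)
    (ι0 : Spec (CommRingCat.of A0) ⟶ C) (ι1 : Spec (CommRingCat.of A1) ⟶ C)
    [IsOpenImmersion ι0] [IsOpenImmersion ι1]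
    (h0 : ι0 ≫ c = specStr (R := k) A0) (h1 : ι1 ≫ c = specStr (R := k) A1)
    (hcov : ∀ x : C, x ∈ Set.range ι0 ∨ x ∈ Set.range ι1)
    (hpb : IsPullback (Spec.map (CommRingCat.ofHom res0.toRingHom))
      (Spec.map (CommRingCat.ofHom res1.toRingHom)) ι0 ι1)
    (g : ℕ) (X0 : M.A A0) (X1 : M.A A1) (hagree : M.map res0 X0 = M.map res1 X1)
    (hsurj : ∀ (K : Type u) [Field K] [IsAlgClosed K] [Algebra k K] (z : M.A K),
      ∃ f : Fin g → (A0 →ₐ[k] K) ⊕ (A1 →ₐ[k] K),
        z = ∏ i, Sum.elim (fun p => M.map p X0) (fun p => M.map p X1) (f i)) :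
    ∃ D : RelativePic0Designation k c,
      Nonempty (RepresentsRelSubPic c ε (algEquivZeroCut c ε) D) ∧
        Smooth D.toBase ∧ IsProper D.toBase ∧ GeometricallyConnected D.toBase := by
  obtain ⟨a, ha0, ha1⟩ := exists_abel (jacRep hdesc A) res0 res1 ι0 ι1 h0 h1 hcov hpb
    ((M.θ A0).symm X0) ((M.θ A1).symm X1) (by
      apply (M.θ A01).injective
      rw [M.θ_map, M.θ_map, Equiv.apply_symm_apply, Equiv.apply_symm_apply, hagree])
  exact s25_of_relModel k c ε d hdesc A hft M hlift g a
    (hG_of_model (jacRep hdesc A) M ι0 ι1 h0 h1 a X0 X1 ha0 ha1 g hsurj)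

end Final

end Fermat.Agent.JAC.Final.AbelWiring27
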