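/-
Programme JAC (S25), final wiring of G4 (helper30): Zariski descent for the classes of
rigidified line bundles in the shape consumed by the representability machine.

* `opensDescent_of_surjective`: hypothesis (H) (for every `t`, `𝒪_T → π_* 𝒪` is onto) gives
  helper10's `OpensDescent10.OpensDescent c ε` (from `RigidDescent30.classes_separated` /
  `classes_glue`);
* `opensDescent_of_isProper`: (H) holds under the hypotheses of S25 (helper57's
  `H0Proper57.bijective_snd_app_of_isProper`);
* `cutDescent_of_isProper`: `Wiring10.CutDescent P` for every cut `P` which is local for open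
  covers of the base;
* `cutDescent_degZeroCut`: the input `hdesc` of `S25Assembly10.s25_of_inputs`.
-/
import Fermat.Agent.JAC.Glue.RigidDescent30
import Fermat.Agent.JAC.Repr.OpensDescent10
import Fermat.Agent.JAC.Bridge.H0Proper57
import Fermat.Agent.JAC.AE0.Transfer35

set_option autoImplicit false
universe u
open CategoryTheory CategoryTheory.Limits AlgebraicGeometry AlgebraicGeometry.RelPicard
  NeronModelInfra GoodReductionJacobian

namespace Fermat.Agent.JAC.Final.CutDescent30

open Fermat.Agent.JAC.Glue.RigidDescent30 Fermat.Agent.JAC.Repr.OpensDescent10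
  Fermat.Agent.JAC.Repr.Wiring10

section General

variable {R : Type u} [CommRing R] {C : Scheme.{u}} (c : C ⟶ Spec (CommRingCat.of R))
  (ε : SchemeHomOver (𝟙 (Spec (CommRingCat.of R))) c)

/-- hypothesis (H), surjective form, for all bases, gives Zariski descent for classes of
rigidified line bundles along families of open subschemes. -/
theorem opensDescent_of_surjective
    (hH : ∀ {T : Scheme.{u}} (t : T ⟶ Spec (CommRingCat.of R)) (V : T.Opens),
      Function.Surjective ((pullback.snd c t).app V)) :
    OpensDescent c ε where
  sep t _ Ts hTs x y h := classes_separated c ε t Ts hTs (hH t) x y h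
  glue t _ Ts hTs x hx := classes_glue c ε t Ts hTs (hH t) x hx

end General

section Proper

variable {k : Type u} [Field k] [IsAlgClosed k] {C : Scheme.{u}}
  (c : C ⟶ Spec (CommRingCat.of k)) [IsProper c] [IsIntegral C]
  (ε : SchemeHomOver (𝟙 (Spec (CommRingCat.of k))) c)

theorem opensDescent_of_isProper : OpensDescent c ε :=
  opensDescent_of_surjective c ε (fun t V =>
    (Fermat.Agent.JAC.Bridge.H0Proper57.bijective_snd_app_of_isProper c t V).2)

variable {c ε}

/-- Zariski descent for the classes in any cut which is local on the base. -/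
theorem cutDescent_of_isProper {P : SubPicCondition c ε}
    (hloc : ∀ {T : Scheme.{u}} (t : T ⟶ Spec (CommRingCat.of k)) (𝒰 : Scheme.OpenCover.{u} T)
      (M : RigidifiedLineBundle c ε t),
      (∀ i, P.P (𝒰.f i ≫ t) (M.pullbackAlong ⟨𝒰.f i, rfl⟩)) → P.P t M) :
    CutDescent P :=
  cutDescent_of_opensDescent (opensDescent_of_isProper c ε) hloc

/-- the input `hdesc` of `S25Assembly10.s25_of_inputs`. -/
theorem cutDescent_degZeroCut (d : Fermat.Agent.JAC.AE0.DegZero35.FibreDegree c) :
    CutDescent (Fermat.Agent.JAC.AE0.Transfer35.degZeroCut d ε) :=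
  cutDescent_of_isProper (fun t 𝒰 M h =>
    Fermat.Agent.JAC.AE0.Transfer35.degZeroCut_of_openCover d t M 𝒰 h)

end Proper

end Fermat.Agent.JAC.Final.CutDescent30
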