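/-
Programme JAC (S25), chapter Final, work package B3.4 (part 1).  Owner: helper36.

THE ADAPTER between the algebra-side target `Core.AlgAtlas36.AlgAtlas` and the atlas consumed by
abstract representability (`Repr.AllSchemes10.Atlas`).

* `Dict F`: the dictionary (D8) between a functor `F : CommRingCat ⥤ Type u` (in the application
  the restriction to rings of the absolute sub-Picard functor) and rigid degree-zero classes of
  line diagrams: every point of `F` has a structure map `k → B`, and the points over a given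
  `k`-algebra structure correspond bijectively, and naturally, to the rigid classes of degree `0`.
* `atlasOfAlgAtlas`: an `AlgAtlas` and a dictionary give an `Atlas F`.
-/
import Mathlib
import Fermat.Agent.JAC.Core.AlgAtlas36
import Fermat.Agent.JAC.Repr.AllSchemes10
import Fermat.Agent.JAC.Repr.Pointwise10

set_option autoImplicit false

universe u

open CategoryTheory

namespace Fermat.Agent.JAC.Final.AtlasAdapter36

open scoped TensorProduct
open Fermat.Agent.JAC.Core.Defs36 Fermat.Agent.JAC.Core.AlgAtlas36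
  Fermat.Agent.JAC.Repr.AllSchemes10 Fermat.Agent.JAC.Repr.Pointwise10
  Fermat.Agent.JAC.Repr.Main10 Fermat.Agent.JAC.Repr.Chart10

variable {k : Type u} [Field k] {A0 A1 A01 : Type u} [CommRing A0] [CommRing A1] [CommRing A01]
  [Algebra k A0] [Algebra k A1] [Algebra k A01] [Algebra A0 A01] [Algebra A1 A01]
  [IsScalarTower k A0 A01] [IsScalarTower k A1 A01] {t : A0} {s : A1}
  [IsLocalization.Away t A01] [IsLocalization.Away s A01]

/-- Two algebra structures with the same structure map are equal. -/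
lemma algebra_eq_of_algebraMap_eq {B : Type u} [CommRing B] (P Q : Algebra k B)
    (h : @algebraMap k B _ _ P = @algebraMap k B _ _ Q) : P = Q :=
  Algebra.algebra_ext P Q (fun r => by rw [h])

variable (A0 A1 A01 t s) in
/-- **The dictionary (D8)** between the points of a functor `F` on rings and the rigid classes of
degree zero of line diagrams over the constant families `B ⊗[k] A_i`. -/
structure Dict (e : A01 →ₐ[k] k) (F : CommRingCat.{u} ⥤ Type u) where
  /-- the structure map of a point -/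
  str : ∀ {B : CommRingCat.{u}}, F.obj B → (k →+* B)
  str_map : ∀ {B B' : CommRingCat.{u}} (φ : B ⟶ B') (ξ : F.obj B),
    str (F.map φ ξ) = φ.hom.comp (str ξ)
  /-- the class of line diagrams of a point -/
  toCl : ∀ (B : Type u) [CommRing B] [Algebra k B] (ξ : F.obj (CommRingCat.of B)),
    str ξ = algebraMap k B → Cl k A0 A1 A01 t s B
  toCl_rigid : ∀ (B : Type u) [CommRing B] [Algebra k B] (ξ : F.obj (CommRingCat.of B))
    (h : str ξ = algebraMap k B), IsRigidCl e B (toCl B ξ h)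
  toCl_degZero : ∀ (B : Type u) [CommRing B] [Algebra k B] (ξ : F.obj (CommRingCat.of B))
    (h : str ξ = algebraMap k B), IsDegZero B (toCl B ξ h)
  toCl_inj : ∀ (B : Type u) [CommRing B] [Algebra k B] (ξ ξ' : F.obj (CommRingCat.of B))
    (h : str ξ = algebraMap k B) (h' : str ξ' = algebraMap k B),
    toCl B ξ h = toCl B ξ' h' → ξ = ξ'
  toCl_surj : ∀ (B : Type u) [CommRing B] [Algebra k B] (x : Cl k A0 A1 A01 t s B),
    IsRigidCl e B x → IsDegZero B x →
    ∃ (ξ : F.obj (CommRingCat.of B)) (h : str ξ = algebraMap k B), toCl B ξ h = x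
  toCl_map : ∀ (B B' : Type u) [CommRing B] [CommRing B'] [Algebra k B] [Algebra k B']
    (ψ : B →ₐ[k] B') (ξ : F.obj (CommRingCat.of B)) (h : str ξ = algebraMap k B)
    (h' : str (F.map (CommRingCat.ofHom ψ.toRingHom) ξ) = algebraMap k B'),
    toCl B' (F.map (CommRingCat.ofHom ψ.toRingHom) ξ) h' = bc ψ (toCl B ξ h)

namespace Dict

variable {e : A01 →ₐ[k] k} {F : CommRingCat.{u} ⥤ Type u} (D : Dict A0 A1 A01 t s e F)

lemma toCl_congr (B : Type u) [CommRing B] [Algebra k B] {ξ ξ' : F.obj (CommRingCat.of B)}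
    (hξ : ξ = ξ') (h : D.str ξ = algebraMap k B) (h' : D.str ξ' = algebraMap k B) :
    D.toCl B ξ h = D.toCl B ξ' h' := by
  subst hξ
  rfl

/-- The structure map of the image of a point under an algebra map. -/
lemma str_map_algHom {B B' : Type u} [CommRing B] [CommRing B'] [Algebra k B] [Algebra k B']
    (ψ : B →ₐ[k] B') (ξ : F.obj (CommRingCat.of B)) (h : D.str ξ = algebraMap k B) :
    D.str (F.map (CommRingCat.ofHom ψ.toRingHom) ξ) = algebraMap k B' := by
  rw [D.str_map, h]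
  exact ψ.comp_algebraMap

lemma toCl_map' {B B' : Type u} [CommRing B] [CommRing B'] [Algebra k B] [Algebra k B']
    (ψ : B →ₐ[k] B') (ξ : F.obj (CommRingCat.of B)) (h : D.str ξ = algebraMap k B) :
    D.toCl B' (F.map (CommRingCat.ofHom ψ.toRingHom) ξ) (D.str_map_algHom ψ ξ h) =
      bc ψ (D.toCl B ξ h) :=
  D.toCl_map B B' ψ ξ h _

variable (𝔸 : AlgAtlas k A0 A1 A01 t s e)

/-- The pointwise predicate of the chart `γ`, on the points of `F`. -/
def WF (γ : 𝔸.ι) (K : Type u) [Field K] (ξ : F.obj (CommRingCat.of K)) : Prop :=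
  ∀ (inst : Algebra k K) (h : D.str ξ = @algebraMap k K _ _ inst), 𝔸.W γ K (D.toCl K ξ h)

lemma wF_iff (γ : 𝔸.ι) (K : Type u) [Field K] [iK : Algebra k K] (ξ : F.obj (CommRingCat.of K))
    (h : D.str ξ = algebraMap k K) : D.WF 𝔸 γ K ξ ↔ 𝔸.W γ K (D.toCl K ξ h) := by
  constructor
  · intro H
    exact H _ h
  · intro H inst h'
    obtain rfl : inst = iK := algebra_eq_of_algebraMap_eq _ _ (h'.symm.trans h)
    exact H

/-- The universal points of the charts. -/
noncomputable def xF (γ : 𝔸.ι) : F.obj (CommRingCat.of (𝔸.R γ)) :=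
  (D.toCl_surj (𝔸.R γ) (𝔸.x γ) (𝔸.x_rigid γ) (𝔸.x_degZero γ)).choose

lemma str_xF (γ : 𝔸.ι) : D.str (D.xF 𝔸 γ) = algebraMap k (𝔸.R γ) :=
  (D.toCl_surj (𝔸.R γ) (𝔸.x γ) (𝔸.x_rigid γ) (𝔸.x_degZero γ)).choose_spec.choose

lemma toCl_xF (γ : 𝔸.ι) : D.toCl (𝔸.R γ) (D.xF 𝔸 γ) (D.str_xF 𝔸 γ) = 𝔸.x γ :=
  (D.toCl_surj (𝔸.R γ) (𝔸.x γ) (𝔸.x_rigid γ) (𝔸.x_degZero γ)).choose_spec.choose_spec

/-- The residue field map of `Pointwise10` is the ring map underlying the one of `AlgAtlas36`. -/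
lemma toResidue_eq (B : Type u) [CommRing B] [Algebra k B] (p : PrimeSpectrum B) :
    Repr.Pointwise10.toResidue (CommRingCat.of B) p =
      CommRingCat.ofHom (Core.AlgAtlas36.toResidue (k := k) B p).toRingHom := rfl

/-- The predicate `WF` at a residue field of a `k`-algebra `B`, in terms of the algebra side. -/
lemma wF_residue_iff (γ : 𝔸.ι) (B : Type u) [CommRing B] [Algebra k B]
    (ξ : F.obj (CommRingCat.of B)) (h : D.str ξ = algebraMap k B) (p : PrimeSpectrum B) :
    D.WF 𝔸 γ p.asIdeal.ResidueField (F.map (Repr.Pointwise10.toResidue (CommRingCat.of B) p) ξ) ↔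
      𝔸.W γ p.asIdeal.ResidueField (bc (Core.AlgAtlas36.toResidue B p) (D.toCl B ξ h)) := by
  rw [toResidue_eq (k := k)]
  rw [D.wF_iff 𝔸 γ _ _ (D.str_map_algHom (Core.AlgAtlas36.toResidue B p) ξ h), D.toCl_map']

/-- The pointwise chart of `F` attached to the chart `γ` of the algebraic atlas. -/
noncomputable def pointwiseChart (γ : 𝔸.ι) : PointwiseChart F (D.xF 𝔸 γ) where
  W := D.WF 𝔸 γ
  W_iff := by
    intro K L _ _ φ ξ
    let iK : Algebra k K := (D.str ξ).toAlgebra
    let iL : Algebra k L := (φ.hom.comp (D.str ξ)).toAlgebra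
    let ψ : K →ₐ[k] L := { φ.hom with commutes' := fun _ => rfl }
    have h : D.str ξ = algebraMap k K := rfl
    have hφ : φ = CommRingCat.ofHom ψ.toRingHom := rfl
    rw [hφ, D.wF_iff 𝔸 γ L _ (D.str_map_algHom ψ ξ h), D.toCl_map', D.wF_iff 𝔸 γ K ξ h]
    exact 𝔸.W_iff γ K L ψ _ (D.toCl_rigid K ξ h) (D.toCl_degZero K ξ h)
  inj := by
    intro B φ ψ hφψ
    let iB : Algebra k B := (φ.hom.comp (algebraMap k (𝔸.R γ))).toAlgebra
    have h1 : D.str (F.map φ (D.xF 𝔸 γ)) = algebraMap k B := by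
      rw [D.str_map, D.str_xF]
      rfl
    have h2 : ψ.hom.comp (algebraMap k (𝔸.R γ)) = algebraMap k B := by
      rw [← h1, hφψ, D.str_map, D.str_xF]
    let φ' : 𝔸.R γ →ₐ[k] B := { φ.hom with commutes' := fun _ => rfl }
    let ψ' : 𝔸.R γ →ₐ[k] B := { ψ.hom with commutes' := fun r => RingHom.congr_fun h2 r }
    have hφ : φ = CommRingCat.ofHom φ'.toRingHom := rfl
    have hψ : ψ = CommRingCat.ofHom ψ'.toRingHom := rfl
    have key : φ' = ψ' := by
      apply 𝔸.inj γ B φ' ψ'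
      rw [← D.toCl_xF 𝔸 γ, ← D.toCl_map', ← D.toCl_map']
      exact D.toCl_congr B hφψ _ _
    rw [hφ, hψ, key]
  mem_iff := by
    intro B ξ
    let iB : Algebra k B := (D.str ξ).toAlgebra
    have h : D.str ξ = algebraMap k B := rfl
    have key : ∀ p : PrimeSpectrum B,
        D.WF 𝔸 γ p.asIdeal.ResidueField (F.map (Repr.Pointwise10.toResidue B p) ξ) ↔
          𝔸.W γ p.asIdeal.ResidueField (bc (Core.AlgAtlas36.toResidue B p) (D.toCl B ξ h)) :=
      fun p => D.wF_residue_iff 𝔸 γ B ξ h p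
    rw [forall_congr' key,
      ← 𝔸.mem_iff γ B (D.toCl B ξ h) (D.toCl_rigid B ξ h) (D.toCl_degZero B ξ h)]
    constructor
    · rintro ⟨ψ, hψ⟩
      have hs : ψ.hom.comp (algebraMap k (𝔸.R γ)) = algebraMap k B := by
        rw [← h, ← hψ, D.str_map, D.str_xF]
      let ψ' : 𝔸.R γ →ₐ[k] B := { ψ.hom with commutes' := fun r => RingHom.congr_fun hs r }
      have hψ' : F.map (CommRingCat.ofHom ψ'.toRingHom) (D.xF 𝔸 γ) = ξ := hψ
      refine ⟨ψ', ?_⟩
      rw [← D.toCl_xF 𝔸 γ, ← D.toCl_map']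
      exact D.toCl_congr B hψ' _ _
    · rintro ⟨ψ', hψ'⟩
      refine ⟨CommRingCat.ofHom ψ'.toRingHom, ?_⟩
      refine D.toCl_inj B _ ξ (D.str_map_algHom ψ' _ (D.str_xF 𝔸 γ)) h ?_
      rw [D.toCl_map' ψ' _ (D.str_xF 𝔸 γ), D.toCl_xF]
      exact hψ'
  isOpen := by
    intro B ξ
    let iB : Algebra k B := (D.str ξ).toAlgebra
    have h : D.str ξ = algebraMap k B := rfl
    have hopen := 𝔸.isOpen γ B (D.toCl B ξ h) (D.toCl_rigid B ξ h) (D.toCl_degZero B ξ h)
    have hset : {p : PrimeSpectrum B | D.WF 𝔸 γ p.asIdeal.ResidueField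
        (F.map (Repr.Pointwise10.toResidue B p) ξ)} =
        {p : PrimeSpectrum B | 𝔸.W γ p.asIdeal.ResidueField
          (bc (Core.AlgAtlas36.toResidue B p) (D.toCl B ξ h))} := by
      ext p
      exact D.wF_residue_iff 𝔸 γ B ξ h p
    rw [hset]
    exact hopen

/-- **B3.4, part 1.** An algebraic atlas and a dictionary give an atlas of `F` in the sense of
abstract representability. -/
noncomputable def atlasOfAlgAtlas : Atlas F where
  ι := 𝔸.ι
  R γ := CommRingCat.of (𝔸.R γ)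
  x γ := D.xF 𝔸 γ
  isOpenChart γ := (D.pointwiseChart 𝔸 γ).isOpenChart
  covers := coversFieldPoints_of_pointwise (fun γ => D.pointwiseChart 𝔸 γ) (by
    intro K _ ξ
    let iK : Algebra k K := (D.str ξ).toAlgebra
    have h : D.str ξ = algebraMap k K := rfl
    obtain ⟨γ, hγ⟩ := 𝔸.covers K (D.toCl K ξ h) (D.toCl_rigid K ξ h) (D.toCl_degZero K ξ h)
    exact ⟨γ, (D.wF_iff 𝔸 γ K ξ h).2 hγ⟩)

@[simp] lemma atlasOfAlgAtlas_ι : (D.atlasOfAlgAtlas 𝔸).ι = 𝔸.ι := rfl

@[simp] lemma atlasOfAlgAtlas_R (γ : 𝔸.ι) :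
    (D.atlasOfAlgAtlas 𝔸).R γ = CommRingCat.of (𝔸.R γ) := rfl

@[simp] lemma atlasOfAlgAtlas_x (γ : 𝔸.ι) : (D.atlasOfAlgAtlas 𝔸).x γ = D.xF 𝔸 γ := rfl

end Dict

end Fermat.Agent.JAC.Final.AtlasAdapter36
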