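/-
Programme JAC (S25), chapter Final, work package B3.4 (part 2).  Owner: helper36.

FROM THE SCHEME-LEVEL DICTIONARY TO `Dict`.  `SchemeDict` is the exact list of facts which the
bridge chapter (B3.1 sheaf ↦ diagram, B3.2 base change, B3.3 two-affine (Inj)/(Surj), FibreDegree)
has to deliver about the map `class of a rigidified line bundle on C ×ₖ Spec B ↦ class of its line
diagram over B ⊗ A_i`.  From it we construct the abstract dictionary `AtlasAdapter36.Dict` for the
restriction to rings of helper10's absolute Picard presheaf `Wiring10.G (degZeroCut d ε)`.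
-/
import Mathlib
import Fermat.Agent.JAC.Final.AtlasAdapter36
import Fermat.Agent.JAC.AE0.Transfer35
import Fermat.Agent.JAC.Bridge.ChartCover57
import Fermat.Agent.JAC.Repr.Jacobian10

set_option autoImplicit false

universe u

open CategoryTheory CategoryTheory.Limits Opposite AlgebraicGeometry AlgebraicGeometry.RelPicard
  NeronModelInfra GoodReductionJacobian

namespace Fermat.Agent.JAC.Final.SchemeDict36

open scoped TensorProduct
open Fermat.Agent.JAC.Core.Defs36 Fermat.Agent.JAC.Core.AlgAtlas36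
  Fermat.Agent.JAC.Repr.Wiring10 Fermat.Agent.JAC.Repr.Restrict10
  Fermat.Agent.JAC.AE0.DegZero35 Fermat.Agent.JAC.AE0.Transfer35
  Fermat.Agent.JAC.Bridge.ChartCover57 Fermat.Agent.JAC.Final.AtlasAdapter36

variable {k : Type u} [Field k] {C : Scheme.{u}} {c : C ⟶ Spec (CommRingCat.of k)}
  {A0 A1 A01 : Type u} [CommRing A0] [CommRing A1] [CommRing A01]
  [Algebra k A0] [Algebra k A1] [Algebra k A01] [Algebra A0 A01] [Algebra A1 A01]
  [IsScalarTower k A0 A01] [IsScalarTower k A1 A01] {t : A0} {s : A1}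
  [IsLocalization.Away t A01] [IsLocalization.Away s A01]

variable (A0 A1 A01 t s) in
/-- **The scheme-level dictionary**: what the bridge chapter delivers. -/
structure SchemeDict (ε : SchemeHomOver (𝟙 (Spec (CommRingCat.of k))) c) (e : A01 →ₐ[k] k)
    (d : FibreDegree c) where
  /-- the class of the line diagram of a class of rigidified line bundles -/
  diagCl : ∀ (B : Type u) [CommRing B] [Algebra k B],
    RigidifiedLineBundle.Classes c ε (specBase (k := k) B) → Cl k A0 A1 A01 t s B
  rigid : ∀ (B : Type u) [CommRing B] [Algebra k B]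
    (x : RigidifiedLineBundle.Classes c ε (specBase (k := k) B)), IsRigidCl e B (diagCl B x)
  inj : ∀ (B : Type u) [CommRing B] [Algebra k B], Function.Injective (diagCl B)
  surj : ∀ (B : Type u) [CommRing B] [Algebra k B] (y : Cl k A0 A1 A01 t s B),
    IsRigidCl e B y → ∃ x, diagCl B x = y
  map : ∀ (B B' : Type u) [CommRing B] [CommRing B'] [Algebra k B] [Algebra k B']
    (ψ : B →ₐ[k] B') (x : RigidifiedLineBundle.Classes c ε (specBase (k := k) B)),
    diagCl B' (RigidifiedLineBundle.classesMap (specOver B ψ) x) = bc ψ (diagCl B x)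
  degZero_iff : ∀ (B : Type u) [CommRing B] [Algebra k B]
    (M : RigidifiedLineBundle c ε (specBase (k := k) B)),
    DegZero d (specBase (k := k) B) M.L ↔ IsDegZero B (diagCl B (clsOf M))

section Points

variable {ε : SchemeHomOver (𝟙 (Spec (CommRingCat.of k))) c} {P : SubPicCondition c ε}
  [hs : ∀ {T : Scheme.{u}} (t : T ⟶ Spec (CommRingCat.of k)), Small.{u} (CutClasses P t)]
  {T : Scheme.{u}}

/-- The class of a point of the absolute Picard presheaf, over a prescribed structure map. -/
noncomputable def clsAt (x : GObj P T) {t₀ : T ⟶ Spec (CommRingCat.of k)} (h : x.str = t₀) :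
    CutClasses P t₀ :=
  cutMap (⟨𝟙 T, by rw [Category.id_comp, h]⟩ : SchemeHomOver t₀ x.str) x.cls

lemma clsAt_of (t₀ : T ⟶ Spec (CommRingCat.of k)) (ξ : CutClasses P t₀)
    (h : (GObj.of t₀ ξ).str = t₀) : clsAt (GObj.of t₀ ξ) h = ξ :=
  (cutMap_id (⟨𝟙 T, Category.id_comp _⟩ : SchemeHomOver t₀ t₀) rfl _).trans (GObj.of_cls _ _)

lemma eq_of_clsAt (x : GObj P T) {t₀ : T ⟶ Spec (CommRingCat.of k)} (h : x.str = t₀) :
    x = GObj.of t₀ (clsAt x h) := by
  subst h
  rw [clsAt, cutMap_id (⟨𝟙 T, Category.id_comp _⟩ : SchemeHomOver x.str x.str) rfl,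
    GObj.of_str_cls]

lemma ext_of_clsAt {x y : GObj P T} {t₀ : T ⟶ Spec (CommRingCat.of k)} (hx : x.str = t₀)
    (hy : y.str = t₀) (h : clsAt x hx = clsAt y hy) : x = y := by
  rw [eq_of_clsAt x hx, eq_of_clsAt y hy, h]

lemma clsAt_map {T' : Scheme.{u}} (f : T' ⟶ T) (x : GObj P T)
    {t₀ : T ⟶ Spec (CommRingCat.of k)} (h : x.str = t₀) {t₀' : T' ⟶ Spec (CommRingCat.of k)}
    (h' : (GObj.map f x).str = t₀') (χ : SchemeHomOver t₀' t₀) (hχ : χ.1 = f) :
    clsAt (GObj.map f x) h' = cutMap χ (clsAt x h) := by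
  have hf : f ≫ x.str = t₀' := h'
  let χ₀ : SchemeHomOver t₀' x.str := ⟨f, hf⟩
  have hcls : (GObj.map f x).cls =
      cutMap (⟨f, rfl⟩ : SchemeHomOver (f ≫ x.str) x.str) x.cls := GObj.of_cls _ _
  have h1 : clsAt (GObj.map f x) h' = cutMap χ₀ x.cls :=
    (congrArg (cutMap (⟨𝟙 T', by rw [Category.id_comp]; exact hf⟩ :
      SchemeHomOver t₀' (f ≫ x.str))) hcls).trans
      (cutMap_comp _ _ χ₀ (by simp [χ₀]) _)
  have h2 : cutMap χ (clsAt x h) = cutMap χ₀ x.cls :=
    cutMap_comp _ _ χ₀ (by simp [χ₀, hχ]) _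
  rw [h1, h2]

end Points

section Dict

variable {ε : SchemeHomOver (𝟙 (Spec (CommRingCat.of k))) c} {e : A01 →ₐ[k] k}
  {d : FibreDegree c}
  [hs : ∀ {T : Scheme.{u}} (t : T ⟶ Spec (CommRingCat.of k)),
    Small.{u} (CutClasses (degZeroCut d ε) t)]

/-- The structure map `k → B` of a `B`-valued point of the absolute Picard presheaf. -/
noncomputable def strHom {B : CommRingCat.{u}} (ξ : GObj (degZeroCut d ε) (Spec B)) : k →+* B :=
  (Spec.preimage ξ.str).hom

lemma strHom_map {B B' : CommRingCat.{u}} (φ : B ⟶ B') (ξ : GObj (degZeroCut d ε) (Spec B)) :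
    strHom (GObj.map (Spec.map φ) ξ) = φ.hom.comp (strHom ξ) := by
  have h : Spec.preimage (GObj.map (Spec.map φ) ξ).str = Spec.preimage ξ.str ≫ φ := by
    apply Spec.map_injective
    rw [Spec.map_preimage, Spec.map_comp, Spec.map_preimage]
    rfl
  unfold strHom
  rw [h]
  rfl

lemma str_eq_specBase (B : Type u) [CommRing B] [Algebra k B]
    (ξ : GObj (degZeroCut d ε) (Spec (CommRingCat.of B))) (h : strHom ξ = algebraMap k B) :
    ξ.str = specBase (k := k) B := by
  rw [← Spec.map_preimage ξ.str]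
  congr 1
  exact CommRingCat.hom_ext h

variable (S : SchemeDict A0 A1 A01 t s ε e d)

/-- The class of line diagrams of a point of the absolute Picard presheaf. -/
noncomputable def toCl (B : Type u) [CommRing B] [Algebra k B]
    (ξ : GObj (degZeroCut d ε) (Spec (CommRingCat.of B))) (h : strHom ξ = algebraMap k B) :
    Cl k A0 A1 A01 t s B :=
  S.diagCl B (clsAt ξ (str_eq_specBase B ξ h)).1

omit hs in
lemma isDegZero_diagCl (B : Type u) [CommRing B] [Algebra k B]
    (x : CutClasses (degZeroCut d ε) (specBase (k := k) B)) : IsDegZero B (S.diagCl B x.1) := by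
  obtain ⟨M, hM, rfl⟩ := x.exists_rep
  exact (S.degZero_iff B M).1 hM

/-- **B3.4, part 2.** The scheme-level dictionary gives the abstract dictionary for the
restriction to rings of the absolute Picard presheaf of the degree-zero cut. -/
noncomputable def dict : Dict A0 A1 A01 t s e (affRestrict (G (degZeroCut d ε))) where
  str ξ := strHom ξ
  str_map φ ξ := strHom_map φ ξ
  toCl B _ _ ξ h := toCl S B ξ h
  toCl_rigid B _ _ ξ h := S.rigid B _
  toCl_degZero B _ _ ξ h := isDegZero_diagCl S B _
  toCl_inj B _ _ ξ ξ' h h' hh :=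
    ext_of_clsAt (str_eq_specBase B ξ h) (str_eq_specBase B ξ' h') (Subtype.ext (S.inj B hh))
  toCl_surj B _ _ y hr hd := by
    obtain ⟨x, rfl⟩ := S.surj B y hr
    obtain ⟨M, rfl⟩ := exists_clsOf_eq x
    have hM : (degZeroCut d ε).P _ M := (S.degZero_iff B M).2 hd
    have hstr : strHom (GObj.of (specBase (k := k) B) (CutClasses.of M hM)) = algebraMap k B := by
      change (Spec.preimage (Spec.map _)).hom = _
      rw [Spec.preimage_map]
      rfl
    refine ⟨GObj.of (specBase (k := k) B) (CutClasses.of M hM), hstr, ?_⟩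
    change S.diagCl B (clsAt _ _).1 = _
    rw [clsAt_of]
    rfl
  toCl_map B B' _ _ _ _ ψ ξ h h' := by
    let ξ₀ : GObj (degZeroCut d ε) (Spec (CommRingCat.of B)) := ξ
    have key := clsAt_map (Spec.map (CommRingCat.ofHom ψ.toRingHom)) ξ₀
      (str_eq_specBase B ξ₀ h) (str_eq_specBase B' (GObj.map _ ξ₀) h') (specOver B ψ) rfl
    exact (congrArg (fun z : CutClasses (degZeroCut d ε) (specBase (k := k) B') =>
      S.diagCl B' z.1) key).trans (S.map B B' ψ _)

variable (𝔸 : AlgAtlas k A0 A1 A01 t s e)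

/-- **The atlas of the absolute Picard presheaf of the degree-zero cut**, from the algebraic
atlas and the scheme-level dictionary. -/
noncomputable def atlas : Fermat.Agent.JAC.Repr.AllSchemes10.Atlas
    (affRestrict (G (degZeroCut d ε))) :=
  (dict S).atlasOfAlgAtlas 𝔸

lemma atlas_ι : (atlas S 𝔸).ι = 𝔸.ι := rfl

lemma atlas_R (γ : 𝔸.ι) : (atlas S 𝔸).R γ = CommRingCat.of (𝔸.R γ) := rfl

/-- The structure morphism of the universal point of a chart is the structure morphism of the
chart ring. -/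
lemma atlas_x_str (γ : 𝔸.ι) :
    GObj.str (P := degZeroCut d ε) ((atlas S 𝔸).x γ) = specBase (k := k) (𝔸.R γ) :=
  str_eq_specBase (𝔸.R γ) _ ((dict S).str_xF 𝔸 γ)

lemma locallyOfFiniteType_specBase (B : Type u) [CommRing B] [Algebra k B]
    (h : Algebra.FiniteType k B) : LocallyOfFiniteType (specBase (k := k) B) := by
  rw [HasRingHomProperty.Spec_iff (P := @LocallyOfFiniteType)]
  exact RingHom.finiteType_algebraMap.2 h

lemma smooth_specBase (B : Type u) [CommRing B] [Algebra k B]
    (h : Algebra.FiniteType k B) (h' : Algebra.FormallySmooth k B) :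
    Smooth (specBase (k := k) B) := by
  rw [HasRingHomProperty.Spec_iff (P := @Smooth)]
  have : Algebra.FinitePresentation k B := Algebra.FinitePresentation.of_finiteType.1 h
  exact RingHom.smooth_algebraMap.2 ⟨h', this⟩

lemma locallyOfFiniteType_atlas_x_str (γ : 𝔸.ι) :
    LocallyOfFiniteType (GObj.str (P := degZeroCut d ε) ((atlas S 𝔸).x γ)) := by
  rw [atlas_x_str]
  exact locallyOfFiniteType_specBase _ (𝔸.finiteType γ)

lemma smooth_atlas_x_str (γ : 𝔸.ι) :
    Smooth (GObj.str (P := degZeroCut d ε) ((atlas S 𝔸).x γ)) := by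
  rw [atlas_x_str]
  exact smooth_specBase _ (𝔸.finiteType γ) (𝔸.formallySmooth γ)

end Dict

end Fermat.Agent.JAC.Final.SchemeDict36
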