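/-
Programme JAC (S25), chapter Final: THE GROUP STRUCTURE THROUGH THE DICTIONARY (helper33).

* `DegAdditive`: additivity of the degree on geometric fibres (an A2 input);
* `picZero e B : Subgroup (Cl k A0 A1 A01 t s B)`: rigid classes of degree zero, `picZeroMap e ψ`
  the restriction of `bc ψ`;
* `bcLaws : AtlasSmooth70.BcLaws t s e`;
* `relModel hdeg S : RelModel10.RelModel (degZeroCut d ε)` for a scheme-level dictionary
  `S : SchemeDict36.SchemeDict ..` (the dictionary D8), and its lifting property `relModel_lift`;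
* `s25_of_schemeDict`: the statement of S25 from the degree theory `d`, the scheme-level
  dictionary `S`, the algebraic atlas `𝔸`, additivity of the degree, the Abel map and Jacobi
  inversion.
-/
import Mathlib
import Fermat.Agent.JAC.Final.SchemeDict36
import Fermat.Agent.JAC.Final.S25Assembly10
import Fermat.Agent.JAC.Final.CutDescent30
import Fermat.Agent.JAC.Smooth.AtlasSmooth70
import Fermat.Agent.JAC.Grp.ConstBc33

set_option autoImplicit false
set_option linter.style.haveILetI false
set_option linter.unusedSectionVars false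

universe u

open CategoryTheory CategoryTheory.Limits Opposite AlgebraicGeometry AlgebraicGeometry.RelPicard
  NeronModelInfra GoodReductionJacobian

namespace Fermat.Agent.JAC.Final.RelModel33

open scoped TensorProduct
open Fermat.Agent.JAC.Core.Defs36 Fermat.Agent.JAC.Core.ConstFamily36
  Fermat.Agent.JAC.Core.AlgAtlas36 Fermat.Agent.JAC.Core.Degree36
  Fermat.Agent.JAC.Grp.Diag33 Fermat.Agent.JAC.Grp.ConstBc33
  Fermat.Agent.JAC.Repr.Wiring10 Fermat.Agent.JAC.Repr.Restrict10
  Fermat.Agent.JAC.Repr.Jacobian10 Fermat.Agent.JAC.Repr.RelModel10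
  Fermat.Agent.JAC.Repr.Lifting10 Fermat.Agent.JAC.Repr.Group10
  Fermat.Agent.JAC.AE0.DegZero35 Fermat.Agent.JAC.Bridge.ChartCover57
  Fermat.Agent.JAC.Final.SchemeDict36 Fermat.Agent.JAC.Smooth.AtlasSmooth70

/-! ### Rigid classes of degree zero -/

section PicZero

variable {k : Type u} [Field k] {A0 A1 A01 : Type u} [CommRing A0] [CommRing A1] [CommRing A01]
  [Algebra k A0] [Algebra k A1] [Algebra k A01] [Algebra A0 A01] [Algebra A1 A01]
  [IsScalarTower k A0 A01] [IsScalarTower k A1 A01] {t : A0} {s : A1}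
  [IsLocalization.Away t A01] [IsLocalization.Away s A01]

variable (k A0 A1 A01 t s) in
/-- Additivity of the degree of line diagrams over algebraically closed fields (an input from the
Riemann-Roch chapter A2). -/
def DegAdditive : Prop :=
  ∀ (K : Type u) [Field K] [IsAlgClosed K] [Algebra k K] (x y : Cl k A0 A1 A01 t s K),
    degClass K (x * y) = degClass K x + degClass K y

theorem degClass_one (K : Type u) [Field K] [Algebra k K] :
    degClass K (1 : Cl k A0 A1 A01 t s K) = 0 :=
  deg_unit K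

theorem DegAdditive.degClass_inv (hdeg : DegAdditive k A0 A1 A01 t s) (K : Type u) [Field K]
    [IsAlgClosed K] [Algebra k K] (x : Cl k A0 A1 A01 t s K) :
    degClass K x⁻¹ = - degClass K x := by
  have h := hdeg K x x⁻¹
  rw [mul_inv_cancel, degClass_one] at h
  linarith

theorem isDegZero_one (B : Type u) [CommRing B] [Algebra k B] :
    IsDegZero B (1 : Cl k A0 A1 A01 t s B) := by
  intro K _ _ _ ψ
  rw [map_one]
  exact degClass_one K

theorem DegAdditive.isDegZero_mul (hdeg : DegAdditive k A0 A1 A01 t s) {B : Type u} [CommRing B]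
    [Algebra k B] {x y : Cl k A0 A1 A01 t s B} (hx : IsDegZero B x) (hy : IsDegZero B y) :
    IsDegZero B (x * y) := by
  intro K _ _ _ ψ
  rw [map_mul, hdeg K, hx K ψ, hy K ψ, add_zero]

theorem DegAdditive.isDegZero_inv (hdeg : DegAdditive k A0 A1 A01 t s) {B : Type u} [CommRing B]
    [Algebra k B] {x : Cl k A0 A1 A01 t s B} (hx : IsDegZero B x) : IsDegZero B x⁻¹ := by
  intro K _ _ _ ψ
  rw [map_inv, hdeg.degClass_inv K, hx K ψ, neg_zero]

theorem isRigidCl_one (e : A01 →ₐ[k] k) (B : Type u) [CommRing B] [Algebra k B] :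
    IsRigidCl e B (1 : Cl k A0 A1 A01 t s B) :=
  letI := rigAlgebra B e
  Subgroup.one_mem _

theorem isRigidCl_mul (e : A01 →ₐ[k] k) {B : Type u} [CommRing B] [Algebra k B]
    {x y : Cl k A0 A1 A01 t s B} (hx : IsRigidCl e B x) (hy : IsRigidCl e B y) :
    IsRigidCl e B (x * y) :=
  letI := rigAlgebra B e
  Subgroup.mul_mem _ hx hy

theorem isRigidCl_inv (e : A01 →ₐ[k] k) {B : Type u} [CommRing B] [Algebra k B]
    {x : Cl k A0 A1 A01 t s B} (hx : IsRigidCl e B x) : IsRigidCl e B x⁻¹ :=
  letI := rigAlgebra B e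
  Subgroup.inv_mem _ hx

/-- The group of rigid classes of degree zero over `B`: the `B`-points of the Jacobian. -/
def picZero (hdeg : DegAdditive k A0 A1 A01 t s) (e : A01 →ₐ[k] k) (B : Type u) [CommRing B]
    [Algebra k B] : Subgroup (Cl k A0 A1 A01 t s B) where
  carrier := {x | IsRigidCl e B x ∧ IsDegZero B x}
  one_mem' := ⟨isRigidCl_one e B, isDegZero_one B⟩
  mul_mem' hx hy := ⟨isRigidCl_mul e hx.1 hy.1, hdeg.isDegZero_mul hx.2 hy.2⟩
  inv_mem' hx := ⟨isRigidCl_inv e hx.1, hdeg.isDegZero_inv hx.2⟩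

theorem mem_picZero {hdeg : DegAdditive k A0 A1 A01 t s} {e : A01 →ₐ[k] k} {B : Type u}
    [CommRing B] [Algebra k B] {x : Cl k A0 A1 A01 t s B} :
    x ∈ picZero hdeg e B ↔ IsRigidCl e B x ∧ IsDegZero B x := Iff.rfl

/-- Base change of rigid classes of degree zero. -/
noncomputable def picZeroMap (hdeg : DegAdditive k A0 A1 A01 t s) (e : A01 →ₐ[k] k)
    {B B' : Type u} [CommRing B] [CommRing B'] [Algebra k B] [Algebra k B'] (ψ : B →ₐ[k] B') :
    ↥(picZero hdeg e B) →* ↥(picZero hdeg e B') :=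
  ((bc ψ).comp (picZero hdeg e B).subtype).codRestrict (picZero hdeg e B')
    (fun x => ⟨isRigidCl_bc e ψ x.1 x.2.1, isDegZero_bc ψ x.1 x.2.2⟩)

@[simp]
theorem picZeroMap_coe (hdeg : DegAdditive k A0 A1 A01 t s) (e : A01 →ₐ[k] k)
    {B B' : Type u} [CommRing B] [CommRing B'] [Algebra k B] [Algebra k B'] (ψ : B →ₐ[k] B')
    (x : ↥(picZero hdeg e B)) :
    (picZeroMap hdeg e ψ x : Cl k A0 A1 A01 t s B') = bc ψ x.1 := rfl

/-- The functoriality laws of `bc` (for `Smooth/AtlasSmooth70`). -/
theorem bcLaws (e : A01 →ₐ[k] k) : BcLaws (A0 := A0) (A1 := A1) t s e where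
  comp _ _ _ _ _ _ _ _ _ ψ ψ' ξ := (bc_bc ψ ψ' ξ).symm
  rigid _ _ _ _ _ _ ψ ξ h := isRigidCl_bc e ψ ξ h
  eq_class _ _ _ _ _ _ ψ ξ := by rw [bc_eq_baseChangeClass]

/-- Rigid classes of degree zero lift along square-zero thickenings. -/
theorem picZeroMap_surjective (hdeg : DegAdditive k A0 A1 A01 t s) (e : A01 →ₐ[k] k)
    (B : Type u) [CommRing B] [Algebra k B] (I : Ideal B) (hI : I ^ 2 = ⊥) :
    Function.Surjective (picZeroMap hdeg e (Ideal.Quotient.mkₐ k I)) := by
  intro y
  obtain ⟨ξ, hr, hd, hξ⟩ := exists_lift (bcLaws e) I hI y.1 y.2.1 y.2.2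
  exact ⟨⟨ξ, hr, hd⟩, Subtype.ext hξ⟩

end PicZero

/-! ### The model of the degree-zero cut over affine bases -/

section Model

variable {k : Type u} [Field k] {C : Scheme.{u}} {c : C ⟶ Spec (CommRingCat.of k)}
  {A0 A1 A01 : Type u} [CommRing A0] [CommRing A1] [CommRing A01]
  [Algebra k A0] [Algebra k A1] [Algebra k A01] [Algebra A0 A01] [Algebra A1 A01]
  [IsScalarTower k A0 A01] [IsScalarTower k A1 A01] {t : A0} {s : A1}
  [IsLocalization.Away t A01] [IsLocalization.Away s A01]
  {ε : SchemeHomOver (𝟙 (Spec (CommRingCat.of k))) c} {e : A01 →ₐ[k] k} {d : FibreDegree c}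

/-- The dictionary on classes in the degree-zero cut over `Spec B`. -/
noncomputable def thetaFun (hdeg : DegAdditive k A0 A1 A01 t s)
    (S : SchemeDict A0 A1 A01 t s ε e d) (B : Type u) [CommRing B] [Algebra k B]
    (ξ : CutClasses (Fermat.Agent.JAC.AE0.Transfer35.degZeroCut d ε) (specBase (k := k) B)) :
    ↥(picZero hdeg e B) :=
  ⟨S.diagCl B ξ.1, S.rigid B ξ.1, isDegZero_diagCl S B ξ⟩

theorem thetaFun_bijective (hdeg : DegAdditive k A0 A1 A01 t s)
    (S : SchemeDict A0 A1 A01 t s ε e d) (B : Type u) [CommRing B] [Algebra k B] :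
    Function.Bijective (thetaFun hdeg S B) := by
  constructor
  · intro ξ ξ' h
    exact Subtype.ext (S.inj B (congrArg Subtype.val h))
  · rintro ⟨y, hr, hd⟩
    obtain ⟨x, rfl⟩ := S.surj B y hr
    obtain ⟨M, rfl⟩ := exists_clsOf_eq x
    have hM : (Fermat.Agent.JAC.AE0.Transfer35.degZeroCut d ε).P _ M :=
      (S.degZero_iff B M).2 hd
    exact ⟨CutClasses.of M hM, rfl⟩

/-- **The dictionary D8**: the model of the classes in the degree-zero cut over affine
`k`-schemes by the commutative groups of rigid degree-zero classes of line diagrams. -/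
noncomputable def relModel (hdeg : DegAdditive k A0 A1 A01 t s)
    (S : SchemeDict A0 A1 A01 t s ε e d) :
    RelModel.{u + 1} (Fermat.Agent.JAC.AE0.Transfer35.degZeroCut d ε) where
  A B _ _ := ↥(picZero hdeg e B)
  grp _ _ _ := inferInstance
  map ψ := picZeroMap hdeg e ψ
  θ B _ _ := Equiv.ofBijective (thetaFun hdeg S B) (thetaFun_bijective hdeg S B)
  θ_map {B B'} _ _ _ _ ψ ξ := Subtype.ext (S.map B B' ψ ξ.1)

/-- The lifting property of the model along square-zero thickenings. -/
theorem relModel_lift (hdeg : DegAdditive k A0 A1 A01 t s)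
    (S : SchemeDict A0 A1 A01 t s ε e d) (B : Type u) [CommRing B] [Algebra k B] (I : Ideal B)
    (hI : I ^ 2 = ⊥) :
    Function.Surjective ((relModel hdeg S).map (Ideal.Quotient.mkₐ k I)) :=
  picZeroMap_surjective hdeg e B I hI

end Model

/-! ### S25 from the dictionary and the atlas -/

section Final

open Fermat.Agent.JAC.Final.S25Assembly10 Fermat.Agent.JAC.Repr.AllSchemes10
  Fermat.Agent.JAC.Grp.OverAff6 Fermat.Agent.JAC.Final.CutDescent30

variable {k : Type u} [Field k] [IsAlgClosed k] {C : Scheme.{u}}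
  {c : C ⟶ Spec (CommRingCat.of k)} [IsProper c] [SmoothOfRelativeDimension 1 c] [IsIntegral C]
  {ε : SchemeHomOver (𝟙 (Spec (CommRingCat.of k))) c}
variable {A0 A1 A01 : Type u} [CommRing A0] [CommRing A1] [CommRing A01]
  [Algebra k A0] [Algebra k A1] [Algebra k A01] [Algebra A0 A01] [Algebra A1 A01]
  [IsScalarTower k A0 A01] [IsScalarTower k A1 A01] {t : A0} {s : A1}
  [IsLocalization.Away t A01] [IsLocalization.Away s A01]
  {e : A01 →ₐ[k] k} {d : FibreDegree c}

/-- **S25 from the scheme-level dictionary and the algebraic atlas.**  Inputs: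
* `S`: the scheme-level dictionary (bridge chapter B3);
* `𝔸`: the algebraic atlas (chart chapter A3-A5);
* `hdeg`: additivity of the degree on geometric fibres (A2);
* `a`, `g`, `hG`: the Abel map and Jacobi inversion, stated on classes. -/
theorem s25_of_schemeDict
    (S : SchemeDict A0 A1 A01 t s ε e d) (𝔸 : AlgAtlas k A0 A1 A01 t s e)
    (hdeg : DegAdditive k A0 A1 A01 t s)
    (g : ℕ)
    (a : Over.mk c ⟶
      Over.mk (toBase (jacRep (cutDescent_degZeroCut (ε := ε) d) (SchemeDict36.atlas S 𝔸))))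
    (hG : ∀ (K : Type u) [Field K] [IsAlgClosed K]
      (x : Spec (CommRingCat.of K) ⟶ Spec (CommRingCat.of k))
      (ξ : CutClasses (Fermat.Agent.JAC.AE0.Transfer35.degZeroCut d ε) x),
      ∃ y : Fin g → (Over.mk x ⟶ Over.mk c),
        @Finset.prod _ _ ((relModel hdeg S).commGroup ⟨CommRingCat.of K, x⟩).toCommMonoid
          Finset.univ
          (fun i => overHomEquiv
            (jacRep (cutDescent_degZeroCut (ε := ε) d) (SchemeDict36.atlas S 𝔸)) x (y i ≫ a)) =
              ξ) :
    ∃ D : RelativePic0Designation k c,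
      Nonempty (RepresentsRelSubPic c ε (algEquivZeroCut c ε) D) ∧
        Smooth D.toBase ∧ IsProper D.toBase ∧ GeometricallyConnected D.toBase :=
  s25_of_relModel k c ε d (cutDescent_degZeroCut (ε := ε) d)
    (SchemeDict36.atlas S 𝔸) (fun γ => locallyOfFiniteType_atlas_x_str S 𝔸 γ)
    (relModel hdeg S) (fun B _ _ I hI => relModel_lift hdeg S B I hI) g a hG

end Final

end Fermat.Agent.JAC.Final.RelModel33
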