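/-
Programme JAC (S25), chapter Final (helper27): S25 FROM THE SCHEME-LEVEL DICTIONARY, THE ALGEBRAIC
ATLAS, ADDITIVITY OF THE DEGREE, THE TWO CHARTS OF THE CURVE AND THE ABEL DATA IN `Cl` LANGUAGE.

`s25_of_schemeDict_twoCharts` = helper33's `RelModel33.s25_of_schemeDict` with the Abel morphism
`a` and the Jacobi inversion hypothesis `hG` discharged by `AbelWiring27` for the model
`relModel hdeg S`.  The remaining Abel inputs are purely algebraic:

* `ξ0 : Cl A0`, `ξ1 : Cl A1` rigid of degree zero (the Abel classes on the two charts),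
  agreeing on the overlap: `bc (A0 → A01) ξ0 = bc (A1 → A01) ξ1`;
* `hsurj`: over an algebraically closed field `K`, every rigid class of degree zero is a product
  of `g` classes `bc p ξ_j`, `p : A_j →ₐ[k] K` a `K`-point of one of the charts.
-/
import Fermat.Agent.JAC.Final.RelModel33
import Fermat.Agent.JAC.Final.AbelWiring27
import Fermat.Agent.JAC.Abel.TwoChartPullback27

set_option autoImplicit false

universe u

open CategoryTheory CategoryTheory.Limits Opposite AlgebraicGeometry AlgebraicGeometry.RelPicard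
  NeronModelInfra GoodReductionJacobian

namespace Fermat.Agent.JAC.Final.AbelSchemeDict27

open scoped TensorProduct
open Fermat.Agent.JAC.Core.Defs36 Fermat.Agent.JAC.Core.ConstFamily36
  Fermat.Agent.JAC.Core.AlgAtlas36 Fermat.Agent.JAC.Core.Degree36
  Fermat.Agent.JAC.Repr.Wiring10 Fermat.Agent.JAC.Repr.Restrict10
  Fermat.Agent.JAC.Repr.Jacobian10 Fermat.Agent.JAC.Repr.RelModel10
  Fermat.Agent.JAC.Repr.Lifting10 Fermat.Agent.JAC.Repr.Group10
  Fermat.Agent.JAC.AE0.DegZero35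
  Fermat.Agent.JAC.Final.SchemeDict36 Fermat.Agent.JAC.Final.RelModel33
  Fermat.Agent.JAC.Final.AbelWiring27 Fermat.Agent.JAC.Abel.TwoChartPullback27
  Fermat.Agent.JAC.Final.S25Assembly10

variable {k : Type u} [Field k] [IsAlgClosed k] {C : Scheme.{u}}
  {c : C ⟶ Spec (CommRingCat.of k)} [IsProper c] [SmoothOfRelativeDimension 1 c] [IsIntegral C]
  {ε : SchemeHomOver (𝟙 (Spec (CommRingCat.of k))) c}
  {A0 A1 A01 : Type u} [CommRing A0] [CommRing A1] [CommRing A01]
  [Algebra k A0] [Algebra k A1] [Algebra k A01] [Algebra A0 A01] [Algebra A1 A01]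
  [IsScalarTower k A0 A01] [IsScalarTower k A1 A01] {t : A0} {s : A1}
  [IsLocalization.Away t A01] [IsLocalization.Away s A01]
  {e : A01 →ₐ[k] k} {d : FibreDegree c}

/-- **S25 from the scheme-level dictionary, the atlas, additivity of the degree, the two charts
and the Abel data in `Cl` language.** -/
theorem s25_of_schemeDict_twoCharts
    (S : SchemeDict A0 A1 A01 t s ε e d) (𝔸 : AlgAtlas k A0 A1 A01 t s e)
    (hdeg : DegAdditive k A0 A1 A01 t s)
    (ι0 : Spec (CommRingCat.of A0) ⟶ C) (ι1 : Spec (CommRingCat.of A1) ⟶ C)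
    (ι01 : Spec (CommRingCat.of A01) ⟶ C)
    [IsOpenImmersion ι0] [IsOpenImmersion ι1] [IsOpenImmersion ι01]
    (hι0 : ι0 ≫ c = Spec.map (CommRingCat.ofHom (algebraMap k A0)))
    (hι1 : ι1 ≫ c = Spec.map (CommRingCat.ofHom (algebraMap k A1)))
    (h0 : Spec.map (CommRingCat.ofHom (algebraMap A0 A01)) ≫ ι0 = ι01)
    (h1 : Spec.map (CommRingCat.ofHom (algebraMap A1 A01)) ≫ ι1 = ι01)
    (hsup : ι0.opensRange ⊔ ι1.opensRange = ⊤)
    (hinf : ι0.opensRange ⊓ ι1.opensRange = ι01.opensRange)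
    (g : ℕ) (ξ0 : Cl k A0 A1 A01 t s A0) (ξ1 : Cl k A0 A1 A01 t s A1)
    (hr0 : IsRigidCl e A0 ξ0) (hd0 : IsDegZero A0 ξ0)
    (hr1 : IsRigidCl e A1 ξ1) (hd1 : IsDegZero A1 ξ1)
    (hagree : bc (IsScalarTower.toAlgHom k A0 A01) ξ0 = bc (IsScalarTower.toAlgHom k A1 A01) ξ1)
    (hsurj : ∀ (K : Type u) [Field K] [IsAlgClosed K] [Algebra k K]
      (z : Cl k A0 A1 A01 t s K), IsRigidCl e K z → IsDegZero K z →
      ∃ f : Fin g → (A0 →ₐ[k] K) ⊕ (A1 →ₐ[k] K),
        z = ∏ i, Sum.elim (fun p => bc p ξ0) (fun p => bc p ξ1) (f i)) :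
    ∃ D : RelativePic0Designation k c,
      Nonempty (RepresentsRelSubPic c ε (algEquivZeroCut c ε) D) ∧
        Smooth D.toBase ∧ IsProper D.toBase ∧ GeometricallyConnected D.toBase := by
  have hpb : IsPullback
      (Spec.map (CommRingCat.ofHom (IsScalarTower.toAlgHom k A0 A01).toRingHom))
      (Spec.map (CommRingCat.ofHom (IsScalarTower.toAlgHom k A1 A01).toRingHom)) ι0 ι1 :=
    isPullback_of_opensRange_inf ι0 ι1 ι01 _ _ h0 h1 hinf
  let M := relModel hdeg S
  let X0 : M.A A0 := ⟨ξ0, hr0, hd0⟩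
  let X1 : M.A A1 := ⟨ξ1, hr1, hd1⟩
  obtain ⟨a, ha0, ha1⟩ := exists_abel
    (jacRep (Fermat.Agent.JAC.Final.CutDescent30.cutDescent_degZeroCut (ε := ε) d)
      (SchemeDict36.atlas S 𝔸))
    (IsScalarTower.toAlgHom k A0 A01) (IsScalarTower.toAlgHom k A1 A01) ι0 ι1 hι0 hι1
    (mem_range_or_of_opensRange_sup ι0 ι1 hsup) hpb
    ((M.θ A0).symm X0) ((M.θ A1).symm X1) (by
      apply (M.θ A01).injective
      rw [M.θ_map, M.θ_map, Equiv.apply_symm_apply, Equiv.apply_symm_apply]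
      exact Subtype.ext hagree)
  refine s25_of_schemeDict S 𝔸 hdeg g a
    (hG_of_model _ M ι0 ι1 hι0 hι1 a X0 X1 ha0 ha1 g ?_)
  intro K _ _ _ z
  obtain ⟨f, hf⟩ := hsurj K z.1 z.2.1 z.2.2
  refine ⟨f, Subtype.ext ?_⟩
  have hcoe : ∀ q : (A0 →ₐ[k] K) ⊕ (A1 →ₐ[k] K),
      (picZero hdeg e K).subtype
        (Sum.elim (fun p => M.map p X0) (fun p => M.map p X1) q) =
        Sum.elim (fun p => bc p ξ0) (fun p => bc p ξ1) q := by
    rintro (p | p) <;> rfl
  change z.1 = (picZero hdeg e K).subtype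
    (∏ i, Sum.elim (fun p => M.map p X0) (fun p => M.map p X1) (f i))
  rw [map_prod, hf]
  exact Finset.prod_congr rfl fun i _ => (hcoe (f i)).symm

end Fermat.Agent.JAC.Final.AbelSchemeDict27
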