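/-
Programme JAC (S25), work package B8 (final assembly), brick "Yoneda wrapper" (helper1).

From a scheme `J` over `Spec R` together with bijections, natural in `t : T ⟶ Spec R`,
  `SchemeHomOver t j ≃ {x : Classes c ε t // x satisfies P}`
we produce the Prelude's `RelativePic0Designation` and `RepresentsRelSubPic` structures:
the Poincaré bundle is a representative of the class of `𝟙 J`, the zero section is the point
classified by the unit class.  Pure Yoneda; no geometry.
-/
import Fermat.Prelude.Def_AlgebraicGeometry_RepresentsRelSubPic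

set_option autoImplicit false

universe u

open CategoryTheory CategoryTheory.Limits AlgebraicGeometry AlgebraicGeometry.RelPicard
  NeronModelInfra GoodReductionJacobian

namespace Fermat.Agent.JAC.Final.Yoneda1

noncomputable section

variable {R : Type u} [CommRing R] {C : Scheme.{u}} {c : C ⟶ Spec (CommRingCat.of R)}
  {ε : SchemeHomOver (𝟙 (Spec (CommRingCat.of R))) c}

/-! ### The sub-presheaf of classes cut out by a `SubPicCondition` -/

section Sub

variable (P : SubPicCondition c ε)

/-- The class `x` satisfies the condition `P` (on some, equivalently every, representative). -/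
def InSub {T : Scheme.{u}} (t : T ⟶ Spec (CommRingCat.of R))
    (x : RigidifiedLineBundle.Classes c ε t) : Prop :=
  ∃ M : RigidifiedLineBundle c ε t, (Quotient.mk _ M : RigidifiedLineBundle.Classes c ε t) = x ∧
    P.P t M

variable {P}

lemma inSub_mk_iff {T : Scheme.{u}} {t : T ⟶ Spec (CommRingCat.of R)}
    (M : RigidifiedLineBundle c ε t) :
    InSub P t (Quotient.mk _ M) ↔ P.P t M := by
  constructor
  · rintro ⟨M', h, hM'⟩
    exact P.congr t M' M (Quotient.exact h) hM'
  · intro h
    exact ⟨M, rfl, h⟩

lemma InSub.of_mk_eq {T : Scheme.{u}} {t : T ⟶ Spec (CommRingCat.of R)}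
    {x : RigidifiedLineBundle.Classes c ε t} (hx : InSub P t x)
    (M : RigidifiedLineBundle c ε t)
    (hM : (Quotient.mk _ M : RigidifiedLineBundle.Classes c ε t) = x) : P.P t M := by
  subst hM
  exact (inSub_mk_iff M).1 hx

lemma classesMap_mk {T T' : Scheme.{u}} {t : T ⟶ Spec (CommRingCat.of R)}
    {t' : T' ⟶ Spec (CommRingCat.of R)} (ψ : SchemeHomOver t' t)
    (M : RigidifiedLineBundle c ε t) :
    RigidifiedLineBundle.classesMap ψ (Quotient.mk _ M) =
      (Quotient.mk _ (M.pullbackAlong ψ) : RigidifiedLineBundle.Classes c ε t') := rfl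

lemma InSub.map {T T' : Scheme.{u}} {t : T ⟶ Spec (CommRingCat.of R)}
    {t' : T' ⟶ Spec (CommRingCat.of R)} (ψ : SchemeHomOver t' t)
    {x : RigidifiedLineBundle.Classes c ε t} (hx : InSub P t x) :
    InSub P t' (RigidifiedLineBundle.classesMap ψ x) := by
  obtain ⟨M, rfl, hM⟩ := hx
  exact ⟨M.pullbackAlong ψ, rfl, P.pullback_mem t t' ψ M hM⟩

variable (P)

/-- The classes of rigidified line bundles over `t` satisfying `P`. -/
def SubClasses {T : Scheme.{u}} (t : T ⟶ Spec (CommRingCat.of R)) : Type (u + 1) :=
  {x : RigidifiedLineBundle.Classes c ε t // InSub P t x}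

variable {P}

/-- The class of a rigidified line bundle satisfying `P`. -/
def SubClasses.mk {T : Scheme.{u}} {t : T ⟶ Spec (CommRingCat.of R)}
    (M : RigidifiedLineBundle c ε t) (hM : P.P t M) : SubClasses P t :=
  ⟨Quotient.mk _ M, M, rfl, hM⟩

/-- Pullback of classes satisfying `P`. -/
def subClassesMap {T T' : Scheme.{u}} {t : T ⟶ Spec (CommRingCat.of R)}
    {t' : T' ⟶ Spec (CommRingCat.of R)} (ψ : SchemeHomOver t' t) :
    SubClasses P t → SubClasses P t' :=
  fun x => ⟨RigidifiedLineBundle.classesMap ψ x.1, x.2.map ψ⟩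

@[simp]
lemma subClassesMap_val {T T' : Scheme.{u}} {t : T ⟶ Spec (CommRingCat.of R)}
    {t' : T' ⟶ Spec (CommRingCat.of R)} (ψ : SchemeHomOver t' t) (x : SubClasses P t) :
    (subClassesMap ψ x).1 = RigidifiedLineBundle.classesMap ψ x.1 := rfl

lemma subClassesMap_mk {T T' : Scheme.{u}} {t : T ⟶ Spec (CommRingCat.of R)}
    {t' : T' ⟶ Spec (CommRingCat.of R)} (ψ : SchemeHomOver t' t)
    (M : RigidifiedLineBundle c ε t) (hM : P.P t M) :
    subClassesMap ψ (SubClasses.mk M hM) =
      SubClasses.mk (M.pullbackAlong ψ) (P.pullback_mem t t' ψ M hM) := rfl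

lemma SubClasses.mk_eq_mk_iff {T : Scheme.{u}} {t : T ⟶ Spec (CommRingCat.of R)}
    {M M' : RigidifiedLineBundle c ε t} (hM : P.P t M) (hM' : P.P t M') :
    SubClasses.mk M hM = SubClasses.mk M' hM' ↔ Nonempty (M.L ≅ M'.L) := by
  constructor
  · intro h
    exact Quotient.exact (congrArg Subtype.val h)
  · intro h
    exact Subtype.ext (Quotient.sound h)

lemma SubClasses.exists_rep {T : Scheme.{u}} {t : T ⟶ Spec (CommRingCat.of R)}
    (x : SubClasses P t) : ∃ (M : RigidifiedLineBundle c ε t) (hM : P.P t M),
      SubClasses.mk M hM = x := by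
  obtain ⟨x, M, rfl, hM⟩ := x
  exact ⟨M, hM, rfl⟩

variable (P)

/-- The unit class. -/
def unitSubClass {T : Scheme.{u}} (t : T ⟶ Spec (CommRingCat.of R)) : SubClasses P t :=
  SubClasses.mk (RigidifiedLineBundle.unit t) (P.unit_mem t)

end Sub

/-! ### Representing data and the Yoneda wrapper -/

/-- A scheme `J` over `Spec R` representing the functor of classes satisfying `P` on schemes over
`Spec R`. -/
structure SubPicRep (P : SubPicCondition c ε) {J : Scheme.{u}}
    (j : J ⟶ Spec (CommRingCat.of R)) where
  /-- points of `J` over `t` are classes over `t` satisfying `P` -/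
  e : ∀ {T : Scheme.{u}} (t : T ⟶ Spec (CommRingCat.of R)), SchemeHomOver t j ≃ SubClasses P t
  /-- naturality -/
  e_comp : ∀ {T T' : Scheme.{u}} {t : T ⟶ Spec (CommRingCat.of R)}
    {t' : T' ⟶ Spec (CommRingCat.of R)} (ψ : SchemeHomOver t' t) (g : SchemeHomOver t j),
    e t' (postComp g ψ) = subClassesMap ψ (e t g)

namespace SubPicRep

variable {P : SubPicCondition c ε} {J : Scheme.{u}} {j : J ⟶ Spec (CommRingCat.of R)}
  (r : SubPicRep P j)

/-- The identity of `J`, as a point of `J` over `j`. -/
def idPt (j : J ⟶ Spec (CommRingCat.of R)) : SchemeHomOver j j := ⟨𝟙 J, Category.id_comp j⟩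

lemma postComp_idPt {T : Scheme.{u}} {t : T ⟶ Spec (CommRingCat.of R)} (g : SchemeHomOver t j) :
    postComp (idPt j) g = g :=
  Subtype.ext (Category.comp_id g.1)

/-- The universal class on `J`. -/
def univClass : SubClasses P j := r.e j (idPt j)

lemma e_eq {T : Scheme.{u}} {t : T ⟶ Spec (CommRingCat.of R)} (g : SchemeHomOver t j) :
    r.e t g = subClassesMap g r.univClass := by
  have h := r.e_comp g (idPt j)
  rwa [postComp_idPt] at h

/-- The zero section: the point classified by the unit class. -/
def zeroPt : SchemeHomOver (𝟙 (Spec (CommRingCat.of R))) j :=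
  (r.e (𝟙 _)).symm (unitSubClass P (𝟙 _))

/-- The designation attached to representing data. -/
def designation : RelativePic0Designation R c where
  P := J
  toBase := j
  zeroSection := r.zeroPt.1
  zeroSection_toBase := r.zeroPt.2

@[simp] lemma designation_P : r.designation.P = J := rfl
@[simp] lemma designation_toBase : r.designation.toBase = j := rfl

/-- A Poincaré bundle: a representative of the universal class. -/
def poincare : RigidifiedLineBundle c ε j :=
  r.univClass.exists_rep.choose

lemma poincare_mem : P.P j r.poincare :=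
  r.univClass.exists_rep.choose_spec.choose

lemma mk_poincare : SubClasses.mk r.poincare r.poincare_mem = r.univClass :=
  r.univClass.exists_rep.choose_spec.choose_spec

lemma e_eq_mk {T : Scheme.{u}} {t : T ⟶ Spec (CommRingCat.of R)} (g : SchemeHomOver t j) :
    r.e t g = SubClasses.mk (r.poincare.pullbackAlong g)
      (P.pullback_mem j t g _ r.poincare_mem) := by
  rw [r.e_eq, ← r.mk_poincare, subClassesMap_mk]

lemma e_eq_mk_iff {T : Scheme.{u}} {t : T ⟶ Spec (CommRingCat.of R)} (g : SchemeHomOver t j)
    (M : RigidifiedLineBundle c ε t) (hM : P.P t M) :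
    r.e t g = SubClasses.mk M hM ↔ Nonempty ((r.poincare.pullbackAlong g).L ≅ M.L) := by
  rw [r.e_eq_mk, SubClasses.mk_eq_mk_iff]

/-- **The Yoneda wrapper.** Representing data give the Prelude's `RepresentsRelSubPic`. -/
def represents : RepresentsRelSubPic c ε P r.designation where
  poincare := r.poincare
  poincare_mem := r.poincare_mem
  univ {T} t M hM := by
    refine ⟨(r.e t).symm (SubClasses.mk M hM), ?_, ?_⟩
    · exact (r.e_eq_mk_iff _ M hM).1 (Equiv.apply_symm_apply _ _)
    · intro g hg
      exact ((Equiv.symm_apply_eq _).2 ((r.e_eq_mk_iff g M hM).2 hg).symm).symm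
  zero := by
    have h : r.e (𝟙 _) r.zeroPt = unitSubClass P (𝟙 _) := Equiv.apply_symm_apply _ _
    exact (r.e_eq_mk_iff r.zeroPt _ (P.unit_mem _)).1 h

theorem exists_designation (r : SubPicRep P j) :
    ∃ D : RelativePic0Designation R c, D.P = J ∧ HEq D.toBase j ∧
      Nonempty (RepresentsRelSubPic c ε P D) :=
  ⟨r.designation, rfl, HEq.rfl, ⟨r.represents⟩⟩

end SubPicRep

end

end Fermat.Agent.JAC.Final.Yoneda1
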