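/-
Programme JAC (S25), work package B8 (final assembly), brick "absolute Picard functor" (helper1).

* `classesMap_id'`, `classesMap_comp'` : functoriality of the Prelude's `classesMap`, in a form
  which only looks at the underlying morphisms of schemes.
* `AbsPts P T := Σ t : T ⟶ Spec R, Shrink (SubClasses P t)` and the presheaf
  `absFunctor P : Scheme.{u}ᵒᵖ ⥤ Type u` ("the Picard functor on ALL schemes, living over
  `Spec R`"), which is the shape consumed by `Repr/AllSchemes10.Atlas.repOfIso`.
* `subPicRepOfRepresentableBy` : a scheme representing `absFunctor P` is naturally a scheme over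
  `Spec R` and carries representing data `Yoneda1.SubPicRep`; hence (`exists_represents`) the
  Prelude's `RelativePic0Designation` and `RepresentsRelSubPic`.
-/
import Fermat.Agent.JAC.Final.Yoneda1
import Fermat.Agent.JAC.Glue.SmallClasses23

set_option autoImplicit false

universe u

open CategoryTheory CategoryTheory.Limits AlgebraicGeometry AlgebraicGeometry.RelPicard
  NeronModelInfra GoodReductionJacobian Opposite

namespace Fermat.Agent.JAC.Final.AbsPic1

open Fermat.Agent.JAC.Final.Yoneda1 Fermat.Agent.JAC.Glue.SmallClasses23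

noncomputable section

variable {R : Type u} [CommRing R] {C : Scheme.{u}} {c : C ⟶ Spec (CommRingCat.of R)}
  {ε : SchemeHomOver (𝟙 (Spec (CommRingCat.of R))) c}

/-! ### Functoriality of `classesMap` -/

section Functoriality

variable {T T' T'' : Scheme.{u}} {t : T ⟶ Spec (CommRingCat.of R)}
  {t' : T' ⟶ Spec (CommRingCat.of R)} {t'' : T'' ⟶ Spec (CommRingCat.of R)}

lemma classesMap_id' (ψ : SchemeHomOver t t) (hψ : ψ.1 = 𝟙 T)
    (x : RigidifiedLineBundle.Classes c ε t) : RigidifiedLineBundle.classesMap ψ x = x := by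
  obtain ⟨ψ, h⟩ := ψ
  obtain rfl : ψ = 𝟙 T := hψ
  induction x using Quotient.ind with
  | _ M =>
    exact Quotient.sound
      ⟨(Scheme.Modules.pullbackCongr (baseChangeSnd_id c t)).app M.L ≪≫
        (Scheme.Modules.pullbackId (pullback c t)).app M.L⟩

lemma classesMap_comp' (φ : SchemeHomOver t' t) (ψ : SchemeHomOver t'' t')
    (χ : SchemeHomOver t'' t) (h : χ.1 = ψ.1 ≫ φ.1) (x : RigidifiedLineBundle.Classes c ε t) :
    RigidifiedLineBundle.classesMap ψ (RigidifiedLineBundle.classesMap φ x) =
      RigidifiedLineBundle.classesMap χ x := by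
  obtain rfl : χ = postComp φ ψ := Subtype.ext h
  induction x using Quotient.ind with
  | _ M =>
    exact Quotient.sound
      ⟨(Scheme.Modules.pullbackComp _ _).app M.L ≪≫
        (Scheme.Modules.pullbackCongr (baseChangeSnd_comp c φ ψ)).app M.L⟩

variable {P : SubPicCondition c ε}

lemma subClassesMap_id' (ψ : SchemeHomOver t t) (hψ : ψ.1 = 𝟙 T) (x : SubClasses P t) :
    subClassesMap ψ x = x :=
  Subtype.ext (classesMap_id' ψ hψ x.1)

lemma subClassesMap_comp' (φ : SchemeHomOver t' t) (ψ : SchemeHomOver t'' t')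
    (χ : SchemeHomOver t'' t) (h : χ.1 = ψ.1 ≫ φ.1) (x : SubClasses P t) :
    subClassesMap ψ (subClassesMap φ x) = subClassesMap χ x :=
  Subtype.ext (classesMap_comp' φ ψ χ h x.1)

lemma subClassesMap_congr (ψ ψ' : SchemeHomOver t' t) (h : ψ.1 = ψ'.1) (x : SubClasses P t) :
    subClassesMap ψ x = subClassesMap ψ' x := by
  obtain rfl : ψ = ψ' := Subtype.ext h
  rfl

end Functoriality

/-! ### The absolute functor -/

variable (P : SubPicCondition c ε)

instance small_subClasses {T : Scheme.{u}} (t : T ⟶ Spec (CommRingCat.of R)) :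
    Small.{u} (SubClasses P t) :=
  inferInstanceAs (Small.{u} {x : RigidifiedLineBundle.Classes c ε t // InSub P t x})

/-- Points of the absolute Picard functor: a structure morphism and a class over it. -/
structure AbsPts (T : Scheme.{u}) : Type u where
  /-- the structure morphism of a point -/
  base : T ⟶ Spec (CommRingCat.of R)
  /-- the (shrunk) class of a point -/
  shr : Shrink.{u} (SubClasses P base)

namespace AbsPts

variable {P} {T T' T'' : Scheme.{u}}

/-- constructor from a class -/
abbrev ofClass (t : T ⟶ Spec (CommRingCat.of R)) (x : SubClasses P t) : AbsPts P T :=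
  ⟨t, equivShrink _ x⟩

/-- the class of a point -/
def cls (a : AbsPts P T) : SubClasses P a.base := (equivShrink _).symm a.shr

lemma base_ofClass (t : T ⟶ Spec (CommRingCat.of R)) (x : SubClasses P t) :
    (ofClass t x).base = t := rfl

@[simp] lemma cls_ofClass (t : T ⟶ Spec (CommRingCat.of R)) (x : SubClasses P t) :
    (ofClass t x).cls = x := Equiv.symm_apply_apply _ _

lemma ofClass_base_cls (a : AbsPts P T) : ofClass a.base a.cls = a := by
  obtain ⟨t, x⟩ := a
  exact congrArg (AbsPts.mk t) (Equiv.apply_symm_apply _ _)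

/-- the class of a point, transported to a structure morphism equal to its own -/
def clsAt (a : AbsPts P T) {t : T ⟶ Spec (CommRingCat.of R)} (h : a.base = t) : SubClasses P t :=
  subClassesMap ⟨𝟙 T, (Category.id_comp _).trans h⟩ a.cls

lemma clsAt_self (a : AbsPts P T) (h : a.base = a.base) : a.clsAt h = a.cls :=
  subClassesMap_id' _ rfl _

lemma clsAt_ofClass (t : T ⟶ Spec (CommRingCat.of R)) (x : SubClasses P t)
    {t' : T ⟶ Spec (CommRingCat.of R)} (h : t = t') :
    (ofClass t x).clsAt h = subClassesMap ⟨𝟙 T, (Category.id_comp _).trans h⟩ x := by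
  rw [clsAt, cls_ofClass]

lemma clsAt_congr {a b : AbsPts P T} (hab : a = b) {t : T ⟶ Spec (CommRingCat.of R)}
    (h : a.base = t) (h' : b.base = t) : a.clsAt h = b.clsAt h' := by
  subst hab
  rfl

lemma ext' {a b : AbsPts P T} (h : a.base = b.base) (h' : a.clsAt h = b.cls) : a = b := by
  obtain ⟨t, x⟩ := a
  obtain ⟨t', y⟩ := b
  obtain rfl : t = t' := h
  have h2 : cls (⟨t, x⟩ : AbsPts P T) = cls (⟨t, y⟩ : AbsPts P T) :=
    (clsAt_self (⟨t, x⟩ : AbsPts P T) rfl).symm.trans h'
  exact congrArg (AbsPts.mk t) ((equivShrink _).symm.injective h2)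

lemma eq_ofClass_iff (a : AbsPts P T) {t : T ⟶ Spec (CommRingCat.of R)} (x : SubClasses P t) :
    a = ofClass t x ↔ ∃ h : a.base = t, a.clsAt h = x := by
  constructor
  · rintro rfl
    exact ⟨rfl, (clsAt_self (ofClass t x) rfl).trans (cls_ofClass t x)⟩
  · rintro ⟨h, h'⟩
    exact ext' h (h'.trans (cls_ofClass t x).symm)

lemma ofClass_injective (t : T ⟶ Spec (CommRingCat.of R)) :
    Function.Injective (ofClass (P := P) t) := by
  intro x y h
  obtain ⟨h1, h2⟩ := (eq_ofClass_iff _ _).1 h
  rw [clsAt_ofClass, subClassesMap_id' _ rfl] at h2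
  exact h2

/-- pullback of a point along a morphism of schemes -/
abbrev pull (f : T' ⟶ T) (a : AbsPts P T) : AbsPts P T' :=
  ofClass (f ≫ a.base) (subClassesMap ⟨f, rfl⟩ a.cls)

lemma base_pull (f : T' ⟶ T) (a : AbsPts P T) : (pull f a).base = f ≫ a.base := rfl

lemma cls_pull (f : T' ⟶ T) (a : AbsPts P T) :
    (pull f a).cls = subClassesMap ⟨f, rfl⟩ a.cls := cls_ofClass _ _

lemma clsAt_pull (f : T' ⟶ T) (a : AbsPts P T) {t' : T' ⟶ Spec (CommRingCat.of R)}
    (h : f ≫ a.base = t') : (pull f a).clsAt h = subClassesMap ⟨f, h⟩ a.cls := by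
  rw [clsAt, cls_pull]
  exact subClassesMap_comp' _ _ _ (Category.id_comp f).symm _

lemma subClassesMap_clsAt (a : AbsPts P T) {t : T ⟶ Spec (CommRingCat.of R)} (h : a.base = t)
    {t' : T' ⟶ Spec (CommRingCat.of R)} (ψ : SchemeHomOver t' t) :
    subClassesMap ψ (a.clsAt h) = subClassesMap ⟨ψ.1, by rw [h]; exact ψ.2⟩ a.cls := by
  rw [clsAt]
  exact subClassesMap_comp' _ _ _ (Category.comp_id ψ.1).symm _

lemma pull_ofClass (f : T' ⟶ T) (t : T ⟶ Spec (CommRingCat.of R)) (x : SubClasses P t) :
    pull f (ofClass t x) = ofClass (f ≫ t) (subClassesMap ⟨f, rfl⟩ x) := by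
  refine ext' rfl ?_
  rw [clsAt_self, cls_pull, cls_ofClass, cls_ofClass]

lemma pull_id (a : AbsPts P T) : pull (𝟙 T) a = a := by
  refine ext' (Category.id_comp _) ?_
  rw [clsAt_pull]
  exact subClassesMap_id' _ rfl _

lemma pull_comp (g : T'' ⟶ T') (f : T' ⟶ T) (a : AbsPts P T) :
    pull (g ≫ f) a = pull g (pull f a) := by
  refine ext' (Category.assoc _ _ _) ?_
  rw [clsAt_pull, cls_pull, cls_pull]
  exact (subClassesMap_comp' _ _ _ rfl _).symm

end AbsPts

/-- **The absolute Picard functor** cut out by `P`: `T ↦ Σ t : T ⟶ Spec R, (classes over t in P)`,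
with values in `Type u`. -/
def absFunctor : Scheme.{u}ᵒᵖ ⥤ Type u where
  obj T := AbsPts P T.unop
  map f := TypeCat.ofHom (AbsPts.pull f.unop)
  map_id T := by
    ext a
    exact AbsPts.pull_id a
  map_comp f g := by
    ext a
    exact AbsPts.pull_comp g.unop f.unop a

@[simp] lemma absFunctor_map_apply {T T' : Scheme.{u}} (f : T' ⟶ T) (a : AbsPts P T) :
    (absFunctor P).map f.op a = AbsPts.pull f a := rfl

/-! ### Representability of the absolute functor gives representing data -/

section Rep

variable {P} {J : Scheme.{u}} (rep : (absFunctor P).RepresentableBy J)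

/-- the bijection between morphisms to `J` and points of the absolute functor -/
def ptsHomEquiv {T : Scheme.{u}} : (T ⟶ J) ≃ AbsPts P T := rep.homEquiv

lemma ptsHomEquiv_comp {T T' : Scheme.{u}} (f : T' ⟶ T) (g : T ⟶ J) :
    ptsHomEquiv rep (f ≫ g) = AbsPts.pull f (ptsHomEquiv rep g) :=
  rep.homEquiv_comp f g

/-- the universal point -/
def univPt : AbsPts P J := ptsHomEquiv rep (𝟙 J)

/-- the structure morphism of a scheme representing the absolute functor -/
abbrev toBase : J ⟶ Spec (CommRingCat.of R) := (univPt rep).base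

lemma ptsHomEquiv_eq_pull {T : Scheme.{u}} (g : T ⟶ J) :
    ptsHomEquiv rep g = AbsPts.pull g (univPt rep) := by
  have h := ptsHomEquiv_comp rep g (𝟙 J)
  rw [Category.comp_id] at h
  exact h

lemma base_ptsHomEquiv {T : Scheme.{u}} (g : T ⟶ J) :
    (ptsHomEquiv rep g).base = g ≫ toBase rep := by
  rw [ptsHomEquiv_eq_pull]

/-- the class over `t` classified by a morphism over `Spec R` -/
def classOf {T : Scheme.{u}} (t : T ⟶ Spec (CommRingCat.of R))
    (g : SchemeHomOver t (toBase rep)) : SubClasses P t :=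
  (ptsHomEquiv rep g.1).clsAt ((base_ptsHomEquiv rep g.1).trans g.2)

lemma classOf_eq {T : Scheme.{u}} (t : T ⟶ Spec (CommRingCat.of R))
    (g : SchemeHomOver t (toBase rep)) :
    classOf rep t g = subClassesMap g (univPt rep).cls := by
  unfold classOf
  rw [AbsPts.clsAt_congr (ptsHomEquiv_eq_pull rep g.1) _ g.2, AbsPts.clsAt_pull]

lemma ptsHomEquiv_eq_ofClass {T : Scheme.{u}} (t : T ⟶ Spec (CommRingCat.of R))
    (g : SchemeHomOver t (toBase rep)) :
    ptsHomEquiv rep g.1 = AbsPts.ofClass t (classOf rep t g) :=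
  (AbsPts.eq_ofClass_iff _ _).2 ⟨_, rfl⟩

/-- the morphism over `Spec R` classifying a class -/
def ptOf {T : Scheme.{u}} (t : T ⟶ Spec (CommRingCat.of R)) (x : SubClasses P t) :
    SchemeHomOver t (toBase rep) :=
  ⟨(ptsHomEquiv rep).symm (AbsPts.ofClass t x), by
    rw [← base_ptsHomEquiv, Equiv.apply_symm_apply]⟩

/-- points of `J` over `t` are classes over `t` -/
def ptsEquiv {T : Scheme.{u}} (t : T ⟶ Spec (CommRingCat.of R)) :
    SchemeHomOver t (toBase rep) ≃ SubClasses P t where
  toFun := classOf rep t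
  invFun := ptOf rep t
  left_inv g := by
    apply Subtype.ext
    change (ptsHomEquiv rep).symm (AbsPts.ofClass t (classOf rep t g)) = g.1
    rw [← ptsHomEquiv_eq_ofClass, Equiv.symm_apply_apply]
  right_inv x := by
    have h := ptsHomEquiv_eq_ofClass rep t (ptOf rep t x)
    have h' : ptsHomEquiv rep (ptOf rep t x).1 = AbsPts.ofClass t x :=
      Equiv.apply_symm_apply _ _
    rw [h'] at h
    exact (AbsPts.ofClass_injective t h).symm

/-- **Representing data from a representation of the absolute functor.** -/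
def subPicRepOfRepresentableBy : SubPicRep P (toBase rep) where
  e t := ptsEquiv rep t
  e_comp {T T' t t'} ψ g := by
    change classOf rep t' (postComp g ψ) = subClassesMap ψ (classOf rep t g)
    rw [classOf_eq, classOf_eq]
    exact (subClassesMap_comp' _ _ _ rfl _).symm

/-- A scheme representing the absolute Picard functor cut out by `P` carries the Prelude's
designation and representing structure. -/
theorem exists_represents (rep : (absFunctor P).RepresentableBy J) :
    ∃ D : RelativePic0Designation R c, D.P = J ∧ HEq D.toBase (toBase rep) ∧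
      Nonempty (RepresentsRelSubPic c ε P D) :=
  (subPicRepOfRepresentableBy rep).exists_designation

end Rep

end

end Fermat.Agent.JAC.Final.AbsPic1
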