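/-
Programme JAC (S25), work package B8 (final assembly), brick "the absolute Picard functor is a
Zariski sheaf" (helper1).

Input: Zariski descent for classes of rigidified line bundles satisfying `P`, in `OpenCover` form
(`ZariskiSep`, `ZariskiGlue`; to be supplied by RigidDescent).  Output: `absFunctor P` is a sheaf
for the big Zariski topology (`absSheaf`), which is the shape consumed by
`Repr/AllSchemes10.Atlas.repOfIso`.
-/
import Fermat.Agent.JAC.Final.AbsPic1

set_option autoImplicit false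

universe u

open CategoryTheory CategoryTheory.Limits AlgebraicGeometry AlgebraicGeometry.RelPicard
  NeronModelInfra GoodReductionJacobian Opposite

namespace Fermat.Agent.JAC.Final.AbsSheaf1

open Fermat.Agent.JAC.Final.Yoneda1 Fermat.Agent.JAC.Final.AbsPic1

noncomputable section

variable {R : Type u} [CommRing R] {C : Scheme.{u}} {c : C ⟶ Spec (CommRingCat.of R)}
  {ε : SchemeHomOver (𝟙 (Spec (CommRingCat.of R))) c}

section Cover

variable {T : Scheme.{u}} (t : T ⟶ Spec (CommRingCat.of R)) (𝒰 : Scheme.OpenCover.{u} T)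

/-- a member of an open cover of `T`, as a scheme over `Spec R` mapping to `T` -/
def coverPt (i : 𝒰.I₀) : SchemeHomOver (𝒰.f i ≫ t) t := ⟨𝒰.f i, rfl⟩

/-- the structure morphism of the overlap of two members of an open cover -/
def overlapBase (i j : 𝒰.I₀) : pullback (𝒰.f i) (𝒰.f j) ⟶ Spec (CommRingCat.of R) :=
  pullback.fst (𝒰.f i) (𝒰.f j) ≫ 𝒰.f i ≫ t

/-- the first projection of an overlap -/
def fstPt (i j : 𝒰.I₀) : SchemeHomOver (overlapBase t 𝒰 i j) (𝒰.f i ≫ t) :=
  ⟨pullback.fst (𝒰.f i) (𝒰.f j), rfl⟩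

/-- the second projection of an overlap -/
def sndPt (i j : 𝒰.I₀) : SchemeHomOver (overlapBase t 𝒰 i j) (𝒰.f j ≫ t) :=
  ⟨pullback.snd (𝒰.f i) (𝒰.f j), by
    rw [overlapBase, ← Category.assoc, ← pullback.condition, Category.assoc]⟩

end Cover

variable (P : SubPicCondition c ε)

/-- Classes satisfying `P` are determined Zariski locally on the base. -/
def ZariskiSep : Prop :=
  ∀ ⦃T : Scheme.{u}⦄ (t : T ⟶ Spec (CommRingCat.of R)) (𝒰 : Scheme.OpenCover.{u} T)
    (x y : SubClasses P t),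
    (∀ i, subClassesMap (coverPt t 𝒰 i) x = subClassesMap (coverPt t 𝒰 i) y) → x = y

/-- Classes satisfying `P` glue Zariski locally on the base. -/
def ZariskiGlue : Prop :=
  ∀ ⦃T : Scheme.{u}⦄ (t : T ⟶ Spec (CommRingCat.of R)) (𝒰 : Scheme.OpenCover.{u} T)
    (x : ∀ i, SubClasses P (𝒰.f i ≫ t)),
    (∀ i j, subClassesMap (fstPt t 𝒰 i j) (x i) = subClassesMap (sndPt t 𝒰 i j) (x j)) →
    ∃ y : SubClasses P t, ∀ i, subClassesMap (coverPt t 𝒰 i) y = x i

variable {P}

/-- The sheaf condition for points of the absolute functor, for one open cover. -/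
theorem existsUnique_amalgamation (hsep : ZariskiSep P) (hglue : ZariskiGlue P)
    {T : Scheme.{u}} (𝒰 : Scheme.OpenCover.{u} T) (a : ∀ i, AbsPts P (𝒰.X i))
    (ha : ∀ i j, AbsPts.pull (pullback.fst (𝒰.f i) (𝒰.f j)) (a i) =
      AbsPts.pull (pullback.snd (𝒰.f i) (𝒰.f j)) (a j)) :
    ∃! b : AbsPts P T, ∀ i, AbsPts.pull (𝒰.f i) b = a i := by
  have hbase : ∀ i j, pullback.fst (𝒰.f i) (𝒰.f j) ≫ (a i).base =
      pullback.snd (𝒰.f i) (𝒰.f j) ≫ (a j).base := fun i j => congrArg AbsPts.base (ha i j)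
  let t : T ⟶ Spec (CommRingCat.of R) := 𝒰.glueMorphisms (fun i => (a i).base) hbase
  have ht : ∀ i, 𝒰.f i ≫ t = (a i).base := fun i => 𝒰.ι_glueMorphisms _ _ i
  let x : ∀ i, SubClasses P (𝒰.f i ≫ t) := fun i => (a i).clsAt (ht i).symm
  have hx : ∀ i j, subClassesMap (fstPt t 𝒰 i j) (x i) = subClassesMap (sndPt t 𝒰 i j) (x j) := by
    intro i j
    rw [AbsPts.subClassesMap_clsAt, AbsPts.subClassesMap_clsAt]
    have h1 : pullback.fst (𝒰.f i) (𝒰.f j) ≫ (a i).base = overlapBase t 𝒰 i j := by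
      rw [overlapBase, ht i]
    have h2 : pullback.snd (𝒰.f i) (𝒰.f j) ≫ (a j).base = overlapBase t 𝒰 i j := by
      rw [← hbase, h1]
    have := AbsPts.clsAt_congr (ha i j) h1 h2
    rw [AbsPts.clsAt_pull, AbsPts.clsAt_pull] at this
    exact this
  obtain ⟨y, hy⟩ := hglue t 𝒰 x hx
  refine ⟨AbsPts.ofClass t y, fun i => ?_, fun b hb => ?_⟩
  · rw [AbsPts.pull_ofClass]
    symm
    rw [AbsPts.eq_ofClass_iff]
    exact ⟨(ht i).symm, (hy i).symm⟩
  · have hb1 : b.base = t := 𝒰.hom_ext _ _ (fun i => by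
      rw [ht i, ← congrArg AbsPts.base (hb i)])
    rw [AbsPts.eq_ofClass_iff]
    refine ⟨hb1, hsep t 𝒰 _ _ (fun i => ?_)⟩
    rw [hy i, AbsPts.subClassesMap_clsAt]
    have h3 : 𝒰.f i ≫ b.base = 𝒰.f i ≫ t := by rw [hb1]
    have := AbsPts.clsAt_congr (hb i) h3 (ht i).symm
    rw [AbsPts.clsAt_pull] at this
    exact this

/-- **The absolute Picard functor is a Zariski sheaf**, given Zariski descent for classes. -/
theorem isSheaf_absFunctor (hsep : ZariskiSep P) (hglue : ZariskiGlue P) :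
    Presheaf.IsSheaf Scheme.zariskiTopology.{u} (absFunctor P) := by
  rw [isSheaf_iff_isSheaf_of_type,
    Precoverage.isSheaf_toGrothendieck_iff_of_isStableUnderBaseChange_of_small.{u}]
  intro T (𝒰 : Scheme.Cover _ _)
  change Presieve.IsSheafFor _ (Presieve.ofArrows 𝒰.X 𝒰.f)
  rw [Presieve.isSheafFor_arrows_iff_pullbacks]
  intro a ha
  exact existsUnique_amalgamation hsep hglue 𝒰 a ha

/-- The absolute Picard functor as a Zariski sheaf. -/
def absSheaf (hsep : ZariskiSep P) (hglue : ZariskiGlue P) :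
    Sheaf Scheme.zariskiTopology.{u} (Type u) :=
  ⟨absFunctor P, isSheaf_absFunctor hsep hglue⟩

@[simp] lemma absSheaf_obj (hsep : ZariskiSep P) (hglue : ZariskiGlue P) :
    (absSheaf hsep hglue).obj = absFunctor P := rfl

end

end Fermat.Agent.JAC.Final.AbsSheaf1
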