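/-
Programme JAC (S25), chapter Final (B8 core).  Owner: helper36.

From a scheme `J` over the base whose functor of points is naturally identified with the classes of
rigidified line bundles satisfying a sub-Picard condition `P`, we construct the Prelude structure
`RepresentsRelSubPic c ε P D` (Poincaré bundle, universal property, zero section).
-/
import Mathlib
import Fermat.Prelude.Def_AlgebraicGeometry_RelativePicardFunctor
import Fermat.Prelude.Def_AlgebraicGeometry_RepresentsRelSubPic

set_option autoImplicit false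

universe u

open CategoryTheory CategoryTheory.Limits AlgebraicGeometry AlgebraicGeometry.RelPicard
  NeronModelInfra GoodReductionJacobian

namespace Fermat.Agent.JAC.Final.Assemble36

variable {R : Type u} [CommRing R] {C : Scheme.{u}} (c : C ⟶ Spec (CommRingCat.of R))
  (ε : SchemeHomOver (𝟙 (Spec (CommRingCat.of R))) c) (P : SubPicCondition c ε)

/-- The classes of rigidified line bundles satisfying `P`. -/
def PClasses {T : Scheme.{u}} (t : T ⟶ Spec (CommRingCat.of R)) : Type (u + 1) :=
  {x : RigidifiedLineBundle.Classes c ε t //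
    ∃ M : RigidifiedLineBundle c ε t, (Quotient.mk _ M : RigidifiedLineBundle.Classes c ε t) = x ∧
      P.P t M}

variable {c ε P}

theorem mem_of_mk_eq {T : Scheme.{u}} {t : T ⟶ Spec (CommRingCat.of R)}
    (x : PClasses c ε P t) (M : RigidifiedLineBundle c ε t)
    (hM : (Quotient.mk _ M : RigidifiedLineBundle.Classes c ε t) = x.1) : P.P t M := by
  obtain ⟨M', hM', hP⟩ := x.2
  have h : Nonempty (M'.L ≅ M.L) := Quotient.exact (hM'.trans hM.symm)
  exact P.congr t M' M h hP

/-- The identity, as a morphism over the base. -/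
def idOver {J : Scheme.{u}} (toBase : J ⟶ Spec (CommRingCat.of R)) : SchemeHomOver toBase toBase :=
  ⟨𝟙 J, Category.id_comp _⟩

theorem postComp_idOver {J T : Scheme.{u}} {toBase : J ⟶ Spec (CommRingCat.of R)}
    {t : T ⟶ Spec (CommRingCat.of R)} (g : SchemeHomOver t toBase) :
    postComp (idOver toBase) g = g :=
  Subtype.ext (Category.comp_id _)

/-- **Assembly.** If the functor of points of `J` over the base is naturally identified with the
`P`-classes of rigidified line bundles, then `J` represents the sub-Picard functor cut out by `P`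
in the sense of the Prelude. -/
theorem exists_representsRelSubPic
    (J : Scheme.{u}) (toBase : J ⟶ Spec (CommRingCat.of R))
    (θ : ∀ {T : Scheme.{u}} (t : T ⟶ Spec (CommRingCat.of R)),
      SchemeHomOver t toBase ≃ PClasses c ε P t)
    (hθ : ∀ {T T' : Scheme.{u}} (t : T ⟶ Spec (CommRingCat.of R))
      (t' : T' ⟶ Spec (CommRingCat.of R)) (ψ : SchemeHomOver t' t) (g : SchemeHomOver t toBase),
      (θ t' (postComp g ψ)).1 = RigidifiedLineBundle.classesMap ψ (θ t g).1) :
    ∃ (zeroSection : Spec (CommRingCat.of R) ⟶ J)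
      (hz : zeroSection ≫ toBase = 𝟙 (Spec (CommRingCat.of R))),
      Nonempty (RepresentsRelSubPic c ε P ⟨J, toBase, zeroSection, hz⟩) := by
  -- the Poincaré bundle
  obtain ⟨Pcr, hPcr, hPcrP⟩ := (θ toBase (idOver toBase)).2
  -- key formula: `θ g = [g^* Pcr]`
  have key : ∀ {T : Scheme.{u}} (t : T ⟶ Spec (CommRingCat.of R)) (g : SchemeHomOver t toBase),
      (θ t g).1 = Quotient.mk _ (Pcr.pullbackAlong g) := by
    intro T t g
    have h := hθ toBase t g (idOver toBase)
    rw [postComp_idOver] at h
    rw [h, ← hPcr]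
    rfl
  -- the zero section
  have hunit : ∃ M : RigidifiedLineBundle c ε (𝟙 (Spec (CommRingCat.of R))),
      (Quotient.mk _ M : RigidifiedLineBundle.Classes c ε _) =
        Quotient.mk _ (RigidifiedLineBundle.unit (c := c) (ε := ε) (𝟙 _)) ∧ P.P _ M :=
    ⟨_, rfl, P.unit_mem _⟩
  let xu : PClasses c ε P (𝟙 (Spec (CommRingCat.of R))) := ⟨_, hunit⟩
  let z : SchemeHomOver (𝟙 (Spec (CommRingCat.of R))) toBase := (θ (𝟙 _)).symm xu
  refine ⟨z.1, z.2, ⟨?_⟩⟩
  refine
    { poincare := Pcr
      poincare_mem := hPcrP
      univ := ?_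
      zero := ?_ }
  · intro T t M hM
    let x : PClasses c ε P t := ⟨Quotient.mk _ M, M, rfl, hM⟩
    refine ⟨(θ t).symm x, ?_, ?_⟩
    · have h := key t ((θ t).symm x)
      rw [Equiv.apply_symm_apply] at h
      exact Quotient.exact h.symm
    · intro g' hg'
      apply (θ t).injective
      rw [Equiv.apply_symm_apply]
      apply Subtype.ext
      rw [key t g']
      exact Quotient.sound hg'
  · have h := key (𝟙 _) z
    have h2 : (θ (𝟙 _) z).1 = xu.1 :=
      congrArg Subtype.val (Equiv.apply_symm_apply (θ (𝟙 _)) xu)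
    exact Quotient.exact (h.symm.trans h2)

end Fermat.Agent.JAC.Final.Assemble36
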