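/-
Programme JAC (S25), chapter Final (helper36): THE ALGEBRAIC ATLAS, CLOSED.

All bricks of `Hilb/ChartSpec24` are landed; this file plugs them into helper24's final assembly
`Hilb/AtlasFinal24.algAtlas_of`:

* `bricks H e : ChartAssembly24.Bricks k A0 A1 A01 t s H.hts e`;
* `algAtlas H e : AlgAtlas k A0 A1 A01 t s e` for CURVE data with `H : CurveHyp k A0 A1 A01 t s` over
  an algebraically closed field, with the twists `Cov67.lam H e`, the spreading chain
  `ChartSpread33.exists_away_chartW` and the covering statement `ChartCovers4.covers`.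
-/
import Mathlib
import Fermat.Agent.JAC.Hilb.AtlasFinal24
import Fermat.Agent.JAC.Hilb.ChartSpread33
import Fermat.Agent.JAC.Hilb.ChartCovers4
import Fermat.Agent.JAC.Hilb.H1Bricks23
import Fermat.Agent.JAC.Hilb.H0Bricks50
import Fermat.Agent.JAC.Hilb.BC4_80
import Fermat.Agent.JAC.Hilb.DivBricks46

set_option autoImplicit false

universe u

namespace Fermat.Agent.JAC.Final.AtlasClosed36

open Fermat.Agent.JAC.Core.AlgAtlas36 Fermat.Agent.JAC.Hilb.ChartDef24
  Fermat.Agent.JAC.Hilb.ChartSpec24 Fermat.Agent.JAC.Hilb.ChartAssembly24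
  Fermat.Agent.JAC.Hilb.AtlasFinal24

variable {k : Type u} [Field k] {A0 A1 A01 : Type u} [CommRing A0] [CommRing A1] [CommRing A01]
  [Algebra k A0] [Algebra k A1] [Algebra k A01] [Algebra A0 A01] [Algebra A1 A01]
  [IsScalarTower k A0 A01] [IsScalarTower k A1 A01] {t : A0} {s : A1}
  [IsLocalization.Away t A01] [IsLocalization.Away s A01]

/-- **All the bricks of the chart chapter**, for CURVE data satisfying `CurveHyp`. -/
theorem bricks (H : CurveHyp k A0 A1 A01 t s) (e : A01 →ₐ[k] k) :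
    Bricks k A0 A1 A01 t s H.hts e :=
  bricks_of H e (Fermat.Agent.JAC.Hilb.H1Bricks23.bc1 H) (Fermat.Agent.JAC.Hilb.H0Bricks50.bc2 k A0 A1 A01 t s)
    Fermat.Agent.JAC.Hilb.BC4_80.bc4 (Fermat.Agent.JAC.Hilb.H1Bricks23.fe1 H)
    (Fermat.Agent.JAC.Hilb.H0Bricks50.fe2 k A0 A1 A01 t s) (Fermat.Agent.JAC.Hilb.H1Bricks23.sp1 H)
    (Fermat.Agent.JAC.Hilb.H0Bricks50.sp2 k A0 A1 A01 t s H) (Fermat.Agent.JAC.Hilb.DivBricks46.k1 H)
    (Fermat.Agent.JAC.Hilb.DivBricks46.k2 H.hts)

/-- **The algebraic atlas** of the functor of rigid classes of degree zero of line diagrams, for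
CURVE data satisfying `CurveHyp` over an algebraically closed field. -/
noncomputable def algAtlas [IsAlgClosed k] (H : CurveHyp k A0 A1 A01 t s) (e : A01 →ₐ[k] k) :
    AlgAtlas k A0 A1 A01 t s e :=
  algAtlas_of H e (bricks H e)
    (fun β j φ B _ _ ξ p hW =>
      Fermat.Agent.JAC.Hilb.ChartSpread33.exists_away_chartW (Fermat.Agent.JAC.Hilb.Cov67.lam H e)
        β j φ (bricks H e).bc1 (bricks H e).bc2 (bricks H e).bc3 (bricks H e).bc4 (bricks H e).sp1
        (bricks H e).sp2 (bricks H e).sp3 (bricks H e).k4 B ξ p hW)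
    (Fermat.Agent.JAC.Hilb.ChartCovers4.covers H e (Fermat.Agent.JAC.Hilb.Cov67.lam H e)
      (bricks H e).bc1 (bricks H e).bc2 (bricks H e).fe1 (bricks H e).fe2 (bricks H e).sp1
      (bricks H e).sp2 (bricks H e).k0 (bricks H e).k1 (bricks H e).k2 (bricks H e).k4
      (bricks H e).g5 (bricks H e).g6 (bricks H e).g7
      (fun K _ _ ξ => Fermat.Agent.JAC.Hilb.Cov67.goodAt_twist H e K ξ))

end Fermat.Agent.JAC.Final.AtlasClosed36
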