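/-
Programme JAC (S25 / S27), chapter Final (helper27): THE S25 CHAIN WITH ITS INTERNAL OBJECTS
EXPOSED.

The theorems `s25_of_inputs`, `s25_of_relModel` (helper10), `s25_of_schemeDict` (helper33) and
`s25_of_schemeDict_twoCharts` (helper27) conclude the frozen existential statement of S25.  The
S27 track needs the same facts about the SPECIFIC representing scheme
`toBase (jacRep hdesc A)` (the Jacobian of the chain), with its group law
`Group10.grpObj (jacRep hdesc A) res_mul`.  This file states them without the existential: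

* `props_of_inputs`, `props_of_inputs'`, `props_of_relModel`, `props_of_schemeDict`,
  `props_of_schemeDict_twoCharts` : `LocallyOfFiniteType ∧ Smooth ∧ IsProper ∧
  GeometricallyConnected ∧ GeometricallyIntegral` for `toBase (jacRep hdesc A)`;
* `represents_of_props` : `RepresentsRelSubPic c ε (algEquivZeroCut c ε) (jacDesignation hdesc A)`.
-/
import Fermat.Agent.JAC.Final.AbelSchemeDict27

set_option autoImplicit false

universe u

open CategoryTheory Limits Opposite AlgebraicGeometry AlgebraicGeometry.RelPicard NeronModelInfra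
  GoodReductionJacobian MonoidalCategory CartesianMonoidalCategory MonObj

namespace Fermat.Agent.JAC.Final.JacData27

open Fermat.Agent.JAC.Repr.StdCover10 Fermat.Agent.JAC.Repr.AllSchemes10
  Fermat.Agent.JAC.Repr.Wiring10 Fermat.Agent.JAC.Repr.Restrict10
  Fermat.Agent.JAC.Repr.Jacobian10 Fermat.Agent.JAC.Repr.Lifting10
  Fermat.Agent.JAC.Repr.Group10 Fermat.Agent.JAC.Repr.GroupProd10
  Fermat.Agent.JAC.Repr.RelModel10 Fermat.Agent.JAC.Grp.OverAff6
  Fermat.Agent.JAC.AE0.DegZero35 Fermat.Agent.JAC.AE0.Transfer35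
  Fermat.Agent.JAC.Glue.SmallClasses23 Fermat.Agent.JAC.Final.S25Assembly10

section Inputs

variable (k : Type u) [Field k] [IsAlgClosed k] {C : Scheme.{u}}
  (c : C ⟶ Spec (CommRingCat.of k)) [IsProper c] [SmoothOfRelativeDimension 1 c] [IsIntegral C]
  (ε : SchemeHomOver (𝟙 (Spec (CommRingCat.of k))) c)

/-- The five properties of the structure morphism of the Jacobian of the chain. -/
def JacProps {J : Scheme.{u}} (π : J ⟶ Spec (CommRingCat.of k)) : Prop :=
  LocallyOfFiniteType π ∧ Smooth π ∧ IsProper π ∧ GeometricallyConnected π ∧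
    GeometricallyIntegral π

/-- **The properties of the Jacobian of the chain, from the inputs of `s25_of_inputs`.** -/
theorem props_of_inputs
    (d : FibreDegree c)
    (hdesc : CutDescent (degZeroCut d ε))
    (A : Atlas (affRestrict (G (degZeroCut d ε))))
    (hft : ∀ β, LocallyOfFiniteType (A.x β).str)
    [grp : ∀ b : AffIdx (Spec (CommRingCat.of k)), Group (CutClasses (degZeroCut d ε) b.2)]
    (res_mul : ∀ {b b' : AffIdx (Spec (CommRingCat.of k))} (ψ : SchemeHomOver b'.2 b.2)
      (x y : CutClasses (degZeroCut d ε) b.2), cutMap ψ (x * y) = cutMap ψ x * cutMap ψ y)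
    (hcomm : ∀ (b : AffIdx (Spec (CommRingCat.of k))) (x y : CutClasses (degZeroCut d ε) b.2),
      x * y = y * x)
    (hFS : CutFormallySmooth (degZeroCut d ε))
    (g : ℕ)
    (a : Over.mk c ⟶ Over.mk (toBase (jacRep hdesc A)))
    (hG :
      letI := grpObj (jacRep hdesc A) res_mul
      haveI := isCommMonObj (jacRep hdesc A) res_mul hcomm
      ∀ (K : Type u) [Field K] [IsAlgClosed K]
        (t : Spec (CommRingCat.of K) ⟶ Spec (CommRingCat.of k))
        (z : Over.mk t ⟶ Over.mk (toBase (jacRep hdesc A))),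
        ∃ y : Fin g → (Over.mk t ⟶ Over.mk c), ∏ i, y i ≫ a = z) :
    JacProps k (toBase (jacRep hdesc A)) := by
  let _ := grpObj (jacRep hdesc A) res_mul
  have := isCommMonObj (jacRep hdesc A) res_mul hcomm
  have hlft : LocallyOfFiniteType (toBase (jacRep hdesc A)) :=
    haveI : IsZariskiLocalAtSource @LocallyOfFiniteType.{u} :=
      HasRingHomProperty.instIsZariskiLocalAtSource
    toBase_of_charts hdesc A @LocallyOfFiniteType hft
  obtain ⟨hsm, hpr, hconn, hint⟩ :=
    Fermat.Agent.JAC.Prop.JacobianProps27.jacobian_properties c (toBase (jacRep hdesc A))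
      (hasInfinitesimalLifting_toBase (jacRep hdesc A) hFS) a g hG
  exact ⟨hlft, hsm, hpr, hconn, hint⟩

/-- The same with Jacobi inversion stated on classes. -/
theorem props_of_inputs'
    (d : FibreDegree c)
    (hdesc : CutDescent (degZeroCut d ε))
    (A : Atlas (affRestrict (G (degZeroCut d ε))))
    (hft : ∀ β, LocallyOfFiniteType (A.x β).str)
    [cgrp : ∀ b : AffIdx (Spec (CommRingCat.of k)), CommGroup (CutClasses (degZeroCut d ε) b.2)]
    (res_mul : ∀ {b b' : AffIdx (Spec (CommRingCat.of k))} (ψ : SchemeHomOver b'.2 b.2)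
      (x y : CutClasses (degZeroCut d ε) b.2), cutMap ψ (x * y) = cutMap ψ x * cutMap ψ y)
    (hFS : CutFormallySmooth (degZeroCut d ε))
    (g : ℕ)
    (a : Over.mk c ⟶ Over.mk (toBase (jacRep hdesc A)))
    (hG : ∀ (K : Type u) [Field K] [IsAlgClosed K]
      (t : Spec (CommRingCat.of K) ⟶ Spec (CommRingCat.of k))
      (ξ : CutClasses (degZeroCut d ε) t),
      ∃ y : Fin g → (Over.mk t ⟶ Over.mk c),
        @Finset.prod _ _ (cgrp ⟨CommRingCat.of K, t⟩).toCommMonoid Finset.univ
          (fun i => overHomEquiv (jacRep hdesc A) t (y i ≫ a)) = ξ) :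
    JacProps k (toBase (jacRep hdesc A)) :=
  props_of_inputs k c ε d hdesc A hft res_mul (fun _ x y => mul_comm x y) hFS g a
    (fun K _ _ t z => exists_prod_eq_of_classes (jacRep hdesc A) res_mul a g t (hG K t) z)

/-- **The properties of the Jacobian of the chain, from the inputs of `s25_of_relModel`.** -/
theorem props_of_relModel
    (d : FibreDegree c)
    (hdesc : CutDescent (degZeroCut d ε))
    (A : Atlas (affRestrict (G (degZeroCut d ε))))
    (hft : ∀ β, LocallyOfFiniteType (A.x β).str)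
    (M : RelModel.{u + 1} (degZeroCut d ε))
    (hlift : ∀ (B : Type u) [CommRing B] [Algebra k B] (I : Ideal B), I ^ 2 = ⊥ →
      Function.Surjective (M.map (Ideal.Quotient.mkₐ k I)))
    (g : ℕ)
    (a : Over.mk c ⟶ Over.mk (toBase (jacRep hdesc A)))
    (hG : ∀ (K : Type u) [Field K] [IsAlgClosed K]
      (t : Spec (CommRingCat.of K) ⟶ Spec (CommRingCat.of k))
      (ξ : CutClasses (degZeroCut d ε) t),
      ∃ y : Fin g → (Over.mk t ⟶ Over.mk c),
        @Finset.prod _ _ (M.commGroup ⟨CommRingCat.of K, t⟩).toCommMonoid Finset.univ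
          (fun i => overHomEquiv (jacRep hdesc A) t (y i ≫ a)) = ξ) :
    JacProps k (toBase (jacRep hdesc A)) :=
  letI : ∀ b : AffIdx (Spec (CommRingCat.of k)), CommGroup (CutClasses (degZeroCut d ε) b.2) :=
    fun b => M.commGroup b
  props_of_inputs' k c ε d hdesc A hft (fun ψ x y => M.res_mul ψ x y)
    (M.cutFormallySmooth hlift) g a hG

/-- The Jacobian of the chain represents the algebraic-equivalence-to-zero cut. -/
theorem represents_of_props
    (d : FibreDegree c)
    (hdesc : CutDescent (degZeroCut d ε))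
    (A : Atlas (affRestrict (G (degZeroCut d ε))))
    (h : JacProps k (toBase (jacRep hdesc A))) :
    Nonempty (RepresentsRelSubPic c ε (algEquivZeroCut c ε) (jacDesignation hdesc A)) := by
  have : LocallyOfFiniteType (jacDesignation hdesc A).toBase := h.1
  have : GeometricallyIntegral (jacDesignation hdesc A).toBase := h.2.2.2.2
  exact ⟨representsRelSubPic_algEquivZeroCut d (jacDesignation hdesc A) (jacRepresents hdesc A)⟩

end Inputs

section SchemeDict

open scoped TensorProduct
open Fermat.Agent.JAC.Core.Defs36 Fermat.Agent.JAC.Core.ConstFamily36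
  Fermat.Agent.JAC.Core.AlgAtlas36 Fermat.Agent.JAC.Core.Degree36
  Fermat.Agent.JAC.Final.SchemeDict36 Fermat.Agent.JAC.Final.RelModel33
  Fermat.Agent.JAC.Final.AbelWiring27 Fermat.Agent.JAC.Abel.TwoChartPullback27
  Fermat.Agent.JAC.Final.CutDescent30

variable {k : Type u} [Field k] [IsAlgClosed k] {C : Scheme.{u}}
  {c : C ⟶ Spec (CommRingCat.of k)} [IsProper c] [SmoothOfRelativeDimension 1 c] [IsIntegral C]
  {ε : SchemeHomOver (𝟙 (Spec (CommRingCat.of k))) c}
  {A0 A1 A01 : Type u} [CommRing A0] [CommRing A1] [CommRing A01]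
  [Algebra k A0] [Algebra k A1] [Algebra k A01] [Algebra A0 A01] [Algebra A1 A01]
  [IsScalarTower k A0 A01] [IsScalarTower k A1 A01] {t : A0} {s : A1}
  [IsLocalization.Away t A01] [IsLocalization.Away s A01]
  {e : A01 →ₐ[k] k} {d : FibreDegree c}

/-- **The properties of the Jacobian of the chain, from the inputs of `s25_of_schemeDict`.** -/
theorem props_of_schemeDict
    (S : SchemeDict A0 A1 A01 t s ε e d) (𝔸 : AlgAtlas k A0 A1 A01 t s e)
    (hdeg : DegAdditive k A0 A1 A01 t s)
    (g : ℕ)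
    (a : Over.mk c ⟶
      Over.mk (toBase (jacRep (cutDescent_degZeroCut (ε := ε) d) (SchemeDict36.atlas S 𝔸))))
    (hG : ∀ (K : Type u) [Field K] [IsAlgClosed K]
      (x : Spec (CommRingCat.of K) ⟶ Spec (CommRingCat.of k))
      (ξ : CutClasses (degZeroCut d ε) x),
      ∃ y : Fin g → (Over.mk x ⟶ Over.mk c),
        @Finset.prod _ _ ((relModel hdeg S).commGroup ⟨CommRingCat.of K, x⟩).toCommMonoid
          Finset.univ
          (fun i => overHomEquiv
            (jacRep (cutDescent_degZeroCut (ε := ε) d) (SchemeDict36.atlas S 𝔸)) x (y i ≫ a)) =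
              ξ) :
    JacProps k
      (toBase (jacRep (cutDescent_degZeroCut (ε := ε) d) (SchemeDict36.atlas S 𝔸))) :=
  props_of_relModel k c ε d (cutDescent_degZeroCut (ε := ε) d)
    (SchemeDict36.atlas S 𝔸) (fun j => locallyOfFiniteType_atlas_x_str S 𝔸 j)
    (relModel hdeg S) (fun B _ _ I hI => relModel_lift hdeg S B I hI) g a hG

/-- **The properties of the Jacobian of the chain, from the inputs of
`AbelSchemeDict27.s25_of_schemeDict_twoCharts`.** -/
theorem props_of_schemeDict_twoCharts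
    (S : SchemeDict A0 A1 A01 t s ε e d) (𝔸 : AlgAtlas k A0 A1 A01 t s e)
    (hdeg : DegAdditive k A0 A1 A01 t s)
    (ι0 : Spec (CommRingCat.of A0) ⟶ C) (ι1 : Spec (CommRingCat.of A1) ⟶ C)
    (ι01 : Spec (CommRingCat.of A01) ⟶ C)
    [IsOpenImmersion ι0] [IsOpenImmersion ι1] [IsOpenImmersion ι01]
    (hι0 : ι0 ≫ c = Spec.map (CommRingCat.ofHom (algebraMap k A0)))
    (hι1 : ι1 ≫ c = Spec.map (CommRingCat.ofHom (algebraMap k A1)))
    (h0 : Spec.map (CommRingCat.ofHom (algebraMap A0 A01)) ≫ ι0 = ι01)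
    (h1 : Spec.map (CommRingCat.ofHom (algebraMap A1 A01)) ≫ ι1 = ι01)
    (hsup : ι0.opensRange ⊔ ι1.opensRange = ⊤)
    (hinf : ι0.opensRange ⊓ ι1.opensRange = ι01.opensRange)
    (g : ℕ) (ξ0 : Cl k A0 A1 A01 t s A0) (ξ1 : Cl k A0 A1 A01 t s A1)
    (hr0 : IsRigidCl e A0 ξ0) (hd0 : IsDegZero A0 ξ0)
    (hr1 : IsRigidCl e A1 ξ1) (hd1 : IsDegZero A1 ξ1)
    (hagree : bc (IsScalarTower.toAlgHom k A0 A01) ξ0 = bc (IsScalarTower.toAlgHom k A1 A01) ξ1)
    (hsurj : ∀ (K : Type u) [Field K] [IsAlgClosed K] [Algebra k K]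
      (z : Cl k A0 A1 A01 t s K), IsRigidCl e K z → IsDegZero K z →
      ∃ f : Fin g → (A0 →ₐ[k] K) ⊕ (A1 →ₐ[k] K),
        z = ∏ i, Sum.elim (fun p => bc p ξ0) (fun p => bc p ξ1) (f i)) :
    JacProps k
      (toBase (jacRep (cutDescent_degZeroCut (ε := ε) d) (SchemeDict36.atlas S 𝔸))) := by
  have hpb : IsPullback
      (Spec.map (CommRingCat.ofHom (IsScalarTower.toAlgHom k A0 A01).toRingHom))
      (Spec.map (CommRingCat.ofHom (IsScalarTower.toAlgHom k A1 A01).toRingHom)) ι0 ι1 :=
    isPullback_of_opensRange_inf ι0 ι1 ι01 _ _ h0 h1 hinf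
  let M := relModel hdeg S
  let X0 : M.A A0 := ⟨ξ0, hr0, hd0⟩
  let X1 : M.A A1 := ⟨ξ1, hr1, hd1⟩
  obtain ⟨a, ha0, ha1⟩ := exists_abel
    (jacRep (cutDescent_degZeroCut (ε := ε) d) (SchemeDict36.atlas S 𝔸))
    (IsScalarTower.toAlgHom k A0 A01) (IsScalarTower.toAlgHom k A1 A01) ι0 ι1 hι0 hι1
    (mem_range_or_of_opensRange_sup ι0 ι1 hsup) hpb
    ((M.θ A0).symm X0) ((M.θ A1).symm X1) (by
      apply (M.θ A01).injective
      rw [M.θ_map, M.θ_map, Equiv.apply_symm_apply, Equiv.apply_symm_apply]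
      exact Subtype.ext hagree)
  refine props_of_schemeDict S 𝔸 hdeg g a
    (hG_of_model _ M ι0 ι1 hι0 hι1 a X0 X1 ha0 ha1 g ?_)
  intro K _ _ _ z
  obtain ⟨f, hf⟩ := hsurj K z.1 z.2.1 z.2.2
  refine ⟨f, Subtype.ext ?_⟩
  have hcoe : ∀ q : (A0 →ₐ[k] K) ⊕ (A1 →ₐ[k] K),
      (picZero hdeg e K).subtype
        (Sum.elim (fun p => M.map p X0) (fun p => M.map p X1) q) =
        Sum.elim (fun p => bc p ξ0) (fun p => bc p ξ1) q := by
    rintro (p | p) <;> rfl
  change z.1 = (picZero hdeg e K).subtype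
    (∏ i, Sum.elim (fun p => M.map p X0) (fun p => M.map p X1) (f i))
  rw [map_prod, hf]
  exact Finset.prod_congr rfl fun i _ => (hcoe (f i)).symm

end SchemeDict

end Fermat.Agent.JAC.Final.JacData27
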