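import Mathlib
import Fermat.Agent.JAC.Final.SchemeDict36
import Fermat.Agent.JAC.AE0.DegPackage35
import Fermat.Agent.JAC.Grp.ConstBc33
import Fermat.Agent.JAC.Bridge.DiagCB4
import Fermat.Agent.JAC.Bridge.DiagCBRigid4
import Fermat.Agent.JAC.Bridge.TwoChartUnit4

/-!
# Programme JAC, chapter Final: the term of `SchemeDict36.SchemeDict` from the bridge chapter

Setting of `Bridge/DiagCB4` (`k` a field; `k`-algebras `A0 A1 A01`; charts `ι_i : Spec A_i ⟶ C`
over `k` with `Spec (algebraMap A_i A01) ≫ ι_i = ι01`; `t s`), plus the base point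
`e : A01 →ₐ[k] k` of `ε` in the chart `ι01`.

Three bridge facts are taken as explicit hypotheses (each is a `Prop`-valued `def`, to be
discharged by one-liners from `Bridge/DiagCB37`, `Bridge/TwoChartGlue87`):

* `CartHyp`  : `diagCB` commutes with base change `B → B'` (a `LineDiag.CartHom`);
* `InjHyp`   : `clCB L = clCB L' → Nonempty (L ≅ L')`;
* `SurjHyp`  : every class of line diagrams over `B` is `clCB` of an invertible module on `C_B`;

and the algebra-side local constancy of the degree `DegPackage35.DegLocConst`.  Output: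

* `diagData hcart : DegPackage35.DiagData c A0 A1 A01 t s` (`diag := DiagCB4.diagCB`);
* `diagCl`, `diagCl_clsOf`;
* `schemeDict ε e he hcart hlc hinj hsurj :
    SchemeDict A0 A1 A01 t s ε e (DegPackage35.fibreDegree (diagData hcart) hlc)`,
  the input (I4) of `Final/Main36`.
-/

set_option autoImplicit false

universe u

open CategoryTheory CategoryTheory.Limits AlgebraicGeometry TensorProduct NeronModelInfra
open AlgebraicGeometry.RelPicard

namespace Fermat.Agent.JAC.Final.SchemeDictCB4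

open scoped Fermat.Agent.JAC.Core.ConstFamily36
open Fermat.Agent.JAC.Core.Defs36 Fermat.Agent.JAC.Core.Cart36 Fermat.Agent.JAC.Core.ConstFamily36
  Fermat.Agent.JAC.Core.AlgAtlas36 Fermat.Agent.JAC.Core.Degree36
  Fermat.Agent.JAC.Grp.Diag33 Fermat.Agent.JAC.Grp.Cart33 Fermat.Agent.JAC.Grp.ConstBc33
  Fermat.Agent.JAC.Bridge.ChartCover57 Fermat.Agent.JAC.Bridge Fermat.Agent.JAC.Bridge.DiagCB4
  Fermat.Agent.JAC.Bridge.DiagCBRigid4
  Fermat.Agent.JAC.AE0.DegZero35 Fermat.Agent.JAC.AE0.DegPackage35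
  Fermat.Agent.JAC.AE0.Transfer35
  Fermat.Agent.JAC.Repr.Wiring10 Fermat.Agent.JAC.Final.SchemeDict36

variable {k : Type u} [Field k] {C : Scheme.{u}} (c : C ⟶ Spec (CommRingCat.of k))
  {A0 A1 A01 : Type u} [CommRing A0] [CommRing A1] [CommRing A01]
  [Algebra k A0] [Algebra k A1] [Algebra k A01] [Algebra A0 A01] [Algebra A1 A01]
  [IsScalarTower k A0 A01] [IsScalarTower k A1 A01]
  (ι0 : Spec (CommRingCat.of A0) ⟶ C) (ι1 : Spec (CommRingCat.of A1) ⟶ C)
  (ι01 : Spec (CommRingCat.of A01) ⟶ C)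
  [IsOpenImmersion ι0] [IsOpenImmersion ι1] [IsOpenImmersion ι01]
  (hι0 : ι0 ≫ c = Spec.map (CommRingCat.ofHom (algebraMap k A0)))
  (hι1 : ι1 ≫ c = Spec.map (CommRingCat.ofHom (algebraMap k A1)))
  (hι01 : ι01 ≫ c = Spec.map (CommRingCat.ofHom (algebraMap k A01)))
  (h0 : Spec.map (CommRingCat.ofHom (algebraMap A0 A01)) ≫ ι0 = ι01)
  (h1 : Spec.map (CommRingCat.ofHom (algebraMap A1 A01)) ≫ ι1 = ι01)
  (t : A0) (s : A1) [IsLocalization.Away t A01] [IsLocalization.Away s A01]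

/-- The base change hypothesis (B3.2, concrete form): the line diagram of the pullback of `L`
along `C_{B'} ⟶ C_B` is a base change of the line diagram of `L`. -/
def CartHyp : Prop :=
  ∀ (B B' : Type u) [CommRing B] [Algebra k B] [CommRing B'] [Algebra k B']
    (φ : B →ₐ[k] B') (L : (pullback c (specBase (k := k) B)).Modules)
    (hL : Scheme.Modules.IsInvertible L),
    Nonempty (LineDiag.CartHom (familyHom φ t s)
      (diagCB c B ι0 ι1 ι01 hι0 hι1 hι01 h0 h1 t s L hL)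
      (diagCB c B' ι0 ι1 ι01 hι0 hι1 hι01 h0 h1 t s
        ((Scheme.Modules.pullback (baseChangeSnd c (specOver B φ))).obj L) (hL.pullback _)))

/-- The injectivity hypothesis (B3.3 (Inj), concrete form). -/
def InjHyp : Prop :=
  ∀ (B : Type u) [CommRing B] [Algebra k B] (L L' : (pullback c (specBase (k := k) B)).Modules)
    (hL : Scheme.Modules.IsInvertible L) (hL' : Scheme.Modules.IsInvertible L'),
    clCB c B ι0 ι1 ι01 hι0 hι1 hι01 h0 h1 t s L hL =
      clCB c B ι0 ι1 ι01 hι0 hι1 hι01 h0 h1 t s L' hL' → Nonempty (L ≅ L')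

/-- The surjectivity hypothesis (B3.3 (Surj), concrete form). -/
def SurjHyp : Prop :=
  ∀ (B : Type u) [CommRing B] [Algebra k B] (y : Cl k A0 A1 A01 t s B),
    ∃ (L : (pullback c (specBase (k := k) B)).Modules) (hL : Scheme.Modules.IsInvertible L),
      clCB c B ι0 ι1 ι01 hι0 hι1 hι01 h0 h1 t s L hL = y

variable {c ι0 ι1 ι01 hι0 hι1 hι01 h0 h1 t s}

/-- The dictionary `invertible sheaves on C_B ↦ line diagrams` of `DegPackage35`, realised by
`DiagCB4.diagCB`. -/
noncomputable def diagData (hcart : CartHyp c ι0 ι1 ι01 hι0 hι1 hι01 h0 h1 t s) :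
    DiagData c A0 A1 A01 t s where
  diag B _ _ L hL := diagCB c B ι0 ι1 ι01 hι0 hι1 hι01 h0 h1 t s L hL
  iso B _ _ _ _ e hL hL' := ⟨diagCBIso c B ι0 ι1 ι01 hι0 hι1 hι01 h0 h1 t s e hL hL'⟩
  unit B _ _ := ⟨TwoChartUnit4.diagUnitIso (R0 := CommRingCat.of (B ⊗[k] A0))
    (R1 := CommRingCat.of (B ⊗[k] A1)) (R01 := CommRingCat.of (B ⊗[k] A01)) _ _ _ _ _ _ _ _⟩
  cart B B' _ _ _ _ φ L hL := hcart B B' φ L hL

variable (ε : SchemeHomOver (𝟙 (Spec (CommRingCat.of k))) c) (e : A01 →ₐ[k] k)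
  (he : Spec.map (CommRingCat.ofHom e.toRingHom) ≫ ι01 = ε.1)

variable (c ι0 ι1 ι01 hι0 hι1 hι01 h0 h1 t s) in
/-- The class of the line diagram of a class of rigidified line bundles over `Spec B`. -/
noncomputable def diagCl (B : Type u) [CommRing B] [Algebra k B]
    (x : RigidifiedLineBundle.Classes c ε (specBase (k := k) B)) : Cl k A0 A1 A01 t s B :=
  Quotient.lift (fun M : RigidifiedLineBundle c ε (specBase (k := k) B) =>
      clCB c B ι0 ι1 ι01 hι0 hι1 hι01 h0 h1 t s M.L M.isInvertible)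
    (fun M M' (h : Nonempty (M.L ≅ M'.L)) =>
      clCB_eq_of_iso c B ι0 ι1 ι01 hι0 hι1 hι01 h0 h1 t s h.some
        M.isInvertible M'.isInvertible) x

theorem diagCl_clsOf (B : Type u) [CommRing B] [Algebra k B]
    (M : RigidifiedLineBundle c ε (specBase (k := k) B)) :
    diagCl c ι0 ι1 ι01 hι0 hι1 hι01 h0 h1 t s ε B (clsOf M) =
      clCB c B ι0 ι1 ι01 hι0 hι1 hι01 h0 h1 t s M.L M.isInvertible :=
  rfl

/-- **The scheme-level dictionary of B3.4**, from the bridge chapter. -/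
noncomputable def schemeDict (hcart : CartHyp c ι0 ι1 ι01 hι0 hι1 hι01 h0 h1 t s)
    (hlc : DegLocConst k A0 A1 A01 t s)
    (hinj : InjHyp c ι0 ι1 ι01 hι0 hι1 hι01 h0 h1 t s)
    (hsurj : SurjHyp c ι0 ι1 ι01 hι0 hι1 hι01 h0 h1 t s) :
    SchemeDict A0 A1 A01 t s ε e (fibreDegree (diagData hcart) hlc) where
  diagCl B _ _ := diagCl c ι0 ι1 ι01 hι0 hι1 hι01 h0 h1 t s ε B
  rigid B _ _ x := by
    obtain ⟨M, rfl⟩ := exists_clsOf_eq x
    exact isRigidCl_clCB_of_rigidified c B ι0 ι1 ι01 hι0 hι1 hι01 h0 h1 t s ε e he M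
  inj B _ _ x y hxy := by
    obtain ⟨M, rfl⟩ := exists_clsOf_eq x
    obtain ⟨M', rfl⟩ := exists_clsOf_eq y
    exact clsOf_eq_clsOf_iff.mpr (hinj B M.L M'.L M.isInvertible M'.isInvertible hxy)
  surj B _ _ y hy := by
    obtain ⟨L, hL, rfl⟩ := hsurj B y
    exact ⟨clsOf (rigidifiedOfIsRigidCl c B ι0 ι1 ι01 hι0 hι1 hι01 h0 h1 t s ε e he L hL hy), rfl⟩
  map B B' _ _ _ _ ψ x := by
    obtain ⟨M, rfl⟩ := exists_clsOf_eq x
    rw [classesMap_clsOf, diagCl_clsOf, diagCl_clsOf]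
    exact ((bc_cls_eq_iff ψ _ _).mpr (hcart B B' ψ M.L M.isInvertible)).symm
  degZero_iff B _ _ M := by
    rw [degZero_specBase_iff (diagData hcart) hlc B M.L M.isInvertible, diagCl_clsOf]
    unfold IsDegZero
    refine forall_congr' fun K => forall_congr' fun _ => forall_congr' fun _ =>
      forall_congr' fun _ => forall_congr' fun ψ => ?_
    rw [bc_eq_baseChangeClass]
    rfl

end Fermat.Agent.JAC.Final.SchemeDictCB4
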