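import Mathlib
import Fermat.Agent.JAC.Final.SchemeDictCB4
import Fermat.Agent.JAC.Bridge.TwoChartCart85

/-!
# Programme JAC, chapter Final: the base change hypothesis `CartHyp` of `SchemeDictCB4`

Instantiation of helper85's abstract `Bridge/TwoChartCart85.cartHom` for the charts
`ChartCover57.chartMap` of `C_B`, `C_{B'}` and `f := baseChangeSnd c (specOver B φ)`; the three
squares are `ChartCover57.chartMap_natB`.  The resulting `FamilyHom` is definitionally
`ConstFamily36.familyHom φ t s`.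

* `diagCBCartHom φ L hL : LineDiag.CartHom (familyHom φ t s) (diagCB c B … L hL)
    (diagCB c B' … ((pullback (baseChangeSnd c (specOver B φ))).obj L) _)`;
* `cartHyp : SchemeDictCB4.CartHyp c ι0 ι1 ι01 hι0 hι1 hι01 h0 h1 t s`.
-/

set_option autoImplicit false

universe u

open CategoryTheory CategoryTheory.Limits AlgebraicGeometry TensorProduct NeronModelInfra
open AlgebraicGeometry.RelPicard

namespace Fermat.Agent.JAC.Final.DiagCBCart4

open scoped Fermat.Agent.JAC.Core.ConstFamily36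
open Fermat.Agent.JAC.Core.Defs36 Fermat.Agent.JAC.Core.Cart36 Fermat.Agent.JAC.Core.ConstFamily36
  Fermat.Agent.JAC.Core.AlgAtlas36
  Fermat.Agent.JAC.Bridge.ChartCover57 Fermat.Agent.JAC.Bridge Fermat.Agent.JAC.Bridge.DiagCB4
  Fermat.Agent.JAC.Final.SchemeDictCB4

variable {k : Type u} [Field k] {C : Scheme.{u}} (c : C ⟶ Spec (CommRingCat.of k))
  {A0 A1 A01 : Type u} [CommRing A0] [CommRing A1] [CommRing A01]
  [Algebra k A0] [Algebra k A1] [Algebra k A01] [Algebra A0 A01] [Algebra A1 A01]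
  [IsScalarTower k A0 A01] [IsScalarTower k A1 A01]
  (ι0 : Spec (CommRingCat.of A0) ⟶ C) (ι1 : Spec (CommRingCat.of A1) ⟶ C)
  (ι01 : Spec (CommRingCat.of A01) ⟶ C)
  [IsOpenImmersion ι0] [IsOpenImmersion ι1] [IsOpenImmersion ι01]
  (hι0 : ι0 ≫ c = Spec.map (CommRingCat.ofHom (algebraMap k A0)))
  (hι1 : ι1 ≫ c = Spec.map (CommRingCat.ofHom (algebraMap k A1)))
  (hι01 : ι01 ≫ c = Spec.map (CommRingCat.ofHom (algebraMap k A01)))
  (h0 : Spec.map (CommRingCat.ofHom (algebraMap A0 A01)) ≫ ι0 = ι01)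
  (h1 : Spec.map (CommRingCat.ofHom (algebraMap A1 A01)) ≫ ι1 = ι01)
  (t : A0) (s : A1) [IsLocalization.Away t A01] [IsLocalization.Away s A01]

/-- **B3.2 (concrete form)**: the line diagram of the pullback of `L` along `C_{B'} ⟶ C_B` is a
base change of the line diagram of `L` along `ConstFamily36.familyHom φ t s`. -/
noncomputable def diagCBCartHom {B B' : Type u} [CommRing B] [Algebra k B] [CommRing B']
    [Algebra k B'] (φ : B →ₐ[k] B') (L : (pullback c (specBase (k := k) B)).Modules)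
    (hL : Scheme.Modules.IsInvertible L) :
    LineDiag.CartHom (familyHom φ t s)
      (diagCB c B ι0 ι1 ι01 hι0 hι1 hι01 h0 h1 t s L hL)
      (diagCB c B' ι0 ι1 ι01 hι0 hι1 hι01 h0 h1 t s
        ((Scheme.Modules.pullback (baseChangeSnd c (specOver B φ))).obj L) (hL.pullback _)) :=
  TwoChartCart85.cartHom (baseChangeSnd c (specOver B φ))
    (R0 := CommRingCat.of (B ⊗[k] A0)) (R1 := CommRingCat.of (B ⊗[k] A1))
    (R01 := CommRingCat.of (B ⊗[k] A01))
    (chartMap c B ι0 hι0) (chartMap c B ι1 hι1) (chartMap c B ι01 hι01)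
    (specMap_chartMap c B ι0 ι01 hι0 hι01 h0) (specMap_chartMap c B ι1 ι01 hι1 hι01 h1)
    ((1 : B) ⊗ₜ[k] t) ((1 : B) ⊗ₜ[k] s)
    (R0' := CommRingCat.of (B' ⊗[k] A0)) (R1' := CommRingCat.of (B' ⊗[k] A1))
    (R01' := CommRingCat.of (B' ⊗[k] A01))
    (chartMap c B' ι0 hι0) (chartMap c B' ι1 hι1) (chartMap c B' ι01 hι01)
    (specMap_chartMap c B' ι0 ι01 hι0 hι01 h0) (specMap_chartMap c B' ι1 ι01 hι1 hι01 h1)
    ((1 : B') ⊗ₜ[k] t) ((1 : B') ⊗ₜ[k] s)
    (CommRingCat.ofHom (Algebra.TensorProduct.map φ (AlgHom.id k A0)).toRingHom)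
    (CommRingCat.ofHom (Algebra.TensorProduct.map φ (AlgHom.id k A1)).toRingHom)
    (CommRingCat.ofHom (Algebra.TensorProduct.map φ (AlgHom.id k A01)).toRingHom)
    (chartMap_natB c B ι0 hι0 φ).symm (chartMap_natB c B ι1 hι1 φ).symm
    (chartMap_natB c B ι01 hι01 φ).symm (by simp) (by simp) L hL

theorem cartHyp : CartHyp c ι0 ι1 ι01 hι0 hι1 hι01 h0 h1 t s :=
  fun _ _ _ _ _ _ φ L hL => ⟨diagCBCartHom c ι0 ι1 ι01 hι0 hι1 hι01 h0 h1 t s φ L hL⟩

end Fermat.Agent.JAC.Final.DiagCBCart4
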