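import Mathlib
import Fermat.Agent.JAC.Final.SchemeDictCB4
import Fermat.Agent.JAC.Final.DiagCBCart4
import Fermat.Agent.JAC.Bridge.TwoChartGlue87

/-!
# Programme JAC, chapter Final: the scheme-level dictionary, closed form

Discharges the bridge hypotheses of `Final/SchemeDictCB4`:

* `DiagCBCart4.cartHyp` (B3.2, helper85's `TwoChartCart85` + `chartMap_natB`);
* `injHyp`, `surjHyp` (B3.3, helper87's `TwoChartGlue87` for `X := C_B`,
  `j_i := chartMap c B ι_i hι_i`), from the two facts about the charts of the curve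
  `hcovC : ι0.opensRange ⊔ ι1.opensRange = ⊤`, `hinfC : ι0.opensRange ⊓ ι1.opensRange = ι01.opensRange`
  (`B2/Adapter37.opensRange_sup`, `opensRange_inf`).

Output: `fibreDegreeCB … hlc : FibreDegree c` and
`schemeDictClosed … hcovC hinfC ε e he hlc : SchemeDict A0 A1 A01 t s ε e (fibreDegreeCB … hlc)`,
with `hlc : DegPackage35.DegLocConst k A0 A1 A01 t s` (`AE0/DegLocConst35.degLocConst`).
-/

set_option autoImplicit false
set_option linter.unusedSectionVars false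

universe u

open CategoryTheory CategoryTheory.Limits AlgebraicGeometry TensorProduct NeronModelInfra
open AlgebraicGeometry.RelPicard

namespace Fermat.Agent.JAC.Final.SchemeDictClosed4

open scoped Fermat.Agent.JAC.Core.ConstFamily36
open Fermat.Agent.JAC.Core.Defs36 Fermat.Agent.JAC.Core.Cart36 Fermat.Agent.JAC.Core.ConstFamily36
  Fermat.Agent.JAC.Core.AlgAtlas36
  Fermat.Agent.JAC.Bridge.ChartCover57 Fermat.Agent.JAC.Bridge Fermat.Agent.JAC.Bridge.DiagCB4
  Fermat.Agent.JAC.AE0.DegPackage35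
  Fermat.Agent.JAC.Final.SchemeDictCB4 Fermat.Agent.JAC.Final.DiagCBCart4
  Fermat.Agent.JAC.Final.SchemeDict36

variable {k : Type u} [Field k] {C : Scheme.{u}} (c : C ⟶ Spec (CommRingCat.of k))
  {A0 A1 A01 : Type u} [CommRing A0] [CommRing A1] [CommRing A01]
  [Algebra k A0] [Algebra k A1] [Algebra k A01] [Algebra A0 A01] [Algebra A1 A01]
  [IsScalarTower k A0 A01] [IsScalarTower k A1 A01]
  (ι0 : Spec (CommRingCat.of A0) ⟶ C) (ι1 : Spec (CommRingCat.of A1) ⟶ C)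
  (ι01 : Spec (CommRingCat.of A01) ⟶ C)
  [IsOpenImmersion ι0] [IsOpenImmersion ι1] [IsOpenImmersion ι01]
  (hι0 : ι0 ≫ c = Spec.map (CommRingCat.ofHom (algebraMap k A0)))
  (hι1 : ι1 ≫ c = Spec.map (CommRingCat.ofHom (algebraMap k A1)))
  (hι01 : ι01 ≫ c = Spec.map (CommRingCat.ofHom (algebraMap k A01)))
  (h0 : Spec.map (CommRingCat.ofHom (algebraMap A0 A01)) ≫ ι0 = ι01)
  (h1 : Spec.map (CommRingCat.ofHom (algebraMap A1 A01)) ≫ ι1 = ι01)
  (t : A0) (s : A1) [IsLocalization.Away t A01] [IsLocalization.Away s A01]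
  (hcovC : ι0.opensRange ⊔ ι1.opensRange = ⊤)
  (hinfC : ι0.opensRange ⊓ ι1.opensRange = ι01.opensRange)

include hinfC in
theorem opensRange_chartMap_inf_eq (B : Type u) [CommRing B] [Algebra k B] :
    (chartMap c B ι0 hι0).opensRange ⊓ (chartMap c B ι1 hι1).opensRange =
      (chartMap c B ι01 hι01).opensRange := by
  rw [opensRange_chartMap_inf, hinfC, opensRange_chartMap]

include hcovC hinfC in
/-- **B3.3 (Inj), concrete form.** -/
theorem injHyp : InjHyp c ι0 ι1 ι01 hι0 hι1 hι01 h0 h1 t s := by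
  intro B _ _ L L' hL hL' h
  exact TwoChartGlue87.nonempty_iso_of_diagClass_eq
    (R0 := CommRingCat.of (B ⊗[k] A0)) (R1 := CommRingCat.of (B ⊗[k] A1))
    (R01 := CommRingCat.of (B ⊗[k] A01))
    (chartMap c B ι0 hι0) (chartMap c B ι1 hι1) (chartMap c B ι01 hι01)
    (specMap_chartMap c B ι0 ι01 hι0 hι01 h0) (specMap_chartMap c B ι1 ι01 hι1 hι01 h1)
    ((1 : B) ⊗ₜ[k] t) ((1 : B) ⊗ₜ[k] s)
    (opensRange_chartMap_sup c B ι0 hι0 ι1 hι1 hcovC)
    (opensRange_chartMap_inf_eq c ι0 ι1 ι01 hι0 hι1 hι01 hinfC B) L L' hL hL' h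

include hcovC hinfC in
/-- **B3.3 (Surj), concrete form.** -/
theorem surjHyp : SurjHyp c ι0 ι1 ι01 hι0 hι1 hι01 h0 h1 t s := by
  intro B _ _ y
  exact TwoChartGlue87.exists_diagClass_eq
    (R0 := CommRingCat.of (B ⊗[k] A0)) (R1 := CommRingCat.of (B ⊗[k] A1))
    (R01 := CommRingCat.of (B ⊗[k] A01))
    (chartMap c B ι0 hι0) (chartMap c B ι1 hι1) (chartMap c B ι01 hι01)
    (specMap_chartMap c B ι0 ι01 hι0 hι01 h0) (specMap_chartMap c B ι1 ι01 hι1 hι01 h1)
    ((1 : B) ⊗ₜ[k] t) ((1 : B) ⊗ₜ[k] s)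
    (opensRange_chartMap_sup c B ι0 hι0 ι1 hι1 hcovC)
    (opensRange_chartMap_inf_eq c ι0 ι1 ι01 hι0 hι1 hι01 hinfC B) y

variable (ε : SchemeHomOver (𝟙 (Spec (CommRingCat.of k))) c) (e : A01 →ₐ[k] k)
  (he : Spec.map (CommRingCat.ofHom e.toRingHom) ≫ ι01 = ε.1)

/-- The fibre degree of the curve, from the charts. -/
noncomputable def fibreDegreeCB (hlc : DegLocConst k A0 A1 A01 t s) :
    Fermat.Agent.JAC.AE0.DegZero35.FibreDegree c :=
  fibreDegree (diagData (cartHyp c ι0 ι1 ι01 hι0 hι1 hι01 h0 h1 t s)) hlc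

/-- **The scheme-level dictionary (input (I4) of `Final/Main36`), closed form**: only the local
constancy of the degree on the algebra side remains as a hypothesis. -/
noncomputable def schemeDictClosed (hlc : DegLocConst k A0 A1 A01 t s) :
    SchemeDict A0 A1 A01 t s ε e (fibreDegreeCB c ι0 ι1 ι01 hι0 hι1 hι01 h0 h1 t s hlc) :=
  schemeDict ε e he (cartHyp c ι0 ι1 ι01 hι0 hι1 hι01 h0 h1 t s) hlc
    (injHyp c ι0 ι1 ι01 hι0 hι1 hι01 h0 h1 t s hcovC hinfC)
    (surjHyp c ι0 ι1 ι01 hι0 hι1 hι01 h0 h1 t s hcovC hinfC)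

end Fermat.Agent.JAC.Final.SchemeDictClosed4
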