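/-
Programme JAC (S25 / S27), chapter Final (helper27): THE FINAL ASSEMBLY OF THE S25 CHAIN FROM AN
ABSTRACT CURVE BLOCK.

Every input of `AbelSchemeDict27.s25_of_schemeDict_twoCharts` /
`JacData27.props_of_schemeDict_twoCharts` except the algebraic atlas `𝔸` and Jacobi inversion
`hsurj` is produced here from

* `H : ChartDef24.CurveHyp k A0 A1 A01 t s` (the hypotheses on the CURVE block), and
* the three charts `ι0 ι1 ι01` of the curve `c : C ⟶ Spec k` with their compatibilities
  (literally the binders of `SchemeDictClosed4.schemeDictClosed`),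

WITHOUT reference to helper37's `TwoChartData`.  So the same two theorems `props_of_block`,
`s25_of_block` serve S25 (block of `D : TwoChartData c`, `CurveHyp36.curveHyp D`) and S27 (block of
the function field, `CurveBlock9`).
-/
import Fermat.Agent.JAC.Final.JacData27
import Fermat.Agent.JAC.Final.SchemeDictClosed4
import Fermat.Agent.JAC.AE0.DegLocConst35
import Fermat.Agent.JAC.Fibre.DegAdd38
import Fermat.Agent.JAC.Abel.AbelClass56
import Fermat.Agent.JAC.Abel.PointDict56
import Fermat.Agent.JAC.Hilb.ChartDef24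
import Fermat.Agent.JAC.Hilb.K0K3_87

set_option autoImplicit false
set_option linter.unusedSectionVars false
set_option linter.style.haveILetI false

universe u

open CategoryTheory CategoryTheory.Limits Opposite AlgebraicGeometry AlgebraicGeometry.RelPicard
  NeronModelInfra GoodReductionJacobian

namespace Fermat.Agent.JAC.Final.BlockAssembly27

open scoped TensorProduct Polynomial
open scoped Fermat.Agent.JAC.Core.ConstFamily36
open Fermat.Agent.JAC.Core.Defs36 Fermat.Agent.JAC.Core.ConstFamily36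
  Fermat.Agent.JAC.Core.AlgAtlas36 Fermat.Agent.JAC.Core.Degree36
  Fermat.Agent.JAC.Grp.Diag33
  Fermat.Agent.JAC.Repr.Wiring10 Fermat.Agent.JAC.Repr.Jacobian10
  Fermat.Agent.JAC.AE0.DegZero35 Fermat.Agent.JAC.AE0.DegPackage35
  Fermat.Agent.JAC.Final.SchemeDict36 Fermat.Agent.JAC.Final.RelModel33
  Fermat.Agent.JAC.Final.SchemeDictClosed4 Fermat.Agent.JAC.Final.CutDescent30
  Fermat.Agent.JAC.Final.JacData27 Fermat.Agent.JAC.Final.S25Assembly10
  Fermat.Agent.JAC.Hilb.ChartDef24
  Fermat.Agent.JAC.Abel.PointDiag56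

variable {k : Type u} [Field k]
  {A0 A1 A01 : Type u} [CommRing A0] [CommRing A1] [CommRing A01]
  [Algebra k A0] [Algebra k A1] [Algebra k A01] [Algebra A0 A01] [Algebra A1 A01]
  [IsScalarTower k A0 A01] [IsScalarTower k A1 A01] {t : A0} {s : A1}
  [IsLocalization.Away t A01] [IsLocalization.Away s A01]

/-! ### Algebra side: everything from `CurveHyp` -/

section Algebra

variable (H : CurveHyp k A0 A1 A01 t s)
include H

theorem nontrivial0 : Nontrivial A0 := by
  have h1 : IsDedekindDomain (k ⊗[k] A0) := H.dedekind0 k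
  have h2 : Nontrivial (k ⊗[k] A0) := inferInstance
  exact (Algebra.TensorProduct.lid k A0).injective.nontrivial

theorem nontrivial1 : Nontrivial A1 := by
  have h1 : IsDedekindDomain (k ⊗[k] A1) := H.dedekind1 k
  have h2 : Nontrivial (k ⊗[k] A1) := inferInstance
  exact (Algebra.TensorProduct.lid k A1).injective.nontrivial

theorem nontrivial01 : Nontrivial A01 := by
  have h1 : IsDedekindDomain (k ⊗[k] A01) := H.dedekind01 k
  have h2 : Nontrivial (k ⊗[k] A01) := inferInstance
  exact (Algebra.TensorProduct.lid k A01).injective.nontrivial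

theorem isDomain0 : IsDomain A0 := by
  have h1 : IsDedekindDomain (k ⊗[k] A0) := H.dedekind0 k
  exact (Algebra.TensorProduct.lid k A0).symm.toMulEquiv.isDomain (k ⊗[k] A0)

/-- `ChartHyp` for the chart `0`. -/
theorem chartHyp0 : ChartHyp k A0 where
  finiteType := H.finiteType0
  dedekind := H.dedekind0
  not_finite := by
    haveI := nontrivial0 H
    obtain ⟨n, b, hb⟩ := H.coords0
    exact Fermat.Agent.JAC.Hilb.K0K3_87.not_finite_of_coords t b hb

/-- `ChartHyp` for the chart `1`. -/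
theorem chartHyp1 : ChartHyp k A1 where
  finiteType := H.finiteType1
  dedekind := H.dedekind1
  not_finite := by
    haveI := nontrivial1 H
    obtain ⟨n, b, hb⟩ := H.coords1
    exact Fermat.Agent.JAC.Hilb.K0K3_87.not_finite_of_coords s b hb

theorem t_ne_zero : t ≠ 0 := by
  rintro rfl
  haveI := nontrivial01 H
  have h := H.hts
  rw [map_zero, zero_mul] at h
  exact zero_ne_one h

theorem injective_algebraMap0 : Function.Injective (algebraMap A0 A01) := by
  haveI := isDomain0 H
  exact IsLocalization.injective A01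
    (powers_le_nonZeroDivisors_of_noZeroDivisors (t_ne_zero H))

/-- `ChartHyp` for the overlap. -/
theorem chartHyp01 : ChartHyp k A01 where
  finiteType := by
    have h0 := H.finiteType0
    have h1 : Algebra.FiniteType A0 A01 := IsLocalization.finiteType_of_monoid_fg
      (Submonoid.powers t) A01
    exact Algebra.FiniteType.trans h0 h1
  dedekind := H.dedekind01
  not_finite := by
    intro hfin
    apply (chartHyp0 H).not_finite
    exact Module.Finite.of_injective (IsScalarTower.toAlgHom k A0 A01).toLinearMap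
      (injective_algebraMap0 H)

/-- Local constancy of the degree, from `CurveHyp`. -/
theorem degLocConst : DegLocConst k A0 A1 A01 t s := by
  obtain ⟨n0, a0, ha0⟩ := H.coords0
  obtain ⟨n1, a1, ha1⟩ := H.coords1
  exact Fermat.Agent.JAC.AE0.DegLocConst35.degLocConst H.hts a0 ha0 a1 ha1

/-- Additivity of the degree over every field `K / k`, from `CurveHyp`. -/
theorem degClass_mul (K : Type u) [Field K] [Algebra k K] (x y : Cl k A0 A1 A01 t s K) :
    degClass K (x * y) = degClass K x + degClass K y := by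
  haveI := H.dedekind0 K
  haveI := H.dedekind1 K
  haveI := H.dedekind01 K
  obtain ⟨n0, a0, ha0⟩ := H.coords0
  obtain ⟨n1, a1, ha1⟩ := H.coords1
  exact Fermat.Agent.JAC.Fibre.DegAdd38.degClass_mul_constExt t s K H.hts ha0 ha1 x y

/-- `hdeg` of the S25 chain, from `CurveHyp`. -/
theorem degAdditive : DegAdditive k A0 A1 A01 t s :=
  fun K _ _ _ x y => degClass_mul H K x y

/-- `deg O(-Γ_φ) = -1`, chart `0`. -/
theorem degClass_pointDiag0 (K : Type u) [Field K] [Algebra k K] (φ : A0 →ₐ[k] K) :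
    degClass K (cls (pointDiag0 t s (chartHyp0 H) H.hts φ)) = -1 := by
  haveI := H.dedekind0 K
  haveI := H.dedekind1 K
  haveI := H.dedekind01 K
  obtain ⟨n0, a0, ha0⟩ := H.coords0
  obtain ⟨n1, a1, ha1⟩ := H.coords1
  exact Fermat.Agent.JAC.Abel.PointDict56.degClass_pointDiag0 t s K (chartHyp0 H) H.hts ha0 ha1 φ

/-- `deg O(-Γ_φ) = -1`, chart `1`. -/
theorem degClass_pointDiag1 (K : Type u) [Field K] [Algebra k K] (φ : A1 →ₐ[k] K) :
    degClass K (cls (pointDiag1 t s (chartHyp1 H) H.hts φ)) = -1 := by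
  haveI := H.dedekind0 K
  haveI := H.dedekind1 K
  haveI := H.dedekind01 K
  obtain ⟨n0, a0, ha0⟩ := H.coords0
  obtain ⟨n1, a1, ha1⟩ := H.coords1
  exact Fermat.Agent.JAC.Abel.PointDict56.degClass_pointDiag1 t s K (chartHyp1 H) H.hts ha0 ha1 φ

variable (e : A01 →ₐ[k] k)

/-- The universal Abel class over the chart `0` of the block. -/
noncomputable def xi0 : Cl k A0 A1 A01 t s A0 :=
  Fermat.Agent.JAC.Abel.AbelClass56.xi0 t s (chartHyp0 H) H.hts e

/-- The universal Abel class over the chart `1` of the block. -/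
noncomputable def xi1 : Cl k A0 A1 A01 t s A1 :=
  Fermat.Agent.JAC.Abel.AbelClass56.xi1 t s (chartHyp1 H) H.hts e

theorem isRigidCl_xi0 : IsRigidCl e A0 (xi0 H e) :=
  Fermat.Agent.JAC.Abel.AbelClass56.isRigidCl_xi0 _ _ _ _ _

theorem isRigidCl_xi1 : IsRigidCl e A1 (xi1 H e) :=
  Fermat.Agent.JAC.Abel.AbelClass56.isRigidCl_xi1 _ _ _ _ _

theorem isDegZero_xi0 : IsDegZero A0 (xi0 H e) :=
  Fermat.Agent.JAC.Abel.AbelClass56.isDegZero_abelCl0 t s (chartHyp0 H) H.hts e
    (fun K _ _ _ x y => degClass_mul H K x y)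
    (fun K _ _ _ φ => degClass_pointDiag0 H K φ) _

theorem isDegZero_xi1 : IsDegZero A1 (xi1 H e) :=
  Fermat.Agent.JAC.Abel.AbelClass56.isDegZero_abelCl1 t s (chartHyp1 H) H.hts e
    (fun K _ _ _ x y => degClass_mul H K x y)
    (fun K _ _ _ φ => degClass_pointDiag1 H K φ) _

theorem bc_xi0_eq_bc_xi1 :
    bc (IsScalarTower.toAlgHom k A0 A01) (xi0 H e) =
      bc (IsScalarTower.toAlgHom k A1 A01) (xi1 H e) :=
  Fermat.Agent.JAC.Abel.AbelClass56.bc_xi0_eq_bc_xi1 _ _ _ _ _ _

end Algebra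

/-! ### Scheme side -/

section Scheme

variable [IsAlgClosed k] {C : Scheme.{u}} (c : C ⟶ Spec (CommRingCat.of k))
  [IsProper c] [SmoothOfRelativeDimension 1 c] [IsIntegral C]
  (ε : SchemeHomOver (𝟙 (Spec (CommRingCat.of k))) c)
  (H : CurveHyp k A0 A1 A01 t s)
  (ι0 : Spec (CommRingCat.of A0) ⟶ C) (ι1 : Spec (CommRingCat.of A1) ⟶ C)
  (ι01 : Spec (CommRingCat.of A01) ⟶ C)
  [IsOpenImmersion ι0] [IsOpenImmersion ι1] [IsOpenImmersion ι01]
  (hι0 : ι0 ≫ c = Spec.map (CommRingCat.ofHom (algebraMap k A0)))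
  (hι1 : ι1 ≫ c = Spec.map (CommRingCat.ofHom (algebraMap k A1)))
  (hι01 : ι01 ≫ c = Spec.map (CommRingCat.ofHom (algebraMap k A01)))
  (h0 : Spec.map (CommRingCat.ofHom (algebraMap A0 A01)) ≫ ι0 = ι01)
  (h1 : Spec.map (CommRingCat.ofHom (algebraMap A1 A01)) ≫ ι1 = ι01)
  (hsup : ι0.opensRange ⊔ ι1.opensRange = ⊤)
  (hinf : ι0.opensRange ⊓ ι1.opensRange = ι01.opensRange)
  (e : A01 →ₐ[k] k)
  (he : Spec.map (CommRingCat.ofHom e.toRingHom) ≫ ι01 = ε.1)

/-- The fibre degree of the curve, from the block. -/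
noncomputable def fibreDeg : FibreDegree c :=
  fibreDegreeCB c ι0 ι1 ι01 hι0 hι1 hι01 h0 h1 t s (degLocConst H)

/-- The scheme-level dictionary, from the block. -/
noncomputable def dict :
    SchemeDict A0 A1 A01 t s ε e (fibreDeg c H ι0 ι1 ι01 hι0 hι1 hι01 h0 h1) :=
  schemeDictClosed c ι0 ι1 ι01 hι0 hι1 hι01 h0 h1 t s hsup hinf ε e he (degLocConst H)

variable (𝔸 : AlgAtlas k A0 A1 A01 t s e) (g : ℕ)
  (hsurj : ∀ (K : Type u) [Field K] [IsAlgClosed K] [Algebra k K]
    (z : Cl k A0 A1 A01 t s K), IsRigidCl e K z → IsDegZero K z →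
    ∃ f : Fin g → (A0 →ₐ[k] K) ⊕ (A1 →ₐ[k] K),
      z = ∏ i, Sum.elim (fun p => bc p (xi0 H e)) (fun p => bc p (xi1 H e)) (f i))

include hsurj in
/-- **The properties of the Jacobian of the chain, from an abstract CURVE block.** -/
theorem props_of_block :
    JacProps k
      (toBase (jacRep
        (cutDescent_degZeroCut (ε := ε) (fibreDeg c H ι0 ι1 ι01 hι0 hι1 hι01 h0 h1))
        (SchemeDict36.atlas (dict c ε H ι0 ι1 ι01 hι0 hι1 hι01 h0 h1 hsup hinf e he) 𝔸))) :=
  props_of_schemeDict_twoCharts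
    (dict c ε H ι0 ι1 ι01 hι0 hι1 hι01 h0 h1 hsup hinf e he) 𝔸 (degAdditive H)
    ι0 ι1 ι01 hι0 hι1 h0 h1 hsup hinf g (xi0 H e) (xi1 H e)
    (isRigidCl_xi0 H e) (isDegZero_xi0 H e) (isRigidCl_xi1 H e) (isDegZero_xi1 H e)
    (bc_xi0_eq_bc_xi1 H e) hsurj

include ι0 ι1 ι01 hι0 hι1 hι01 h0 h1 hsup hinf he 𝔸 hsurj in
/-- **The frozen conclusion of S25, from an abstract CURVE block.** -/
theorem s25_of_block :
    ∃ D : RelativePic0Designation k c,
      Nonempty (RepresentsRelSubPic c ε (algEquivZeroCut c ε) D) ∧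
        Smooth D.toBase ∧ IsProper D.toBase ∧ GeometricallyConnected D.toBase :=
  Fermat.Agent.JAC.Final.AbelSchemeDict27.s25_of_schemeDict_twoCharts
    (dict c ε H ι0 ι1 ι01 hι0 hι1 hι01 h0 h1 hsup hinf e he) 𝔸 (degAdditive H)
    ι0 ι1 ι01 hι0 hι1 h0 h1 hsup hinf g (xi0 H e) (xi1 H e)
    (isRigidCl_xi0 H e) (isDegZero_xi0 H e) (isRigidCl_xi1 H e) (isDegZero_xi1 H e)
    (bc_xi0_eq_bc_xi1 H e) hsurj

end Scheme

end Fermat.Agent.JAC.Final.BlockAssembly27
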