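/-
Programme JAC (S25), chapter Final (helper36): THE CURVE HYPOTHESES OF THE CHART CHAPTER FOR THE
S25 CURVE.

`ChartDef24.CurveHyp k A0 A1 A01 t s` (helper24) bundles the hypotheses on the CURVE data used by
all bricks of the algebraic atlas.  For `D : TwoChartData c` (work package B2, helper37) of a smooth
proper integral curve `c : C ⟶ Spec k` over an algebraically closed field all of them are exports of
B2: `curveHyp D`.
-/
import Mathlib
import Fermat.Agent.JAC.Hilb.ChartDef24
import Fermat.Agent.JAC.B2.FibreSetting37

set_option autoImplicit false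

universe u

open CategoryTheory AlgebraicGeometry

namespace Fermat.Agent.JAC.Final.CurveHyp36

open Fermat.Agent.JAC.B2.Charts37 Fermat.Agent.JAC.B2.Domain37 Fermat.Agent.JAC.B2.Valuative37
  Fermat.Agent.JAC.B2.TwoChart37 Fermat.Agent.JAC.B2.Export37 Fermat.Agent.JAC.B2.CurveBlock37
  Fermat.Agent.JAC.B2.HGeom37 Fermat.Agent.JAC.B2.FibreSetting37
  Fermat.Agent.JAC.Hilb.ChartDef24

variable {k : Type u} [Field k] [IsAlgClosed k] {C : Scheme.{u}} {c : C ⟶ Spec (.of k)}
  [IsProper c] [SmoothOfRelativeDimension 1 c] [IsIntegral C] (D : TwoChartData c)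

attribute [local instance] algK₀ algK₁ algK₀₁ alg₀ alg₁

/-- **The CURVE hypotheses of the chart chapter hold for the two-chart data of the S25 curve.** -/
theorem curveHyp : CurveHyp k (A₀ D) (A₁ D) (A₀₁ D) D.t D.s := by
  have : LocallyOfFiniteType c := by
    have := SmoothOfRelativeDimension.smooth 1 c
    infer_instance
  exact
    { hts := hts D
      coords0 := exists_coords₀ D
      coords1 := exists_coords₁ D
      finiteType0 := inferInstance
      finiteType1 := inferInstance
      dedekind0 := fun K _ _ => isDedekindDomain_baseChange₀ D K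
      dedekind1 := fun K _ _ => isDedekindDomain_baseChange₁ D K
      dedekind01 := fun K _ _ => isDedekindDomain_baseChange₀₁ D K
      h0 := fun a0 a1 h => h0_eq D a0 a1 h }

end Fermat.Agent.JAC.Final.CurveHyp36
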