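/-
Programme JAC (S25), chapter Final (helper10): from the dictionary D8 in its natural form
(`Repr/RelModel10.RelModel`: a natural bijection between the classes in the cut over
`Spec B ⟶ Spec k` and a commutative group `M.A B`, for `k`-algebras `B`) together with an
embedding of the groups `M.A B` into the classes of line diagrams `Cl B` with image the rigid
classes of degree zero, to the dictionary `Final/AtlasAdapter36.Dict` for the restriction to rings
of the absolute Picard presheaf `Wiring10.G P`.  Hence: an `AlgAtlas` yields the atlas consumed by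
`Final/S25Assembly10`.
-/
import Fermat.Agent.JAC.Final.AtlasAdapter36
import Fermat.Agent.JAC.Repr.RelModel10
import Fermat.Agent.JAC.Repr.Restrict10
import Fermat.Agent.JAC.Final.S25Assembly10

set_option autoImplicit false

universe w u

open CategoryTheory Limits Opposite AlgebraicGeometry AlgebraicGeometry.RelPicard NeronModelInfra
  GoodReductionJacobian

namespace Fermat.Agent.JAC.Final.DictOfRelModel10

open scoped TensorProduct
open Fermat.Agent.JAC.Core.Defs36 Fermat.Agent.JAC.Core.AlgAtlas36
  Fermat.Agent.JAC.Final.AtlasAdapter36 Fermat.Agent.JAC.Repr.Wiring10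
  Fermat.Agent.JAC.Repr.Lifting10 Fermat.Agent.JAC.Repr.RelModel10
  Fermat.Agent.JAC.Repr.Restrict10 Fermat.Agent.JAC.Repr.AllSchemes10

variable {k : Type u} [Field k] {A0 A1 A01 : Type u} [CommRing A0] [CommRing A1] [CommRing A01]
  [Algebra k A0] [Algebra k A1] [Algebra k A01] [Algebra A0 A01] [Algebra A1 A01]
  [IsScalarTower k A0 A01] [IsScalarTower k A1 A01] {t : A0} {s : A1}
  [IsLocalization.Away t A01] [IsLocalization.Away s A01]
  {C : Scheme.{u}} {c : C ⟶ Spec (CommRingCat.of k)}
  {ε : SchemeHomOver (𝟙 (Spec (CommRingCat.of k))) c} {P : SubPicCondition c ε}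

variable (A0 A1 A01 t s) in
/-- An embedding of a model of the classes in the cut into the classes of line diagrams, with
image the rigid classes of degree zero. -/
structure ClEmbedding (e : A01 →ₐ[k] k) (M : RelModel.{w} P) where
  /-- the class of line diagrams of an element of the model -/
  toCl : ∀ (B : Type u) [CommRing B] [Algebra k B], M.A B → Cl k A0 A1 A01 t s B
  inj : ∀ (B : Type u) [CommRing B] [Algebra k B], Function.Injective (toCl B)
  rigid : ∀ (B : Type u) [CommRing B] [Algebra k B] (x : M.A B), IsRigidCl e B (toCl B x)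
  degZero : ∀ (B : Type u) [CommRing B] [Algebra k B] (x : M.A B), IsDegZero B (toCl B x)
  surj : ∀ (B : Type u) [CommRing B] [Algebra k B] (y : Cl k A0 A1 A01 t s B),
    IsRigidCl e B y → IsDegZero B y → ∃ x : M.A B, toCl B x = y
  map : ∀ (B B' : Type u) [CommRing B] [CommRing B'] [Algebra k B] [Algebra k B']
    (ψ : B →ₐ[k] B') (x : M.A B), toCl B' (M.map ψ x) = bc ψ (toCl B x)

variable [hs : ∀ {T : Scheme.{u}} (t : T ⟶ Spec (CommRingCat.of k)), Small.{u} (CutClasses P t)]

/-- The structure map of a point of the absolute Picard presheaf over an affine scheme. -/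
noncomputable def strOfPt {B : CommRingCat.{u}} (ξ : (affRestrict (G P)).obj B) : k →+* B :=
  (Spec.preimage (GObj.str (P := P) (T := Spec B) ξ)).hom

lemma specMap_strOfPt {B : CommRingCat.{u}} (ξ : (affRestrict (G P)).obj B) :
    Spec.map (CommRingCat.ofHom (strOfPt ξ)) = GObj.str (P := P) (T := Spec B) ξ :=
  Spec.map_preimage _

lemma strOfPt_map {B B' : CommRingCat.{u}} (φ : B ⟶ B') (ξ : (affRestrict (G P)).obj B) :
    strOfPt ((affRestrict (G P)).map φ ξ) = φ.hom.comp (strOfPt ξ) := by
  have h : Spec.preimage (GObj.str (P := P) (T := Spec B') ((affRestrict (G P)).map φ ξ)) =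
      Spec.preimage (GObj.str (P := P) (T := Spec B) ξ) ≫ φ := by
    apply Spec.map_injective
    rw [Spec.map_comp, Spec.map_preimage, Spec.map_preimage]
    rfl
  exact congrArg CommRingCat.Hom.hom h

section Rel

variable {B : Type u} [CommRing B] [Algebra k B]

lemma str_eq_specStr (ξ : (affRestrict (G P)).obj (CommRingCat.of B))
    (h : strOfPt ξ = algebraMap k B) :
    GObj.str (P := P) (T := Spec (CommRingCat.of B)) ξ = specStr (R := k) B := by
  rw [← specMap_strOfPt, h]

/-- The relative class of a point whose structure map is the standard one. -/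
noncomputable def rel (ξ : (affRestrict (G P)).obj (CommRingCat.of B))
    (h : strOfPt ξ = algebraMap k B) : CutClasses P (specStr (R := k) B) :=
  cutMap ⟨𝟙 _, by rw [Category.id_comp]; exact str_eq_specStr ξ h⟩
    (GObj.cls (P := P) (T := Spec (CommRingCat.of B)) ξ)

/-- The point with the standard structure map attached to a relative class. -/
noncomputable def pt (η : CutClasses P (specStr (R := k) B)) :
    (affRestrict (G P)).obj (CommRingCat.of B) :=
  GObj.of (specStr (R := k) B) η

lemma strOfPt_pt (η : CutClasses P (specStr (R := k) B)) :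
    strOfPt (pt η) = algebraMap k B := by
  have : Spec.preimage (specStr (R := k) B) = CommRingCat.ofHom (algebraMap k B) :=
    Spec.preimage_map _
  exact congrArg CommRingCat.Hom.hom this

lemma pt_rel (ξ : (affRestrict (G P)).obj (CommRingCat.of B))
    (h : strOfPt ξ = algebraMap k B) : pt (rel ξ h) = ξ := by
  have h1 := GObj.of_str_cls (P := P) (T := Spec (CommRingCat.of B)) ξ
  refine Eq.trans ?_ h1
  exact GObj.of_eq_of ⟨𝟙 _, by rw [Category.id_comp]; exact str_eq_specStr ξ h⟩ rfl rfl

lemma rel_pt (η : CutClasses P (specStr (R := k) B)) (h : strOfPt (pt η) = algebraMap k B) :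
    rel (pt η) h = η := by
  have h1 : pt (rel (pt η) h) = pt η := pt_rel (pt η) h
  have h2 := GObj.cutMap_eq_of_of_eq_of h1 ⟨𝟙 _, Category.id_comp _⟩ rfl
  rw [cutMap_id _ rfl] at h2
  exact h2.symm

lemma rel_injective {ξ ξ' : (affRestrict (G P)).obj (CommRingCat.of B)}
    (h : strOfPt ξ = algebraMap k B) (h' : strOfPt ξ' = algebraMap k B)
    (hr : rel ξ h = rel ξ' h') : ξ = ξ' := by
  rw [← pt_rel ξ h, ← pt_rel ξ' h', hr]

lemma rel_map {B' : Type u} [CommRing B'] [Algebra k B'] (ψ : B →ₐ[k] B')
    (η : CutClasses P (specStr (R := k) B)) :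
    (affRestrict (G P)).map (CommRingCat.ofHom ψ.toRingHom) (pt η) =
      pt (cutMap (specHom ψ) η) := by
  change GObj.map (Spec.map (CommRingCat.ofHom ψ.toRingHom)) (GObj.of _ η) = _
  rw [GObj.map_of]
  refine GObj.of_eq_of ⟨𝟙 _, by rw [Category.id_comp]; exact (specHom ψ).2.symm⟩ rfl ?_
  rw [cutMap_comp _ _ ⟨Spec.map (CommRingCat.ofHom ψ.toRingHom), rfl⟩
    (Category.id_comp _).symm]

end Rel

variable (M : RelModel.{w} P) {e : A01 →ₐ[k] k} (E : ClEmbedding A0 A1 A01 t s e M)

/-- **The dictionary for the absolute Picard presheaf**, from D8 in its natural form. -/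
noncomputable def dict : Dict A0 A1 A01 t s e (affRestrict (G P)) where
  str ξ := strOfPt ξ
  str_map φ ξ := strOfPt_map φ ξ
  toCl B _ _ ξ h := E.toCl B (M.θ B (rel ξ h))
  toCl_rigid B _ _ ξ h := E.rigid B _
  toCl_degZero B _ _ ξ h := E.degZero B _
  toCl_inj B _ _ ξ ξ' h h' hcl :=
    rel_injective h h' ((M.θ B).injective (E.inj B hcl))
  toCl_surj B _ _ x hr hd := by
    obtain ⟨a, rfl⟩ := E.surj B x hr hd
    refine ⟨pt ((M.θ B).symm a), strOfPt_pt _, ?_⟩
    rw [rel_pt, Equiv.apply_symm_apply]
  toCl_map B B' _ _ _ _ ψ ξ h h' := by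
    have h1 : (affRestrict (G P)).map (CommRingCat.ofHom ψ.toRingHom) ξ =
        pt (cutMap (specHom ψ) (rel ξ h)) := by
      conv_lhs => rw [← pt_rel ξ h]
      exact rel_map ψ _
    have h2 : rel ((affRestrict (G P)).map (CommRingCat.ofHom ψ.toRingHom) ξ) h' =
        cutMap (specHom ψ) (rel ξ h) := by
      have h3 : strOfPt (pt (cutMap (specHom ψ) (rel ξ h))) = algebraMap k B' := strOfPt_pt _
      have h4 : rel ((affRestrict (G P)).map (CommRingCat.ofHom ψ.toRingHom) ξ) h' =
          rel (pt (cutMap (specHom ψ) (rel ξ h))) h3 := by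
        congr 1
      rw [h4, rel_pt]
    rw [h2, M.θ_map, E.map]

/-- The atlas of the absolute Picard presheaf attached to an algebraic atlas. -/
noncomputable def atlas (𝔸 : AlgAtlas k A0 A1 A01 t s e) : Atlas (affRestrict (G P)) :=
  (dict M E).atlasOfAlgAtlas 𝔸

lemma atlas_x_str (𝔸 : AlgAtlas k A0 A1 A01 t s e) (γ : 𝔸.ι) :
    GObj.str (P := P) (T := Spec (CommRingCat.of (𝔸.R γ))) ((atlas M E 𝔸).x γ) =
      specStr (R := k) (𝔸.R γ) := by
  have h : strOfPt ((dict M E).xF 𝔸 γ) = algebraMap k (𝔸.R γ) := (dict M E).str_xF 𝔸 γ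
  exact str_eq_specStr _ h

/-- The charts of the atlas attached to an algebraic atlas are of finite type over `k`. -/
lemma locallyOfFiniteType_atlas_x_str (𝔸 : AlgAtlas k A0 A1 A01 t s e) (γ : 𝔸.ι) :
    LocallyOfFiniteType
      (GObj.str (P := P) (T := Spec (CommRingCat.of (𝔸.R γ))) ((atlas M E 𝔸).x γ)) := by
  rw [atlas_x_str, specStr, HasRingHomProperty.Spec_iff (P := @LocallyOfFiniteType)]
  have := 𝔸.finiteType γ
  exact RingHom.finiteType_algebraMap.2 this

section S25

open Fermat.Agent.JAC.AE0.DegZero35 Fermat.Agent.JAC.AE0.Transfer35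
  Fermat.Agent.JAC.Final.S25Assembly10 Fermat.Agent.JAC.Repr.Jacobian10
  Fermat.Agent.JAC.Repr.Group10

/-- **S25 from the dictionary D8, the algebraic atlas and the remaining inputs.** -/
theorem s25_of_d8 [IsAlgClosed k] [IsProper c] [SmoothOfRelativeDimension 1 c] [IsIntegral C]
    (d : FibreDegree c)
    (hdesc : CutDescent (degZeroCut d ε))
    (M : RelModel.{u + 1} (degZeroCut d ε)) {e : A01 →ₐ[k] k}
    (E : ClEmbedding A0 A1 A01 t s e M)
    (𝔸 : AlgAtlas k A0 A1 A01 t s e)
    (hlift : ∀ (B : Type u) [CommRing B] [Algebra k B] (I : Ideal B), I ^ 2 = ⊥ →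
      Function.Surjective (M.map (Ideal.Quotient.mkₐ k I)))
    (g : ℕ)
    (a : Over.mk c ⟶ Over.mk (toBase (jacRep hdesc (atlas M E 𝔸))))
    (hG : ∀ (K : Type u) [Field K] [IsAlgClosed K]
      (t' : Spec (CommRingCat.of K) ⟶ Spec (CommRingCat.of k))
      (ξ : CutClasses (degZeroCut d ε) t'),
      ∃ y : Fin g → (Over.mk t' ⟶ Over.mk c),
        @Finset.prod _ _ (M.commGroup ⟨CommRingCat.of K, t'⟩).toCommMonoid Finset.univ
          (fun i => overHomEquiv (jacRep hdesc (atlas M E 𝔸)) t' (y i ≫ a)) = ξ) :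
    ∃ D : RelativePic0Designation k c,
      Nonempty (RepresentsRelSubPic c ε (algEquivZeroCut c ε) D) ∧
        Smooth D.toBase ∧ IsProper D.toBase ∧ GeometricallyConnected D.toBase :=
  s25_of_relModel k c ε d hdesc (atlas M E 𝔸) (locallyOfFiniteType_atlas_x_str M E 𝔸) M hlift
    g a hG

end S25

end Fermat.Agent.JAC.Final.DictOfRelModel10
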