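/-
Programme JAC (S25), chapter Final (B8 core).  Owner: helper36.

The absolute sub-Picard functor `T ↦ Σ (t : T ⟶ Spec R), {P-classes over t}` (shrunk to `Type u`),
and: a scheme representing it yields `RepresentsRelSubPic` (via `Assemble36`).
-/
import Mathlib
import Fermat.Prelude.Def_AlgebraicGeometry_RelativePicardFunctor
import Fermat.Prelude.Def_AlgebraicGeometry_RepresentsRelSubPic
import Fermat.Agent.JAC.Final.Assemble36

set_option autoImplicit false

universe u

open CategoryTheory CategoryTheory.Limits AlgebraicGeometry AlgebraicGeometry.RelPicard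
  NeronModelInfra GoodReductionJacobian Opposite

namespace Fermat.Agent.JAC.Final.Functor36

open Fermat.Agent.JAC.Final.Assemble36

variable {R : Type u} [CommRing R] {C : Scheme.{u}} {c : C ⟶ Spec (CommRingCat.of R)}
  {ε : SchemeHomOver (𝟙 (Spec (CommRingCat.of R))) c} {P : SubPicCondition c ε}

section ClassesMap

theorem classesMap_id {T : Scheme.{u}} {t : T ⟶ Spec (CommRingCat.of R)}
    (h : 𝟙 T ≫ t = t) (x : RigidifiedLineBundle.Classes c ε t) :
    RigidifiedLineBundle.classesMap (⟨𝟙 T, h⟩ : SchemeHomOver t t) x = x := by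
  induction x using Quotient.ind with
  | _ M =>
    exact Quotient.sound
      ⟨(Scheme.Modules.pullbackCongr (baseChangeSnd_id c t)).app M.L ≪≫
        (Scheme.Modules.pullbackId (pullback c t)).app M.L⟩

theorem classesMap_comp {T T' T'' : Scheme.{u}} {t : T ⟶ Spec (CommRingCat.of R)}
    {t' : T' ⟶ Spec (CommRingCat.of R)} {t'' : T'' ⟶ Spec (CommRingCat.of R)}
    (φ : SchemeHomOver t' t) (χ : SchemeHomOver t'' t')
    (x : RigidifiedLineBundle.Classes c ε t) :
    RigidifiedLineBundle.classesMap (postComp φ χ) x =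
      RigidifiedLineBundle.classesMap χ (RigidifiedLineBundle.classesMap φ x) := by
  induction x using Quotient.ind with
  | _ M =>
    exact Quotient.sound
      ⟨(Scheme.Modules.pullbackCongr (baseChangeSnd_comp c φ χ).symm).app M.L ≪≫
        ((Scheme.Modules.pullbackComp _ _).app M.L).symm⟩

/-- Pullback of `P`-classes. -/
noncomputable def pclassesMap {T T' : Scheme.{u}} {t : T ⟶ Spec (CommRingCat.of R)}
    {t' : T' ⟶ Spec (CommRingCat.of R)} (ψ : SchemeHomOver t' t) :
    PClasses c ε P t → PClasses c ε P t' :=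
  fun x => ⟨RigidifiedLineBundle.classesMap ψ x.1, by
    obtain ⟨M, hM, hP⟩ := x.2
    exact ⟨M.pullbackAlong ψ, by rw [← hM]; rfl, P.pullback_mem _ _ ψ M hP⟩⟩

@[simp]
theorem pclassesMap_val {T T' : Scheme.{u}} {t : T ⟶ Spec (CommRingCat.of R)}
    {t' : T' ⟶ Spec (CommRingCat.of R)} (ψ : SchemeHomOver t' t) (x : PClasses c ε P t) :
    (pclassesMap ψ x).1 = RigidifiedLineBundle.classesMap ψ x.1 := rfl

theorem pclassesMap_id {T : Scheme.{u}} {t : T ⟶ Spec (CommRingCat.of R)}
    (h : 𝟙 T ≫ t = t) (x : PClasses c ε P t) :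
    pclassesMap (⟨𝟙 T, h⟩ : SchemeHomOver t t) x = x :=
  Subtype.ext (classesMap_id h x.1)

theorem pclassesMap_comp {T T' T'' : Scheme.{u}} {t : T ⟶ Spec (CommRingCat.of R)}
    {t' : T' ⟶ Spec (CommRingCat.of R)} {t'' : T'' ⟶ Spec (CommRingCat.of R)}
    (φ : SchemeHomOver t' t) (χ : SchemeHomOver t'' t') (x : PClasses c ε P t) :
    pclassesMap (postComp φ χ) x = pclassesMap χ (pclassesMap φ x) :=
  Subtype.ext (classesMap_comp φ χ x.1)

end ClassesMap

section Abs

variable (c ε P)
variable (hsmall : ∀ {T : Scheme.{u}} (t : T ⟶ Spec (CommRingCat.of R)),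
  Small.{u} (RigidifiedLineBundle.Classes c ε t))

include hsmall in
theorem small_pclasses {T : Scheme.{u}} (t : T ⟶ Spec (CommRingCat.of R)) :
    Small.{u} (PClasses c ε P t) :=
  haveI := hsmall t
  small_subtype _ _

/-- Shrunk `P`-classes. -/
def SClasses {T : Scheme.{u}} (t : T ⟶ Spec (CommRingCat.of R)) : Type u :=
  haveI := small_pclasses c ε P hsmall t
  Shrink.{u} (PClasses c ε P t)

/-- The equivalence between shrunk classes and classes. -/
noncomputable def sEquiv {T : Scheme.{u}} (t : T ⟶ Spec (CommRingCat.of R)) :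
    PClasses c ε P t ≃ SClasses c ε P hsmall t :=
  haveI := small_pclasses c ε P hsmall t
  equivShrink _

variable {c ε P}

/-- Pullback of shrunk classes. -/
noncomputable def sMap {T T' : Scheme.{u}} {t : T ⟶ Spec (CommRingCat.of R)}
    {t' : T' ⟶ Spec (CommRingCat.of R)} (ψ : SchemeHomOver t' t) :
    SClasses c ε P hsmall t → SClasses c ε P hsmall t' :=
  fun x => sEquiv c ε P hsmall t' (pclassesMap ψ ((sEquiv c ε P hsmall t).symm x))

theorem sMap_id {T : Scheme.{u}} {t : T ⟶ Spec (CommRingCat.of R)} (h : 𝟙 T ≫ t = t)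
    (x : SClasses c ε P hsmall t) : sMap hsmall (⟨𝟙 T, h⟩ : SchemeHomOver t t) x = x := by
  simp [sMap, pclassesMap_id]

theorem sMap_comp {T T' T'' : Scheme.{u}} {t : T ⟶ Spec (CommRingCat.of R)}
    {t' : T' ⟶ Spec (CommRingCat.of R)} {t'' : T'' ⟶ Spec (CommRingCat.of R)}
    (φ : SchemeHomOver t' t) (χ : SchemeHomOver t'' t') (x : SClasses c ε P hsmall t) :
    sMap hsmall (postComp φ χ) x = sMap hsmall χ (sMap hsmall φ x) := by
  simp [sMap, pclassesMap_comp]

variable (c ε P)

/-- The objects of the absolute sub-Picard functor. -/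
def AbsObj (T : Scheme.{u}) : Type u :=
  Σ t : T ⟶ Spec (CommRingCat.of R), SClasses c ε P hsmall t

variable {c ε P}

/-- The action of morphisms on the absolute sub-Picard functor. -/
noncomputable def absMap {T T' : Scheme.{u}} (f : T' ⟶ T) :
    AbsObj c ε P hsmall T → AbsObj c ε P hsmall T' :=
  fun x => ⟨f ≫ x.1, sMap hsmall (⟨f, rfl⟩ : SchemeHomOver (f ≫ x.1) x.1) x.2⟩

theorem absMap_eq {T T' : Scheme.{u}} (f : T' ⟶ T) (t : T ⟶ Spec (CommRingCat.of R))
    (t' : T' ⟶ Spec (CommRingCat.of R)) (h : f ≫ t = t') (x : SClasses c ε P hsmall t) :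
    absMap hsmall f ⟨t, x⟩ = ⟨t', sMap hsmall (⟨f, h⟩ : SchemeHomOver t' t) x⟩ := by
  subst h
  rfl

variable (c ε P)

/-- The absolute sub-Picard functor on all schemes. -/
noncomputable def absFunctor : Scheme.{u}ᵒᵖ ⥤ Type u where
  obj T := AbsObj c ε P hsmall T.unop
  map f := TypeCat.ofHom (absMap hsmall f.unop)
  map_id T := TypeCat.homEquiv.injective (funext fun x => by
    obtain ⟨t, x⟩ := x
    change absMap hsmall (𝟙 T.unop) ⟨t, x⟩ = ⟨t, x⟩
    rw [absMap_eq hsmall (𝟙 T.unop) t t (Category.id_comp t), sMap_id])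
  map_comp {T T' T''} f g := TypeCat.homEquiv.injective (funext fun x => by
    obtain ⟨t, x⟩ := x
    change absMap hsmall (g.unop ≫ f.unop) ⟨t, x⟩ =
      absMap hsmall g.unop (absMap hsmall f.unop ⟨t, x⟩)
    rw [absMap_eq hsmall f.unop t (f.unop ≫ t) rfl, absMap_eq hsmall g.unop (f.unop ≫ t)
      (g.unop ≫ f.unop ≫ t) rfl, absMap_eq hsmall (g.unop ≫ f.unop) t (g.unop ≫ f.unop ≫ t)
      (Category.assoc _ _ _)]
    congr 1
    exact sMap_comp hsmall (⟨f.unop, rfl⟩ : SchemeHomOver (f.unop ≫ t) t)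
      (⟨g.unop, rfl⟩ : SchemeHomOver (g.unop ≫ f.unop ≫ t) (f.unop ≫ t)) x)

variable {c ε P}

/-- **From representability to the Prelude structure.** A scheme representing the absolute
sub-Picard functor gives a `RelativePic0Designation` together with `RepresentsRelSubPic`. -/
theorem exists_representsRelSubPic_of_representableBy (J : Scheme.{u})
    (rep : (absFunctor c ε P hsmall).RepresentableBy J) :
    ∃ (toBase : J ⟶ Spec (CommRingCat.of R)) (zeroSection : Spec (CommRingCat.of R) ⟶ J)
      (hz : zeroSection ≫ toBase = 𝟙 (Spec (CommRingCat.of R))),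
      Nonempty (RepresentsRelSubPic c ε P ⟨J, toBase, zeroSection, hz⟩) := by
  -- the universal element
  let U : AbsObj c ε P hsmall J := rep.homEquiv (𝟙 J)
  have hU : ∀ {T : Scheme.{u}} (g : T ⟶ J), rep.homEquiv g = absMap hsmall g U := by
    intro T g
    have h := rep.homEquiv_comp g (𝟙 J)
    rw [Category.comp_id] at h
    exact h
  have hU' : ∀ {T : Scheme.{u}} (g : T ⟶ J) (t : T ⟶ Spec (CommRingCat.of R))
      (h : g ≫ U.1 = t),
      rep.homEquiv g = ⟨t, sMap hsmall (⟨g, h⟩ : SchemeHomOver t U.1) U.2⟩ := by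
    intro T g t h
    rw [hU g]
    exact absMap_eq hsmall g U.1 t h U.2
  -- the inverse map, with its two properties
  have key : ∀ {T : Scheme.{u}} (t : T ⟶ Spec (CommRingCat.of R)) (x : PClasses c ε P t),
      ∃ g : T ⟶ J, ∃ h : g ≫ U.1 = t,
        rep.homEquiv g = (⟨t, sEquiv c ε P hsmall t x⟩ : AbsObj c ε P hsmall T) ∧
        sMap hsmall (⟨g, h⟩ : SchemeHomOver t U.1) U.2 = sEquiv c ε P hsmall t x := by
    intro T t x
    let y : (absFunctor c ε P hsmall).obj (op T) :=
      (⟨t, sEquiv c ε P hsmall t x⟩ : AbsObj c ε P hsmall T)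
    have hy : rep.homEquiv (rep.homEquiv.symm y) = y := rep.homEquiv.apply_symm_apply y
    have h1 : y = absMap hsmall (rep.homEquiv.symm y) U := hy.symm.trans (hU _)
    have h0 : rep.homEquiv.symm y ≫ U.1 = t := (congrArg Sigma.fst h1).symm
    refine ⟨rep.homEquiv.symm y, h0, hy, ?_⟩
    have h2 := (hU' (rep.homEquiv.symm y) t h0).symm.trans hy
    exact eq_of_heq (Sigma.mk.inj h2).2
  -- the natural bijection
  let θ : ∀ {T : Scheme.{u}} (t : T ⟶ Spec (CommRingCat.of R)),
      SchemeHomOver t U.1 ≃ PClasses c ε P t := fun {T} t =>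
    { toFun := fun g => (sEquiv c ε P hsmall t).symm (sMap hsmall g U.2)
      invFun := fun x => ⟨(key t x).choose, (key t x).choose_spec.choose⟩
      left_inv := fun g => by
        apply Subtype.ext
        apply rep.homEquiv.injective
        rw [(key t _).choose_spec.choose_spec.1, hU' g.1 t g.2, Equiv.apply_symm_apply]
      right_inv := fun x => by
        change (sEquiv c ε P hsmall t).symm (sMap hsmall ⟨_, _⟩ U.2) = x
        rw [(key t x).choose_spec.choose_spec.2, Equiv.symm_apply_apply] }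
  have hθ : ∀ {T T' : Scheme.{u}} (t : T ⟶ Spec (CommRingCat.of R))
      (t' : T' ⟶ Spec (CommRingCat.of R)) (ψ : SchemeHomOver t' t) (g : SchemeHomOver t U.1),
      (θ t' (postComp g ψ)).1 = RigidifiedLineBundle.classesMap ψ (θ t g).1 := by
    intro T T' t t' ψ g
    change ((sEquiv c ε P hsmall t').symm (sMap hsmall (postComp g ψ) U.2)).1 =
      RigidifiedLineBundle.classesMap ψ ((sEquiv c ε P hsmall t).symm (sMap hsmall g U.2)).1
    rw [sMap_comp hsmall g ψ U.2]
    simp [sMap]
  obtain ⟨z, hz, h⟩ := exists_representsRelSubPic (c := c) (ε := ε) (P := P) J U.1 θ hθ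
  exact ⟨U.1, z, hz, h⟩

end Abs

end Fermat.Agent.JAC.Final.Functor36
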