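/-
Programme JAC (S25), chapter Final, work package B8 (assembly).  Owner: helper36.

THE FINAL ASSEMBLY OF S25, from its six inputs:
 (I1) a degree theory `d : FibreDegree c` on the geometric fibres (`AE0.DegZero35`);
 (I2) smallness of the classes in the degree-zero cut;
 (I3) Zariski descent `Wiring10.CutDescent (degZeroCut d ε)`;
 (I4) the scheme-level dictionary `SchemeDict36.SchemeDict`;
 (I5) the algebraic atlas `AlgAtlas36.AlgAtlas`;
 (I6) properness, geometric connectedness and geometric integrality of a smooth, locally finite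
      type scheme representing the degree-zero cut (work package B6).
-/
import Mathlib
import Fermat.Agent.JAC.Final.SchemeDict36

set_option autoImplicit false

universe u

open CategoryTheory CategoryTheory.Limits Opposite AlgebraicGeometry AlgebraicGeometry.RelPicard
  NeronModelInfra GoodReductionJacobian

namespace Fermat.Agent.JAC.Final.Main36

open scoped TensorProduct
open Fermat.Agent.JAC.Core.Defs36 Fermat.Agent.JAC.Core.AlgAtlas36
  Fermat.Agent.JAC.Repr.Wiring10 Fermat.Agent.JAC.Repr.Restrict10 Fermat.Agent.JAC.Repr.Jacobian10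
  Fermat.Agent.JAC.AE0.DegZero35 Fermat.Agent.JAC.AE0.Transfer35
  Fermat.Agent.JAC.Final.AtlasAdapter36 Fermat.Agent.JAC.Final.SchemeDict36

variable {k : Type u} [Field k] {C : Scheme.{u}} {c : C ⟶ Spec (CommRingCat.of k)}
  {A0 A1 A01 : Type u} [CommRing A0] [CommRing A1] [CommRing A01]
  [Algebra k A0] [Algebra k A1] [Algebra k A01] [Algebra A0 A01] [Algebra A1 A01]
  [IsScalarTower k A0 A01] [IsScalarTower k A1 A01] {t : A0} {s : A1}
  [IsLocalization.Away t A01] [IsLocalization.Away s A01]
  {ε : SchemeHomOver (𝟙 (Spec (CommRingCat.of k))) c} {e : A01 →ₐ[k] k} {d : FibreDegree c}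

/-- **Representability of the degree-zero cut** by a smooth scheme locally of finite type, from
the inputs (I1)-(I5). -/
theorem exists_representsRelSubPic_degZeroCut
    [hs : ∀ {T : Scheme.{u}} (t : T ⟶ Spec (CommRingCat.of k)),
      Small.{u} (CutClasses (degZeroCut d ε) t)]
    (hP : CutDescent (degZeroCut d ε)) (S : SchemeDict A0 A1 A01 t s ε e d)
    (𝔸 : AlgAtlas k A0 A1 A01 t s e) :
    ∃ D : RelativePic0Designation k c,
      Nonempty (RepresentsRelSubPic c ε (degZeroCut d ε) D) ∧ Smooth D.toBase ∧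
        LocallyOfFiniteType D.toBase :=
  ⟨jacDesignation hP (atlas S 𝔸), ⟨jacRepresents hP (atlas S 𝔸)⟩,
    toBase_of_charts hP (atlas S 𝔸) (@Smooth : MorphismProperty Scheme.{u}) (fun γ => smooth_atlas_x_str S 𝔸 γ),
    toBase_of_charts hP (atlas S 𝔸) (@LocallyOfFiniteType : MorphismProperty Scheme.{u})
      (fun γ => locallyOfFiniteType_atlas_x_str S 𝔸 γ)⟩

/-- **S25 from its inputs.** -/
theorem exists_representsRelSubPic_algEquivZeroCut
    [hs : ∀ {T : Scheme.{u}} (t : T ⟶ Spec (CommRingCat.of k)),
      Small.{u} (CutClasses (degZeroCut d ε) t)]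
    (hP : CutDescent (degZeroCut d ε)) (S : SchemeDict A0 A1 A01 t s ε e d)
    (𝔸 : AlgAtlas k A0 A1 A01 t s e)
    (hB6 : ∀ D : RelativePic0Designation k c, RepresentsRelSubPic c ε (degZeroCut d ε) D →
      Smooth D.toBase → LocallyOfFiniteType D.toBase →
        IsProper D.toBase ∧ GeometricallyConnected D.toBase ∧ GeometricallyIntegral D.toBase) :
    ∃ D : RelativePic0Designation k c,
      Nonempty (RepresentsRelSubPic c ε (algEquivZeroCut c ε) D) ∧
        Smooth D.toBase ∧ IsProper D.toBase ∧ GeometricallyConnected D.toBase := by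
  obtain ⟨D, ⟨hD⟩, hsm, hft⟩ := exists_representsRelSubPic_degZeroCut hP S 𝔸
  obtain ⟨hprop, hconn, hint⟩ := hB6 D hD hsm hft
  exact ⟨D, ⟨representsRelSubPic_algEquivZeroCut d D hD⟩, hsm, hprop, hconn⟩

end Fermat.Agent.JAC.Final.Main36
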