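import Mathlib
import Fermat.Agent.JAC.Final.SchemeDictClosed4
import Fermat.Agent.JAC.AE0.DegLocConst35
import Fermat.Agent.JAC.B2.Adapter37

/-!
# Programme JAC, chapter Final: `d` and `S` for the curve of S25

For pointed two-chart data `P : PointedTwoChartData c ε.1` of the curve (B2, helper37), under the
local instances of `B2/CurveBlock37`:

* `fibreDegreeCurve ε P : FibreDegree c` (input (1) of COORD #6);
* `schemeDictCurve ε P : SchemeDict (A₀ D) (A₁ D) (A₀₁ D) D.t D.s ε (e P ε.2) (fibreDegreeCurve ε P)`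
  (input (3)), `D := P.toTwoChartData`.

Only `[Field k]` is used.
-/

set_option autoImplicit false

universe u

open CategoryTheory CategoryTheory.Limits AlgebraicGeometry TensorProduct NeronModelInfra
open AlgebraicGeometry.RelPicard

namespace Fermat.Agent.JAC.Final.SchemeDictCurve4

open Fermat.Agent.JAC.B2.TwoChart37 Fermat.Agent.JAC.B2.CurveBlock37 Fermat.Agent.JAC.B2.Export37
  Fermat.Agent.JAC.B2.Adapter37
  Fermat.Agent.JAC.AE0.DegZero35 Fermat.Agent.JAC.AE0.DegLocConst35
  Fermat.Agent.JAC.Final.SchemeDict36 Fermat.Agent.JAC.Final.SchemeDictClosed4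

variable {k : Type u} [Field k] {C : Scheme.{u}} {c : C ⟶ Spec (CommRingCat.of k)}
  (ε : SchemeHomOver (𝟙 (Spec (CommRingCat.of k))) c) (P : PointedTwoChartData c ε.1)

attribute [local instance] algK₀ algK₁ algK₀₁ alg₀ alg₁

/-- **The fibre degree of the curve** (input (1) of the final assembly), from pointed two-chart
data. -/
noncomputable def fibreDegreeCurve : FibreDegree c :=
  fibreDegreeCB c (ι₀ P.toTwoChartData) (ι₁ P.toTwoChartData) (ι₀₁ P.toTwoChartData)
    (hι₀ P.toTwoChartData) (hι₁ P.toTwoChartData) (hι₀₁ P.toTwoChartData)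
    (specMap_algebraMap_ι₀ P.toTwoChartData) (specMap_algebraMap_ι₁ P.toTwoChartData)
    P.toTwoChartData.t P.toTwoChartData.s (degLocConst_twoChartData P.toTwoChartData)

/-- **The scheme-level dictionary of the curve** (input (3) of the final assembly). -/
noncomputable def schemeDictCurve :
    SchemeDict (A₀ P.toTwoChartData) (A₁ P.toTwoChartData) (A₀₁ P.toTwoChartData)
      P.toTwoChartData.t P.toTwoChartData.s ε (e P ε.2) (fibreDegreeCurve ε P) :=
  schemeDictClosed c (ι₀ P.toTwoChartData) (ι₁ P.toTwoChartData) (ι₀₁ P.toTwoChartData)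
    (hι₀ P.toTwoChartData) (hι₁ P.toTwoChartData) (hι₀₁ P.toTwoChartData)
    (specMap_algebraMap_ι₀ P.toTwoChartData) (specMap_algebraMap_ι₁ P.toTwoChartData)
    P.toTwoChartData.t P.toTwoChartData.s (opensRange_sup P.toTwoChartData)
    (opensRange_inf P.toTwoChartData) ε (e P ε.2) (specMap_e_ι₀₁' ε P)
    (degLocConst_twoChartData P.toTwoChartData)

end Fermat.Agent.JAC.Final.SchemeDictCurve4
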