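/-
Programme JAC (S25), chapter Final (helper36): THE FINAL WIRING FOR THE S25 CURVE.

For a smooth proper integral curve `c : C ⟶ Spec k` over an algebraically closed field with a
section `ε`, and pointed two-chart data `P : PointedTwoChartData c ε.1` (work package B2), all inputs
of `AbelSchemeDict27.s25_of_schemeDict_twoCharts` except the algebraic atlas and the Abel data are
discharged here:

* `d`, `S` := `SchemeDictCurve4.fibreDegreeCurve ε P`, `schemeDictCurve ε P`;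
* `hdeg` := `DegAdd37.hadd`;
* the two-chart scheme data := exports of `B2/Adapter37`.

`s25_of_algAtlas` takes the atlas as an `AlgAtlas`, `s25_of_localAtlas` as a
`AtlasLocal33.LocalAtlas` (the `H⁰` hypothesis is `CurveBlock37.h0_eq`).
-/
import Mathlib
import Fermat.Agent.JAC.Final.AbelSchemeDict27
import Fermat.Agent.JAC.Final.SchemeDictCurve4
import Fermat.Agent.JAC.B2.DegAdd37
import Fermat.Agent.JAC.Hilb.AtlasLocal33

set_option autoImplicit false

universe u

open CategoryTheory CategoryTheory.Limits AlgebraicGeometry AlgebraicGeometry.RelPicard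
  NeronModelInfra GoodReductionJacobian

namespace Fermat.Agent.JAC.Final.S25Skeleton36

open Fermat.Agent.JAC.B2.TwoChart37 Fermat.Agent.JAC.B2.CurveBlock37 Fermat.Agent.JAC.B2.Export37
  Fermat.Agent.JAC.B2.Adapter37
  Fermat.Agent.JAC.Core.AlgAtlas36 Fermat.Agent.JAC.Core.Degree36
  Fermat.Agent.JAC.Final.SchemeDictCurve4 Fermat.Agent.JAC.Final.AbelSchemeDict27
  Fermat.Agent.JAC.Hilb.AtlasLocal33

variable {k : Type u} [Field k] [IsAlgClosed k] {C : Scheme.{u}}
  {c : C ⟶ Spec (CommRingCat.of k)} [IsProper c] [SmoothOfRelativeDimension 1 c] [IsIntegral C]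
  (ε : SchemeHomOver (𝟙 (Spec (CommRingCat.of k))) c) (P : PointedTwoChartData c ε.1)

attribute [local instance] algK₀ algK₁ algK₀₁ alg₀ alg₁

/-- **S25 for the curve from the algebraic atlas and the Abel data.** -/
theorem s25_of_algAtlas
    (𝔸 : AlgAtlas k (A₀ P.toTwoChartData) (A₁ P.toTwoChartData) (A₀₁ P.toTwoChartData)
      P.toTwoChartData.t P.toTwoChartData.s (e P ε.2))
    (g : ℕ)
    (ξ0 : Cl k (A₀ P.toTwoChartData) (A₁ P.toTwoChartData) (A₀₁ P.toTwoChartData)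
      P.toTwoChartData.t P.toTwoChartData.s (A₀ P.toTwoChartData))
    (ξ1 : Cl k (A₀ P.toTwoChartData) (A₁ P.toTwoChartData) (A₀₁ P.toTwoChartData)
      P.toTwoChartData.t P.toTwoChartData.s (A₁ P.toTwoChartData))
    (hr0 : IsRigidCl (e P ε.2) (A₀ P.toTwoChartData) ξ0)
    (hd0 : IsDegZero (A₀ P.toTwoChartData) ξ0)
    (hr1 : IsRigidCl (e P ε.2) (A₁ P.toTwoChartData) ξ1)
    (hd1 : IsDegZero (A₁ P.toTwoChartData) ξ1)
    (hagree : bc (IsScalarTower.toAlgHom k (A₀ P.toTwoChartData) (A₀₁ P.toTwoChartData)) ξ0 =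
      bc (IsScalarTower.toAlgHom k (A₁ P.toTwoChartData) (A₀₁ P.toTwoChartData)) ξ1)
    (hsurj : ∀ (K : Type u) [Field K] [IsAlgClosed K] [Algebra k K]
      (z : Cl k (A₀ P.toTwoChartData) (A₁ P.toTwoChartData) (A₀₁ P.toTwoChartData)
        P.toTwoChartData.t P.toTwoChartData.s K),
      IsRigidCl (e P ε.2) K z → IsDegZero K z →
      ∃ f : Fin g → (A₀ P.toTwoChartData →ₐ[k] K) ⊕ (A₁ P.toTwoChartData →ₐ[k] K),
        z = ∏ i, Sum.elim (fun p => bc p ξ0) (fun p => bc p ξ1) (f i)) :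
    ∃ D : RelativePic0Designation k c,
      Nonempty (RepresentsRelSubPic c ε (algEquivZeroCut c ε) D) ∧
        Smooth D.toBase ∧ IsProper D.toBase ∧ GeometricallyConnected D.toBase :=
  s25_of_schemeDict_twoCharts (schemeDictCurve ε P) 𝔸
    (fun K _ _ _ x y => Fermat.Agent.JAC.B2.DegAdd37.hadd P.toTwoChartData K x y)
    (ι₀ P.toTwoChartData) (ι₁ P.toTwoChartData) (ι₀₁ P.toTwoChartData)
    (hι₀ P.toTwoChartData) (hι₁ P.toTwoChartData)
    (specMap_algebraMap_ι₀ P.toTwoChartData) (specMap_algebraMap_ι₁ P.toTwoChartData)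
    (opensRange_sup P.toTwoChartData) (opensRange_inf P.toTwoChartData)
    g ξ0 ξ1 hr0 hd0 hr1 hd1 hagree hsurj

/-- **S25 for the curve from a local atlas and the Abel data.** -/
theorem s25_of_localAtlas
    (𝔏 : LocalAtlas (A0 := A₀ P.toTwoChartData) (A1 := A₁ P.toTwoChartData)
      (t := P.toTwoChartData.t) (s := P.toTwoChartData.s) (e P ε.2))
    (g : ℕ)
    (ξ0 : Cl k (A₀ P.toTwoChartData) (A₁ P.toTwoChartData) (A₀₁ P.toTwoChartData)
      P.toTwoChartData.t P.toTwoChartData.s (A₀ P.toTwoChartData))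
    (ξ1 : Cl k (A₀ P.toTwoChartData) (A₁ P.toTwoChartData) (A₀₁ P.toTwoChartData)
      P.toTwoChartData.t P.toTwoChartData.s (A₁ P.toTwoChartData))
    (hr0 : IsRigidCl (e P ε.2) (A₀ P.toTwoChartData) ξ0)
    (hd0 : IsDegZero (A₀ P.toTwoChartData) ξ0)
    (hr1 : IsRigidCl (e P ε.2) (A₁ P.toTwoChartData) ξ1)
    (hd1 : IsDegZero (A₁ P.toTwoChartData) ξ1)
    (hagree : bc (IsScalarTower.toAlgHom k (A₀ P.toTwoChartData) (A₀₁ P.toTwoChartData)) ξ0 =
      bc (IsScalarTower.toAlgHom k (A₁ P.toTwoChartData) (A₀₁ P.toTwoChartData)) ξ1)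
    (hsurj : ∀ (K : Type u) [Field K] [IsAlgClosed K] [Algebra k K]
      (z : Cl k (A₀ P.toTwoChartData) (A₁ P.toTwoChartData) (A₀₁ P.toTwoChartData)
        P.toTwoChartData.t P.toTwoChartData.s K),
      IsRigidCl (e P ε.2) K z → IsDegZero K z →
      ∃ f : Fin g → (A₀ P.toTwoChartData →ₐ[k] K) ⊕ (A₁ P.toTwoChartData →ₐ[k] K),
        z = ∏ i, Sum.elim (fun p => bc p ξ0) (fun p => bc p ξ1) (f i)) :
    ∃ D : RelativePic0Designation k c,
      Nonempty (RepresentsRelSubPic c ε (algEquivZeroCut c ε) D) ∧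
        Smooth D.toBase ∧ IsProper D.toBase ∧ GeometricallyConnected D.toBase :=
  s25_of_algAtlas ε P (𝔏.toAlgAtlas (fun a0 a1 h => h0_eq P.toTwoChartData a0 a1 h))
    g ξ0 ξ1 hr0 hd0 hr1 hd1 hagree hsurj

end Fermat.Agent.JAC.Final.S25Skeleton36
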