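/-
Programme JAC (S25), chapter Final (helper57): THE ABEL DATA PLUGGED INTO THE FINAL WIRING.

`S25Skeleton36.s25_of_algAtlas` / `s25_of_localAtlas` with all Abel inputs discharged:
`g := SurjBlock57.genus D`, `ξ_j := AbelBlock56.xi_j D e`, rigidity, degree zero and agreement on the
overlap from `Abel/AbelBlock56`, Jacobi inversion `hsurj` from `Abel/SurjBlock57`.  The only input
left is the algebraic atlas.
-/
import Fermat.Agent.JAC.Final.S25Skeleton36
import Fermat.Agent.JAC.Abel.SurjBlock57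

set_option autoImplicit false

universe u

open CategoryTheory CategoryTheory.Limits AlgebraicGeometry AlgebraicGeometry.RelPicard
  NeronModelInfra GoodReductionJacobian

namespace Fermat.Agent.JAC.Final.S25Abel57

open Fermat.Agent.JAC.B2.TwoChart37 Fermat.Agent.JAC.B2.CurveBlock37 Fermat.Agent.JAC.B2.Export37
  Fermat.Agent.JAC.Core.AlgAtlas36
  Fermat.Agent.JAC.Hilb.AtlasLocal33 Fermat.Agent.JAC.Abel.AbelBlock56

variable {k : Type u} [Field k] [IsAlgClosed k] {C : Scheme.{u}}
  {c : C ⟶ Spec (CommRingCat.of k)} [IsProper c] [SmoothOfRelativeDimension 1 c] [IsIntegral C]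
  (ε : SchemeHomOver (𝟙 (Spec (CommRingCat.of k))) c) (P : PointedTwoChartData c ε.1)

attribute [local instance] algK₀ algK₁ algK₀₁ alg₀ alg₁

/-- **S25 for the curve from the algebraic atlas alone.** -/
theorem s25_of_algAtlas
    (𝔸 : AlgAtlas k (A₀ P.toTwoChartData) (A₁ P.toTwoChartData) (A₀₁ P.toTwoChartData)
      P.toTwoChartData.t P.toTwoChartData.s (e P ε.2)) :
    ∃ D : RelativePic0Designation k c,
      Nonempty (RepresentsRelSubPic c ε (algEquivZeroCut c ε) D) ∧
        Smooth D.toBase ∧ IsProper D.toBase ∧ GeometricallyConnected D.toBase :=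
  Fermat.Agent.JAC.Final.S25Skeleton36.s25_of_algAtlas ε P 𝔸
    (Fermat.Agent.JAC.Abel.SurjBlock57.genus P.toTwoChartData)
    (xi₀ P.toTwoChartData (e P ε.2)) (xi₁ P.toTwoChartData (e P ε.2))
    (isRigidCl_xi₀ P.toTwoChartData (e P ε.2)) (isDegZero_xi₀ P.toTwoChartData (e P ε.2))
    (isRigidCl_xi₁ P.toTwoChartData (e P ε.2)) (isDegZero_xi₁ P.toTwoChartData (e P ε.2))
    (bc_xi₀_eq_bc_xi₁ P.toTwoChartData (e P ε.2))
    (fun K _ _ _ z hr hz =>
      Fermat.Agent.JAC.Abel.SurjBlock57.hsurj P.toTwoChartData (e P ε.2) K z hr hz)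

/-- **S25 for the curve from a local atlas alone.** -/
theorem s25_of_localAtlas
    (𝔏 : LocalAtlas (A0 := A₀ P.toTwoChartData) (A1 := A₁ P.toTwoChartData)
      (t := P.toTwoChartData.t) (s := P.toTwoChartData.s) (e P ε.2)) :
    ∃ D : RelativePic0Designation k c,
      Nonempty (RepresentsRelSubPic c ε (algEquivZeroCut c ε) D) ∧
        Smooth D.toBase ∧ IsProper D.toBase ∧ GeometricallyConnected D.toBase :=
  s25_of_algAtlas ε P (𝔏.toAlgAtlas (fun a0 a1 h => h0_eq P.toTwoChartData a0 a1 h))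

end Fermat.Agent.JAC.Final.S25Abel57
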