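/-
Programme JAC (S25), chapter Final (helper56): DRY RUN OF THE FINAL WIRING.  The statement of S25
from ONE remaining hypothesis, the algebraic atlas `𝔸 : AlgAtlas` of the chart team, with every other
input of `AbelSchemeDict27.s25_of_schemeDict_twoCharts` plugged in from landed files:
* pointed two-chart data `P` (helper37 `Adapter37.nonempty_pointedTwoChartData_of_section`);
* `d`, `S` := `SchemeDictCurve4.fibreDegreeCurve`, `schemeDictCurve` (helper4);
* `hdeg` := `DegAddFibre38.degClass_mul_fibre` (helper38);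
* the charts `ι₀ ι₁ ι₀₁` and their compatibilities (helper37 `Adapter37`);
* the Abel data `g ξ0 ξ1 hr0 hd0 hr1 hd1 hagree hsurj` := `SurjBlock56.genus₀₁`, `AbelBlock56.xi₀/xi₁`,
  … , `SurjBlock56.hsurj₀₁` (helper56, on helper57's Jacobi inversion and helper67's genus).
-/
import Fermat.Agent.JAC.Final.AbelSchemeDict27
import Fermat.Agent.JAC.Final.SchemeDictCurve4
import Fermat.Agent.JAC.Abel.SurjBlock56

set_option autoImplicit false

universe u

open CategoryTheory CategoryTheory.Limits AlgebraicGeometry AlgebraicGeometry.RelPicard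
  NeronModelInfra GoodReductionJacobian

namespace Fermat.Agent.JAC.Final.S25Dry56

open Fermat.Agent.JAC.B2.TwoChart37 Fermat.Agent.JAC.B2.CurveBlock37 Fermat.Agent.JAC.B2.Export37
  Fermat.Agent.JAC.B2.Adapter37
  Fermat.Agent.JAC.Core.AlgAtlas36
  Fermat.Agent.JAC.Final.SchemeDictCurve4
  Fermat.Agent.JAC.Final.AbelSchemeDict27
  Fermat.Agent.JAC.Abel.AbelBlock56 Fermat.Agent.JAC.Abel.SurjBlock56

attribute [local instance] algK₀ algK₁ algK₀₁ alg₀ alg₁

/-- **S25 from the algebraic atlas**: the only input of the final assembly that is not yet on main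
is the atlas of the functor of rigid classes of degree zero over the two-chart data of the curve. -/
theorem s25_of_algAtlas
    (k : Type u) [Field k] [IsAlgClosed k] {C : Scheme.{u}} (c : C ⟶ Spec (CommRingCat.of k))
    [IsProper c] [SmoothOfRelativeDimension 1 c] [IsIntegral C]
    (ε : SchemeHomOver (𝟙 (Spec (CommRingCat.of k))) c)
    (hatlas : ∀ P : PointedTwoChartData c ε.1,
      Nonempty (AlgAtlas k (A₀ P.toTwoChartData) (A₁ P.toTwoChartData) (A₀₁ P.toTwoChartData)
        P.toTwoChartData.t P.toTwoChartData.s (e P ε.2))) :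
    ∃ D : RelativePic0Designation k c,
      Nonempty (RepresentsRelSubPic c ε (algEquivZeroCut c ε) D) ∧
        Smooth D.toBase ∧ IsProper D.toBase ∧ GeometricallyConnected D.toBase := by
  obtain ⟨P⟩ := nonempty_pointedTwoChartData_of_section ε
  obtain ⟨𝔸⟩ := hatlas P
  exact s25_of_schemeDict_twoCharts (schemeDictCurve ε P) 𝔸
    (fun K _ _ _ x y =>
      Fermat.Agent.JAC.Fibre.DegAddFibre38.degClass_mul_fibre P.toTwoChartData K x y)
    (ι₀ P.toTwoChartData) (ι₁ P.toTwoChartData) (ι₀₁ P.toTwoChartData)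
    (hι₀ P.toTwoChartData) (hι₁ P.toTwoChartData)
    (specMap_algebraMap_ι₀ P.toTwoChartData) (specMap_algebraMap_ι₁ P.toTwoChartData)
    (opensRange_sup P.toTwoChartData) (opensRange_inf P.toTwoChartData)
    (genus₀₁ P.toTwoChartData) (xi₀ P.toTwoChartData (e P ε.2)) (xi₁ P.toTwoChartData (e P ε.2))
    (isRigidCl_xi₀ _ _) (isDegZero_xi₀ _ _) (isRigidCl_xi₁ _ _) (isDegZero_xi₁ _ _)
    (bc_xi₀_eq_bc_xi₁ _ _)
    (fun K _ _ _ z hr hz => hsurj₀₁ P.toTwoChartData (e P ε.2) K z hr hz)

end Fermat.Agent.JAC.Final.S25Dry56
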