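/-
Programme JAC (S25), chapter Final (helper36): S25 FOR THE CURVE FROM THE ATLAS ALONE.

`S25Skeleton36.s25_of_localAtlas` with the Abel data discharged by helper56's blocks
(`Abel/AbelBlock56`: the universal Abel classes `xi₀`, `xi₁` on the two charts, rigid of degree zero,
agreeing on the overlap; `Abel/SurjBlock56`: Jacobi inversion `hsurj₀₁` with `g := genus₀₁ D`).
The only remaining input is the (local) atlas of the functor of rigid classes of degree zero.
-/
import Mathlib
import Fermat.Agent.JAC.Final.S25Skeleton36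
import Fermat.Agent.JAC.Abel.SurjBlock56

set_option autoImplicit false

universe u

open CategoryTheory CategoryTheory.Limits AlgebraicGeometry AlgebraicGeometry.RelPicard
  NeronModelInfra GoodReductionJacobian

namespace Fermat.Agent.JAC.Final.S25OfAtlas36

open Fermat.Agent.JAC.B2.TwoChart37 Fermat.Agent.JAC.B2.CurveBlock37 Fermat.Agent.JAC.B2.Export37
  Fermat.Agent.JAC.Core.AlgAtlas36
  Fermat.Agent.JAC.Abel.AbelBlock56 Fermat.Agent.JAC.Abel.SurjBlock56
  Fermat.Agent.JAC.Hilb.AtlasLocal33 Fermat.Agent.JAC.Final.S25Skeleton36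

variable {k : Type u} [Field k] [IsAlgClosed k] {C : Scheme.{u}}
  {c : C ⟶ Spec (CommRingCat.of k)} [IsProper c] [SmoothOfRelativeDimension 1 c] [IsIntegral C]
  (ε : SchemeHomOver (𝟙 (Spec (CommRingCat.of k))) c) (P : PointedTwoChartData c ε.1)

attribute [local instance] algK₀ algK₁ algK₀₁ alg₀ alg₁

/-- **S25 for the curve from an algebraic atlas** (Abel data discharged). -/
theorem s25_of_algAtlas'
    (𝔸 : AlgAtlas k (A₀ P.toTwoChartData) (A₁ P.toTwoChartData) (A₀₁ P.toTwoChartData)
      P.toTwoChartData.t P.toTwoChartData.s (e P ε.2)) :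
    ∃ D : RelativePic0Designation k c,
      Nonempty (RepresentsRelSubPic c ε (algEquivZeroCut c ε) D) ∧
        Smooth D.toBase ∧ IsProper D.toBase ∧ GeometricallyConnected D.toBase :=
  s25_of_algAtlas ε P 𝔸 (genus₀₁ P.toTwoChartData)
    (xi₀ P.toTwoChartData (e P ε.2)) (xi₁ P.toTwoChartData (e P ε.2))
    (isRigidCl_xi₀ P.toTwoChartData (e P ε.2)) (isDegZero_xi₀ P.toTwoChartData (e P ε.2))
    (isRigidCl_xi₁ P.toTwoChartData (e P ε.2)) (isDegZero_xi₁ P.toTwoChartData (e P ε.2))
    (bc_xi₀_eq_bc_xi₁ P.toTwoChartData (e P ε.2))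
    (fun K _ _ _ z hr hz => hsurj₀₁ P.toTwoChartData (e P ε.2) K z hr hz)

/-- **S25 for the curve from a local atlas** (Abel data discharged). -/
theorem s25_of_localAtlas'
    (𝔏 : LocalAtlas (A0 := A₀ P.toTwoChartData) (A1 := A₁ P.toTwoChartData)
      (t := P.toTwoChartData.t) (s := P.toTwoChartData.s) (e P ε.2)) :
    ∃ D : RelativePic0Designation k c,
      Nonempty (RepresentsRelSubPic c ε (algEquivZeroCut c ε) D) ∧
        Smooth D.toBase ∧ IsProper D.toBase ∧ GeometricallyConnected D.toBase :=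
  s25_of_algAtlas' ε P (𝔏.toAlgAtlas (fun a0 a1 h => h0_eq P.toTwoChartData a0 a1 h))

end Fermat.Agent.JAC.Final.S25OfAtlas36
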