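/-
Programme JAC (S25), chapter Final.  Owner: helper87.

The hypotheses `InjHyp` and `SurjHyp` of `Final/SchemeDictCB4` (helper4) hold as soon as the two
charts `ι0`, `ι1` cover the curve `C` and their intersection is the chart `ι01`:

* `injHyp hcov hinf : InjHyp c ι0 ι1 ι01 hι0 hι1 hι01 h0 h1 t s`
* `surjHyp hcov hinf : SurjHyp c ι0 ι1 ι01 hι0 hι1 hι01 h0 h1 t s`

(instantiation of `Bridge/TwoChartGlue87` for `X := C_B`, `j_i := chartMap c B ι_i hι_i`, with the
covering facts `ChartCover57.opensRange_chartMap_sup/inf`).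
-/
import Mathlib
import Fermat.Agent.JAC.Bridge.TwoChartGlue87
import Fermat.Agent.JAC.Final.SchemeDictCB4

set_option autoImplicit false

universe u

open CategoryTheory CategoryTheory.Limits AlgebraicGeometry TensorProduct NeronModelInfra
open AlgebraicGeometry.RelPicard

namespace Fermat.Agent.JAC.Final.SchemeDictGlue87

open scoped Fermat.Agent.JAC.Core.ConstFamily36
open Fermat.Agent.JAC.Core.Defs36 Fermat.Agent.JAC.Core.ConstFamily36
  Fermat.Agent.JAC.Core.AlgAtlas36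
  Fermat.Agent.JAC.Bridge.ChartCover57 Fermat.Agent.JAC.Bridge Fermat.Agent.JAC.Bridge.DiagCB4
  Fermat.Agent.JAC.Final.SchemeDictCB4

variable {k : Type u} [Field k] {C : Scheme.{u}} (c : C ⟶ Spec (CommRingCat.of k))
  {A0 A1 A01 : Type u} [CommRing A0] [CommRing A1] [CommRing A01]
  [Algebra k A0] [Algebra k A1] [Algebra k A01] [Algebra A0 A01] [Algebra A1 A01]
  [IsScalarTower k A0 A01] [IsScalarTower k A1 A01]
  (ι0 : Spec (CommRingCat.of A0) ⟶ C) (ι1 : Spec (CommRingCat.of A1) ⟶ C)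
  (ι01 : Spec (CommRingCat.of A01) ⟶ C)
  [IsOpenImmersion ι0] [IsOpenImmersion ι1] [IsOpenImmersion ι01]
  (hι0 : ι0 ≫ c = Spec.map (CommRingCat.ofHom (algebraMap k A0)))
  (hι1 : ι1 ≫ c = Spec.map (CommRingCat.ofHom (algebraMap k A1)))
  (hι01 : ι01 ≫ c = Spec.map (CommRingCat.ofHom (algebraMap k A01)))
  (h0 : Spec.map (CommRingCat.ofHom (algebraMap A0 A01)) ≫ ι0 = ι01)
  (h1 : Spec.map (CommRingCat.ofHom (algebraMap A1 A01)) ≫ ι1 = ι01)
  (t : A0) (s : A1) [IsLocalization.Away t A01] [IsLocalization.Away s A01]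
  (hcov : ι0.opensRange ⊔ ι1.opensRange = ⊤)
  (hinf : ι0.opensRange ⊓ ι1.opensRange = ι01.opensRange)

omit [Algebra A0 A01] [Algebra A1 A01] [IsScalarTower k A0 A01] [IsScalarTower k A1 A01] in
include hinf in
/-- The charts of `C_B` over two charts of `C` meet in the chart over their intersection. -/
theorem opensRange_chartMap_inf_eq (B : Type u) [CommRing B] [Algebra k B] :
    (chartMap c B ι0 hι0).opensRange ⊓ (chartMap c B ι1 hι1).opensRange =
      (chartMap c B ι01 hι01).opensRange := by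
  rw [opensRange_chartMap_inf, hinf, opensRange_chartMap]

include hcov hinf in
/-- **(Inj) for `C_B`**: the hypothesis `InjHyp` of `SchemeDictCB4` holds. -/
theorem injHyp : InjHyp c ι0 ι1 ι01 hι0 hι1 hι01 h0 h1 t s := by
  intro B _ _ L L' hL hL' h
  exact TwoChartGlue87.nonempty_iso_of_diagClass_eq
    (R0 := CommRingCat.of (B ⊗[k] A0)) (R1 := CommRingCat.of (B ⊗[k] A1))
    (R01 := CommRingCat.of (B ⊗[k] A01))
    (chartMap c B ι0 hι0) (chartMap c B ι1 hι1) (chartMap c B ι01 hι01)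
    (specMap_chartMap c B ι0 ι01 hι0 hι01 h0) (specMap_chartMap c B ι1 ι01 hι1 hι01 h1)
    ((1 : B) ⊗ₜ[k] t) ((1 : B) ⊗ₜ[k] s)
    (opensRange_chartMap_sup c B ι0 hι0 ι1 hι1 hcov)
    (opensRange_chartMap_inf_eq c ι0 ι1 ι01 hι0 hι1 hι01 hinf B) L L' hL hL' h

include hcov hinf in
/-- **(Surj) for `C_B`**: the hypothesis `SurjHyp` of `SchemeDictCB4` holds. -/
theorem surjHyp : SurjHyp c ι0 ι1 ι01 hι0 hι1 hι01 h0 h1 t s := by
  intro B _ _ y
  exact TwoChartGlue87.exists_diagClass_eq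
    (R0 := CommRingCat.of (B ⊗[k] A0)) (R1 := CommRingCat.of (B ⊗[k] A1))
    (R01 := CommRingCat.of (B ⊗[k] A01))
    (chartMap c B ι0 hι0) (chartMap c B ι1 hι1) (chartMap c B ι01 hι01)
    (specMap_chartMap c B ι0 ι01 hι0 hι01 h0) (specMap_chartMap c B ι1 ι01 hι1 hι01 h1)
    ((1 : B) ⊗ₜ[k] t) ((1 : B) ⊗ₜ[k] s)
    (opensRange_chartMap_sup c B ι0 hι0 ι1 hι1 hcov)
    (opensRange_chartMap_inf_eq c ι0 ι1 ι01 hι0 hι1 hι01 hinf B) y

end Fermat.Agent.JAC.Final.SchemeDictGlue87
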