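/-
Programme JAC (S25), chapter Final (helper36): THE TWO-CHART SCHEME DATA OF THE CURVE in the literal
input shape of `AbelWiring27.s25_of_relModel_twoCharts`.

* `isPullback_of_opensRange_inf` : three open immersions `ι0 ι1 ι01` into a scheme with
  `p0 ≫ ι0 = ι01`, `p1 ≫ ι1 = ι01` and `range ι0 ⊓ range ι1 = range ι01` form a pullback square.
* For `D : TwoChartData c` (work package B2, helper37): `res₀ D`, `res₁ D` (restrictions to the
  overlap as `k`-algebra homomorphisms), `hpb D` (the pullback square), `hcov D` (the two charts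
  cover the curve), `hι₀ D`, `hι₁ D` (the charts are morphisms over `Spec k`, `specStr` form).
-/
import Mathlib
import Fermat.Agent.JAC.B2.Adapter37
import Fermat.Agent.JAC.Repr.Lifting10

set_option autoImplicit false

universe u

open CategoryTheory CategoryTheory.Limits AlgebraicGeometry

namespace Fermat.Agent.JAC.Final.TwoChartSquare36

section General

variable {X U0 U1 U01 : Scheme.{u}} (ι0 : U0 ⟶ X) (ι1 : U1 ⟶ X) (ι01 : U01 ⟶ X)
  [IsOpenImmersion ι0] [IsOpenImmersion ι1] [IsOpenImmersion ι01]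

/-- Three open immersions with `range ι0 ⊓ range ι1 = range ι01` and compatible restriction maps
form a pullback square. -/
theorem isPullback_of_opensRange_inf (p0 : U01 ⟶ U0) (p1 : U01 ⟶ U1)
    (h0 : p0 ≫ ι0 = ι01) (h1 : p1 ≫ ι1 = ι01)
    (hr : ι0.opensRange ⊓ ι1.opensRange = ι01.opensRange) : IsPullback p0 p1 ι0 ι1 := by
  have hrange : ∀ s : PullbackCone ι0 ι1,
      Set.range (s.fst ≫ ι0) ⊆ Set.range ι01 := by
    intro s x hx
    have hx0 : x ∈ ι0.opensRange := by
      obtain ⟨y, rfl⟩ := hx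
      exact ⟨s.fst y, by simp⟩
    have hx1 : x ∈ ι1.opensRange := by
      obtain ⟨y, rfl⟩ := hx
      refine ⟨s.snd y, ?_⟩
      rw [s.condition]
      simp
    have : x ∈ ι0.opensRange ⊓ ι1.opensRange := ⟨hx0, hx1⟩
    rw [hr] at this
    exact this
  refine ⟨⟨by rw [h0, h1]⟩, ⟨PullbackCone.IsLimit.mk _
    (fun s => IsOpenImmersion.lift ι01 (s.fst ≫ ι0) (hrange s)) ?_ ?_ ?_⟩⟩
  · intro s
    rw [← cancel_mono ι0, Category.assoc, h0, IsOpenImmersion.lift_fac]
  · intro s
    rw [← cancel_mono ι1, Category.assoc, h1, IsOpenImmersion.lift_fac, s.condition]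
  · intro s m hm _
    rw [← cancel_mono ι01, IsOpenImmersion.lift_fac, ← h0, ← Category.assoc, hm]

end General

section TwoChart

open Fermat.Agent.JAC.B2.Charts37 Fermat.Agent.JAC.B2.Domain37 Fermat.Agent.JAC.B2.Valuative37
  Fermat.Agent.JAC.B2.TwoChart37 Fermat.Agent.JAC.B2.Export37 Fermat.Agent.JAC.B2.CurveBlock37
  Fermat.Agent.JAC.B2.Adapter37 Fermat.Agent.JAC.Repr.Lifting10

variable {k : Type u} [Field k] {C : Scheme.{u}} {c : C ⟶ Spec (.of k)} (D : TwoChartData c)

attribute [local instance] algK₀ algK₁ algK₀₁ alg₀ alg₁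

/-- Restriction from the first chart to the overlap, as a `k`-algebra homomorphism. -/
noncomputable def res₀ : A₀ D →ₐ[k] A₀₁ D := IsScalarTower.toAlgHom k (A₀ D) (A₀₁ D)

/-- Restriction from the second chart to the overlap, as a `k`-algebra homomorphism. -/
noncomputable def res₁ : A₁ D →ₐ[k] A₀₁ D := IsScalarTower.toAlgHom k (A₁ D) (A₀₁ D)

theorem res₀_toRingHom : (res₀ D).toRingHom = algebraMap (A₀ D) (A₀₁ D) := rfl

theorem res₁_toRingHom : (res₁ D).toRingHom = algebraMap (A₁ D) (A₀₁ D) := rfl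

/-- **The overlap of the two charts is `Spec A₀₁`** (pullback square in the literal form consumed
by `AbelWiring27.s25_of_relModel_twoCharts`). -/
theorem hpb : IsPullback (Spec.map (CommRingCat.ofHom (res₀ D).toRingHom))
    (Spec.map (CommRingCat.ofHom (res₁ D).toRingHom)) (ι₀ D) (ι₁ D) :=
  isPullback_of_opensRange_inf (ι₀ D) (ι₁ D) (ι₀₁ D) _ _ (specMap_algebraMap_ι₀ D)
    (specMap_algebraMap_ι₁ D) (opensRange_inf D)

/-- The two charts cover the curve. -/
theorem hcov (x : C) : x ∈ Set.range (ι₀ D) ∨ x ∈ Set.range (ι₁ D) := by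
  have h : x ∈ (ι₀ D).opensRange ⊔ (ι₁ D).opensRange := by
    rw [opensRange_sup D]
    trivial
  exact h

/-- The first chart is a morphism over `Spec k` (`specStr` form). -/
theorem hι₀ : ι₀ D ≫ c = specStr (R := k) (A₀ D) :=
  Fermat.Agent.JAC.B2.Adapter37.hι₀ D

/-- The second chart is a morphism over `Spec k` (`specStr` form). -/
theorem hι₁ : ι₁ D ≫ c = specStr (R := k) (A₁ D) :=
  Fermat.Agent.JAC.B2.Adapter37.hι₁ D

end TwoChart

end Fermat.Agent.JAC.Final.TwoChartSquare36
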